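import Mathlib.NumberTheory.ModularForms.CongruenceSubgroups
import Mathlib.GroupTheory.GroupAction.Quotient
import Mathlib.GroupTheory.Index
import Mathlib.Data.ZMod.Units
import Mathlib.Data.Nat.Factorization.Induction
import Mathlib.Data.Nat.Totient
import Mathlib.Tactic.LinearCombination
import Fermat.Prelude.Def_ModularCurve_GenusNumerics

/-!
The cosets `SL(2, ℤ) ⧸ Γ₀(N)` as points `(a : c)` of the projective line over `ℤ/N`:
their number, the fixed points of `S` and of `S * T`, and the orbits of `T`.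
-/

set_option autoImplicit false

open Matrix Matrix.SpecialLinearGroup CongruenceSubgroup ModularGroup
open scoped MatrixGroups

namespace FLTAgent.Dim

/-- The coset space of `Γ₀(N)`. -/
abbrev Cosets0 (N : ℕ) : Type := SL(2, ℤ) ⧸ CongruenceSubgroup.Gamma0 N

theorem mk_eq_mk_iff {N : ℕ} (g g' : SL(2, ℤ)) :
    (g : Cosets0 N) = g' ↔ ((g 0 0 * g' 1 0 - g 1 0 * g' 0 0 : ℤ) : ZMod N) = 0 := by
  rw [QuotientGroup.eq, Gamma0_mem]
  have : (g⁻¹ * g') 1 0 = g 0 0 * g' 1 0 - g 1 0 * g' 0 0 := by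
    rw [coe_mul, coe_inv, Matrix.adjugate_fin_two, Matrix.mul_apply, Fin.sum_univ_two]
    simp
    ring
  rw [this]

theorem col_relation (g : SL(2, ℤ)) : g 0 0 * g 1 1 - g 0 1 * g 1 0 = 1 := by
  have := g.det_coe
  rwa [Matrix.det_fin_two] at this

theorem T_zpow_smul_mk {N : ℕ} (n : ℤ) (g : SL(2, ℤ)) :
    T ^ n • (g : Cosets0 N) = ((T ^ n * g : SL(2, ℤ)) : Cosets0 N) := rfl

theorem T_zpow_mul_col (n : ℤ) (g : SL(2, ℤ)) :
    (T ^ n * g) 0 0 = g 0 0 + n * g 1 0 ∧ (T ^ n * g) 1 0 = g 1 0 := by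
  rw [coe_mul, coe_T_zpow]
  simp [Matrix.mul_apply, Fin.sum_univ_two]

theorem S_mul_col (g : SL(2, ℤ)) :
    (S * g) 0 0 = - g 1 0 ∧ (S * g) 1 0 = g 0 0 := by
  rw [coe_mul, coe_S]
  simp [Matrix.mul_apply, Fin.sum_univ_two]

theorem ST_mul_col (g : SL(2, ℤ)) :
    (S * T * g) 0 0 = - g 1 0 ∧ (S * T * g) 1 0 = g 0 0 + g 1 0 := by
  have h1 := S_mul_col (T * g)
  have h2 := T_zpow_mul_col 1 g
  rw [zpow_one, one_mul] at h2
  rw [mul_assoc, h1.1, h1.2, h2.1, h2.2]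
  exact ⟨rfl, rfl⟩

/-- A matrix with first column `(x, 1)`. -/
def colOne (x : ℤ) : SL(2, ℤ) := ⟨!![x, -1; 1, 0], by simp [Matrix.det_fin_two_of]⟩

@[simp] theorem colOne_00 (x : ℤ) : colOne x 0 0 = x := rfl
@[simp] theorem colOne_10 (x : ℤ) : colOne x 1 0 = 1 := rfl

/-- If a quadratic relation between the column entries forces the bottom entry to be a unit,
the fixed cosets are parametrised by the roots of the quadratic. -/
theorem card_fixed_aux {N : ℕ} [NeZero N] (A : SL(2, ℤ)) (P : ZMod N → ZMod N → Prop)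
    (hA : ∀ g : SL(2, ℤ), A • (g : Cosets0 N) = g ↔ P (g 0 0 : ℤ) (g 1 0 : ℤ))
    (hunit : ∀ a c u v : ZMod N, u * a + v * c = 1 → P a c → IsUnit c)
    (hscale : ∀ a c : ZMod N, ∀ w : (ZMod N)ˣ, P a c → P (a * w) (c * w)) :
    Nat.card {q : Cosets0 N // A • q = q} = Nat.card {x : ZMod N // P x 1} := by
  classical
  have hfix : ∀ x : {x : ZMod N // P x 1},
      A • (colOne (x.1.val : ℤ) : Cosets0 N) = colOne (x.1.val : ℤ) := fun x ↦ by
    rw [hA]; simpa using x.2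
  refine (Nat.card_congr (Equiv.ofBijective
    (fun x ↦ (⟨(colOne (x.1.val : ℤ) : Cosets0 N), hfix x⟩ : {q : Cosets0 N // A • q = q}))
    ⟨?_, ?_⟩)).symm
  · intro x y hxy
    have := (mk_eq_mk_iff _ _).mp (congrArg Subtype.val hxy)
    apply Subtype.ext
    simpa [sub_eq_zero] using this
  · rintro ⟨q, hq⟩
    induction q using QuotientGroup.induction_on with | H g => ?_
    have hP := (hA g).mp hq
    have hrel : ((g 1 1 : ℤ) : ZMod N) * (g 0 0 : ℤ) + (-(g 0 1 : ℤ) : ℤ) * (g 1 0 : ℤ) = 1 := by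
      have := congrArg (fun z : ℤ ↦ (z : ZMod N)) (col_relation g)
      push_cast at this ⊢
      linear_combination this
    obtain ⟨w, hw⟩ := hunit _ _ _ _ hrel hP
    have hP' := hscale _ _ w⁻¹ hP
    rw [← hw, Units.mul_inv] at hP'
    refine ⟨⟨((g 0 0 : ℤ) : ZMod N) * (w⁻¹ : (ZMod N)ˣ), hP'⟩, Subtype.ext ?_⟩
    refine (mk_eq_mk_iff _ _).mpr ?_
    simp only [colOne_00, colOne_10]
    push_cast
    rw [← hw, ZMod.natCast_zmod_val, mul_assoc, Units.inv_mul]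
    ring

theorem card_fixed_S (N : ℕ) [NeZero N] :
    Nat.card {q : Cosets0 N // S • q = q} = ModularCurve.nuTwo N := by
  rw [card_fixed_aux S (fun a c : ZMod N ↦ a ^ 2 + c ^ 2 = 0)]
  · unfold ModularCurve.nuTwo
    simp
  · intro g
    rw [MulAction.Quotient.smul_coe, smul_eq_mul, eq_comm, mk_eq_mk_iff,
      (S_mul_col g).1, (S_mul_col g).2]
    push_cast
    constructor <;> intro h <;> linear_combination h
  · intro a c u v h hP
    refine IsUnit.of_mul_eq_one (-(u ^ 2) * c + 2 * u * v * a + v ^ 2 * c) ?_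
    linear_combination (u * a + v * c + 1) * h - u ^ 2 * hP
  · intro a c w hP
    linear_combination ((w : ZMod N) ^ 2) * hP

theorem card_fixed_ST (N : ℕ) [NeZero N] :
    Nat.card {q : Cosets0 N // (S * T) • q = q} = ModularCurve.nuThree N := by
  rw [card_fixed_aux (S * T) (fun a c : ZMod N ↦ a ^ 2 + a * c + c ^ 2 = 0)]
  · unfold ModularCurve.nuThree
    simp
  · intro g
    rw [MulAction.Quotient.smul_coe, smul_eq_mul, eq_comm, mk_eq_mk_iff,
      (ST_mul_col g).1, (ST_mul_col g).2]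
    push_cast
    constructor <;> intro h <;> linear_combination h
  · intro a c u v h hP
    refine IsUnit.of_mul_eq_one (-(u ^ 2) * (a + c) + 2 * u * v * a + v ^ 2 * c) ?_
    linear_combination (u * a + v * c + 1) * h - u ^ 2 * hP
  · intro a c w hP
    linear_combination ((w : ZMod N) ^ 2) * hP

/-! ### Normal form `(a : g)` with `g ∣ N`, `a` taken modulo `N / g` -/

theorem gcd_dvd_div (N g : ℕ) : Nat.gcd g (N / g) ∣ N / g := Nat.gcd_dvd_right _ _

/-- Reduction `ℤ/(N/g) → ℤ/gcd(g, N/g)`. -/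
def redHom (N g : ℕ) : ZMod (N / g) →+* ZMod (Nat.gcd g (N / g)) :=
  ZMod.castHom (gcd_dvd_div N g) _

theorem redHom_intCast (N g : ℕ) (z : ℤ) : redHom N g (z : ZMod (N / g)) = z := map_intCast _ z

/-- The normal forms. -/
abbrev Pts (N : ℕ) : Type :=
  Σ g : {g // g ∈ N.divisors}, {x : ZMod (N / g.1) // IsUnit (redHom N g.1 x)}

theorem exists_coprime_lift {g M : ℕ} (hg : g ≠ 0) (x : ℤ)
    (h : ∀ p : ℕ, p.Prime → p ∣ g → p ∣ M → ¬ (p : ℤ) ∣ x) :
    ∃ a : ℤ, (a : ZMod M) = (x : ZMod M) ∧ IsCoprime a (g : ℤ) := by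
  classical
  set t : ℕ := ∏ p ∈ g.primeFactors.filter (fun p : ℕ ↦ ¬ (p : ℤ) ∣ x), p with ht
  refine ⟨x + (M : ℤ) * t, by simp, ?_⟩
  rw [Int.isCoprime_iff_gcd_eq_one, Int.gcd]
  refine Nat.coprime_of_dvd fun p hp hpa hpg ↦ ?_
  have hpa' : (p : ℤ) ∣ x + (M : ℤ) * t := Int.natCast_dvd.mpr hpa
  have hpg' : p ∣ g := by simpa using hpg
  by_cases hx : (p : ℤ) ∣ x
  · have hMt : (p : ℤ) ∣ (M : ℤ) * t := by
      have := dvd_sub hpa' hx
      simpa using this
    rw [← Int.natCast_mul, Int.natCast_dvd_natCast] at hMt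
    rcases hp.dvd_mul.mp hMt with hM | hT
    · exact h p hp hpg' hM hx
    · rw [ht, (Nat.prime_iff.mp hp).dvd_finsetProd_iff] at hT
      obtain ⟨r, hr, hpr⟩ := hT
      simp only [Finset.mem_filter, Nat.mem_primeFactors] at hr
      rw [(Nat.prime_dvd_prime_iff_eq hp hr.1.1).mp hpr] at hx
      exact hr.2 hx
  · have hpt : p ∣ t := by
      refine Finset.dvd_prod_of_mem _ ?_
      simp [Nat.mem_primeFactors, hp, hpg', hg, hx]
    have : (p : ℤ) ∣ x := by
      have := dvd_sub hpa' (dvd_mul_of_dvd_right (Int.natCast_dvd_natCast.mpr hpt) (M : ℤ))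
      simpa using this
    exact hx this

theorem exists_rep {N : ℕ} (p : Pts N) : ∃ γ : SL(2, ℤ),
    ((γ 0 0 : ℤ) : ZMod (N / p.1.1)) = p.2.1 ∧ γ 1 0 = (p.1.1 : ℤ) := by
  obtain ⟨⟨g, hg⟩, ⟨x, hx⟩⟩ := p
  obtain ⟨z, rfl⟩ := ZMod.intCast_surjective x
  have hg0 : g ≠ 0 := (Nat.pos_of_mem_divisors hg).ne'
  obtain ⟨a, ha, hcop⟩ := exists_coprime_lift (M := N / g) hg0 z (by
    intro p hp hpg hpM hpz
    have hpe : p ∣ Nat.gcd g (N / g) := Nat.dvd_gcd hpg hpM
    have : IsUnit (ZMod.castHom hpe (ZMod p) (redHom N g (z : ZMod (N / g)))) := hx.map _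
    rw [redHom_intCast, map_intCast, (ZMod.intCast_zmod_eq_zero_iff_dvd z p).mpr hpz] at this
    have : Fact p.Prime := Fact.mk hp
    exact not_isUnit_zero (M₀ := ZMod p) (by assumption))
  obtain ⟨γ, h0, h1⟩ := hcop.exists_SL2_col 0
  exact ⟨γ, by rw [h0]; exact ha, h1⟩

/-- A matrix representing a normal form. -/
noncomputable def rep {N : ℕ} (p : Pts N) : SL(2, ℤ) := (exists_rep p).choose

theorem rep_00 {N : ℕ} (p : Pts N) : ((rep p 0 0 : ℤ) : ZMod (N / p.1.1)) = p.2.1 :=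
  (exists_rep p).choose_spec.1

theorem rep_10 {N : ℕ} (p : Pts N) : rep p 1 0 = (p.1.1 : ℤ) := (exists_rep p).choose_spec.2

theorem dvd_of_mem {N : ℕ} (g : {g // g ∈ N.divisors}) : g.1 ∣ N := Nat.dvd_of_mem_divisors g.2

theorem rep_zpow_eq_iff {N : ℕ} [NeZero N] (n : ℤ) (p q : Pts N) :
    T ^ n • (rep p : Cosets0 N) = rep q ↔
      p.1 = q.1 ∧ ((rep p 0 0 + n * p.1.1 : ℤ) : ZMod (N / p.1.1)) =
        ((rep q 0 0 : ℤ) : ZMod (N / p.1.1)) := by
  rw [T_zpow_smul_mk, mk_eq_mk_iff, (T_zpow_mul_col n (rep p)).1, (T_zpow_mul_col n (rep p)).2,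
    rep_10, rep_10]
  set a := rep p 0 0
  set b := rep q 0 0
  constructor
  · intro h
    rw [ZMod.intCast_zmod_eq_zero_iff_dvd] at h
    have hp : (p.1.1 : ℤ) ∣ (N : ℤ) := Int.natCast_dvd_natCast.mpr (dvd_of_mem p.1)
    have hq : (q.1.1 : ℤ) ∣ (N : ℤ) := Int.natCast_dvd_natCast.mpr (dvd_of_mem q.1)
    have h1 : (p.1.1 : ℤ) ∣ a * q.1.1 := by
      obtain ⟨r, hr⟩ := hp.trans h
      exact ⟨r + b - n * q.1.1, by linear_combination hr⟩
    have h2 : (q.1.1 : ℤ) ∣ b * p.1.1 := by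
      obtain ⟨r, hr⟩ := hq.trans h
      exact ⟨a + n * p.1.1 - r, by linear_combination -hr⟩
    have ca : IsCoprime (p.1.1 : ℤ) a := by
      have := isCoprime_col (rep p) 0
      rw [rep_10] at this
      exact this.symm
    have cb : IsCoprime (q.1.1 : ℤ) b := by
      have := isCoprime_col (rep q) 0
      rw [rep_10] at this
      exact this.symm
    have heq : p.1 = q.1 := Subtype.ext <| Nat.dvd_antisymm
      (Int.natCast_dvd_natCast.mp (ca.dvd_of_dvd_mul_left h1))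
      (Int.natCast_dvd_natCast.mp (cb.dvd_of_dvd_mul_left h2))
    refine ⟨heq, ?_⟩
    rw [← heq] at h
    rw [← sub_eq_zero, ← Int.cast_sub, ZMod.intCast_zmod_eq_zero_iff_dvd]
    have hg0 : (p.1.1 : ℤ) ≠ 0 := Int.natCast_ne_zero.mpr (Nat.pos_of_mem_divisors p.1.2).ne'
    refine (mul_dvd_mul_iff_left hg0).mp ?_
    rw [← Int.natCast_mul, Nat.mul_div_cancel' (dvd_of_mem p.1)]
    obtain ⟨r, hr⟩ := h
    exact ⟨r, by linear_combination hr⟩
  · rintro ⟨heq, h⟩
    rw [← sub_eq_zero, ← Int.cast_sub, ZMod.intCast_zmod_eq_zero_iff_dvd] at h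
    rw [← heq, ZMod.intCast_zmod_eq_zero_iff_dvd]
    obtain ⟨r, hr⟩ := h
    refine ⟨r, ?_⟩
    have hN : ((p.1.1 : ℤ)) * ((N / p.1.1 : ℕ) : ℤ) = (N : ℤ) := by
      rw [← Int.natCast_mul, Nat.mul_div_cancel' (dvd_of_mem p.1)]
    linear_combination (p.1.1 : ℤ) * hr + r * hN

theorem rep_injective {N : ℕ} [NeZero N] :
    Function.Injective (fun p : Pts N ↦ (rep p : Cosets0 N)) := by
  intro p q h
  have h' : T ^ (0 : ℤ) • (rep p : Cosets0 N) = rep q := by simpa using h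
  obtain ⟨h1, h2⟩ := (rep_zpow_eq_iff 0 p q).mp h'
  obtain ⟨g, x⟩ := p
  obtain ⟨g', y⟩ := q
  obtain rfl : g = g' := h1
  rw [zero_mul, add_zero, rep_00 ⟨g, x⟩, rep_00 ⟨g, y⟩] at h2
  exact congrArg (Sigma.mk g) (Subtype.ext h2)

theorem rep_surjective {N : ℕ} [NeZero N] :
    Function.Surjective (fun p : Pts N ↦ (rep p : Cosets0 N)) := by
  intro q
  induction q using QuotientGroup.induction_on with | H γ => ?_
  set a := γ 0 0 with ha
  set c := γ 1 0 with hc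
  set g := Int.gcd c N with hg
  have hgN : g ∣ N := Int.natCast_dvd_natCast.mp (Int.gcd_dvd_right c N)
  have hg0 : 0 < g := Int.gcd_pos_iff.mpr (Or.inr (Int.natCast_ne_zero.mpr (NeZero.ne N)))
  obtain ⟨u, hu⟩ : (g : ℤ) ∣ c := Int.gcd_dvd_left c N
  have hgz : (g : ℤ) ≠ 0 := Int.natCast_ne_zero.mpr hg0.ne'
  have hN : (g : ℤ) * ((N / g : ℕ) : ℤ) = (N : ℤ) := by
    rw [← Int.natCast_mul, Nat.mul_div_cancel' hgN]
  obtain ⟨s, t, hst⟩ : IsCoprime u ((N / g : ℕ) : ℤ) := by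
    refine ⟨Int.gcdA c N, Int.gcdB c N, ?_⟩
    apply mul_left_cancel₀ hgz
    have := Int.gcd_eq_gcd_ab c N
    rw [← hg] at this
    linear_combination (-Int.gcdA c N) * hu + (Int.gcdB c N) * hN - this
  have hx : IsUnit (redHom N g ((a * s : ℤ) : ZMod (N / g))) := by
    rw [redHom_intCast]
    obtain ⟨r, w, hrw⟩ := isCoprime_col γ 0
    refine IsUnit.of_mul_eq_one ((r * u : ℤ) : ZMod (Nat.gcd g (N / g))) ?_
    have e1 : ((g : ℤ) : ZMod (Nat.gcd g (N / g))) = 0 := by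
      rw [ZMod.intCast_zmod_eq_zero_iff_dvd, Int.natCast_dvd_natCast]
      exact Nat.gcd_dvd_left _ _
    have e2 : (((N / g : ℕ) : ℤ) : ZMod (Nat.gcd g (N / g))) = 0 := by
      rw [ZMod.intCast_zmod_eq_zero_iff_dvd, Int.natCast_dvd_natCast]
      exact Nat.gcd_dvd_right _ _
    have hst' := congrArg (fun z : ℤ ↦ (z : ZMod (Nat.gcd g (N / g)))) hst
    have hrw' := congrArg (fun z : ℤ ↦ (z : ZMod (Nat.gcd g (N / g)))) hrw
    rw [← ha, ← hc, hu] at hrw'
    push_cast at hst' hrw' ⊢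
    push_cast at e1 e2
    rw [e2, mul_zero, add_zero] at hst'
    rw [e1, zero_mul, mul_zero, add_zero] at hrw'
    linear_combination hrw' + ((a : ZMod (Nat.gcd g (N / g))) * r) * hst'
  set p : Pts N := ⟨⟨g, Nat.mem_divisors.mpr ⟨hgN, NeZero.ne N⟩⟩, ⟨_, hx⟩⟩ with hp
  refine ⟨p, (mk_eq_mk_iff _ _).mpr ?_⟩
  rw [ZMod.intCast_zmod_eq_zero_iff_dvd, rep_10]
  have hb : ((rep p 0 0 : ℤ) : ZMod (N / g)) = ((a * s : ℤ) : ZMod (N / g)) := rep_00 p
  rw [← sub_eq_zero, ← Int.cast_sub, ZMod.intCast_zmod_eq_zero_iff_dvd] at hb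
  obtain ⟨j, hj⟩ := hb
  rw [← ha, ← hc]
  refine ⟨j * u - a * t, ?_⟩
  show rep p 0 0 * c - (g : ℤ) * a = _
  linear_combination (rep p 0 0) * hu + ((g : ℤ) * u) * hj + ((g : ℤ) * a) * hst +
    (j * u - a * t) * hN

/-- Cosets of `Γ₀(N)` and normal forms. -/
noncomputable def ptsEquiv (N : ℕ) [NeZero N] : Pts N ≃ Cosets0 N :=
  Equiv.ofBijective _ ⟨rep_injective, rep_surjective⟩

theorem card_isUnit_fibre {M e : ℕ} [NeZero M] (h : e ∣ M) :
    Nat.card {x : ZMod M // IsUnit (ZMod.castHom h (ZMod e) x)} = M / e * Nat.totient e := by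
  classical
  have : NeZero e := ⟨fun he ↦ NeZero.ne M (Nat.eq_zero_of_zero_dvd (he ▸ h))⟩
  set π : ZMod M →+ ZMod e := (ZMod.castHom h (ZMod e)).toAddMonoidHom with hπ
  have hs : Function.Surjective π := ZMod.castHom_surjective h
  let s := Function.surjInv hs
  have hsec : ∀ y, π (s y) = y := Function.surjInv_eq hs
  let eq1 : ZMod M ≃ ZMod e × π.ker :=
    { toFun := fun x ↦ (π x, ⟨x - s (π x), by simp [AddMonoidHom.mem_ker, hsec]⟩)
      invFun := fun p ↦ s p.1 + p.2.1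
      left_inv := fun x ↦ by simp
      right_inv := fun ⟨y, k, hk⟩ ↦ by
        rw [AddMonoidHom.mem_ker] at hk
        refine Prod.ext ?_ (Subtype.ext ?_) <;> simp [hsec, hk] }
  have hM : M = e * Nat.card π.ker := by
    simpa using Nat.card_congr eq1
  have hk : Nat.card π.ker = M / e := by
    exact (Nat.div_eq_of_eq_mul_left (Nat.pos_of_ne_zero (NeZero.ne e))
      (hM.trans (mul_comm _ _))).symm
  let eq3 : {p : ZMod e × π.ker // IsUnit p.1} ≃ (ZMod e)ˣ × π.ker :=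
      { toFun := fun p ↦ (p.2.unit, p.1.2)
        invFun := fun p ↦ ⟨((p.1 : ZMod e), p.2), Units.isUnit p.1⟩
        left_inv := fun p ↦ by simp
        right_inv := fun p ↦ by simp }
  let eq2 : {x : ZMod M // IsUnit (π x)} ≃ (ZMod e)ˣ × π.ker :=
    (eq1.subtypeEquiv (q := fun p ↦ IsUnit p.1) (fun x ↦ Iff.rfl)).trans eq3
  rw [show Nat.card {x : ZMod M // IsUnit (ZMod.castHom h (ZMod e) x)} = _ from Nat.card_congr eq2,
    Nat.card_prod, hk, Nat.card_eq_fintype_card, ZMod.card_units_eq_totient, mul_comm]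

theorem sum_divisors_coprime_mul (F : ℕ → ℕ → ℕ)
    (hF : ∀ a a' b b' : ℕ, (a * a').Coprime (b * b') → F (a * b) (a' * b') = F a a' * F b b')
    {m n : ℕ} (hmn : m.Coprime n) :
    ∑ d ∈ (m * n).divisors, F d (m * n / d) =
      (∑ d ∈ m.divisors, F d (m / d)) * ∑ d ∈ n.divisors, F d (n / d) := by
  rw [Finset.sum_mul_sum, ← Finset.sum_product']
  refine (Finset.sum_bij (fun x _ ↦ x.1 * x.2) ?_ ?_ ?_ ?_).symm
  · rintro ⟨a, b⟩ h
    simp only [Finset.mem_product, Nat.mem_divisors] at h ⊢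
    exact ⟨mul_dvd_mul h.1.1 h.2.1, mul_ne_zero h.1.2 h.2.2⟩
  · rintro ⟨a, b⟩ h ⟨a', b'⟩ h' heq
    simp only [Finset.mem_product, Nat.mem_divisors] at h h'
    dsimp only at heq
    have cab : ∀ x y, x ∣ m → y ∣ n → x.Coprime y := fun x y hx hy ↦
      Nat.Coprime.coprime_dvd_left hx (Nat.Coprime.coprime_dvd_right hy hmn)
    have h1 : a = a' := Nat.dvd_antisymm
      ((cab a b' h.1.1 h'.2.1).dvd_of_dvd_mul_right (heq ▸ dvd_mul_right a b))
      ((cab a' b h'.1.1 h.2.1).dvd_of_dvd_mul_right (heq.symm ▸ dvd_mul_right a' b'))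
    subst h1
    have ha0 : 0 < a := Nat.pos_of_dvd_of_pos h.1.1 (Nat.pos_of_ne_zero h.1.2)
    rw [Nat.eq_of_mul_eq_mul_left ha0 heq]
  · intro d hd
    rw [Nat.mem_divisors] at hd
    obtain ⟨a, b, ha, hb, rfl⟩ := exists_dvd_and_dvd_of_dvd_mul hd.1
    refine ⟨(a, b), ?_, rfl⟩
    simp only [Finset.mem_product, Nat.mem_divisors]
    exact ⟨⟨ha, left_ne_zero_of_mul hd.2⟩, hb, right_ne_zero_of_mul hd.2⟩
  rintro ⟨a, b⟩ h
  obtain ⟨ha, hb⟩ := Finset.mem_product.mp h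
  obtain ⟨⟨a', rfl⟩, hm⟩ := Nat.mem_divisors.mp ha
  obtain ⟨⟨b', rfl⟩, hn⟩ := Nat.mem_divisors.mp hb
  have ha0 : 0 < a := Nat.pos_of_mem_divisors ha
  have hb0 : 0 < b := Nat.pos_of_mem_divisors hb
  rw [show a * a' * (b * b') = a * b * (a' * b') by ring,
    Nat.mul_div_cancel_left _ (Nat.mul_pos ha0 hb0), Nat.mul_div_cancel_left _ ha0,
    Nat.mul_div_cancel_left _ hb0]
  exact (hF a a' b b' hmn).symm

/-- Number of normal forms over a given divisor. -/
def fibreCount (g M : ℕ) : ℕ := M / Nat.gcd g M * Nat.totient (Nat.gcd g M)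

theorem fibreCount_mul (a a' b b' : ℕ) (h : (a * a').Coprime (b * b')) :
    fibreCount (a * b) (a' * b') = fibreCount a a' * fibreCount b b' := by
  have hab : a.Coprime b := (Nat.Coprime.coprime_mul_right h).coprime_mul_right_right
  have hab' : a.Coprime b' := (Nat.Coprime.coprime_mul_right h).coprime_mul_left_right
  have ha'b : a'.Coprime b := (Nat.Coprime.coprime_mul_left h).coprime_mul_right_right
  have ha'b' : a'.Coprime b' := (Nat.Coprime.coprime_mul_left h).coprime_mul_left_right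
  have hg : Nat.gcd (a * b) (a' * b') = Nat.gcd a a' * Nat.gcd b b' := by
    rw [Nat.Coprime.gcd_mul _ ha'b', Nat.Coprime.gcd_mul_right_cancel _ (ha'b.symm),
      Nat.Coprime.gcd_mul_left_cancel _ hab']
  have hcop : (Nat.gcd a a').Coprime (Nat.gcd b b') :=
    Nat.Coprime.coprime_dvd_left (Nat.gcd_dvd_left _ _)
      (Nat.Coprime.coprime_dvd_right (Nat.gcd_dvd_left _ _) hab)
  rw [fibreCount, fibreCount, fibreCount, hg, Nat.totient_mul hcop,
    Nat.mul_div_mul_comm (Nat.gcd_dvd_right _ _) (Nat.gcd_dvd_right _ _)]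
  ring

/-- Summand of the Dedekind psi function. -/
def psiTerm (d d' : ℕ) : ℕ := if Squarefree d then d' else 0

theorem psiTerm_mul (a a' b b' : ℕ) (h : (a * a').Coprime (b * b')) :
    psiTerm (a * b) (a' * b') = psiTerm a a' * psiTerm b b' := by
  have hab : a.Coprime b := (Nat.Coprime.coprime_mul_right h).coprime_mul_right_right
  simp only [psiTerm, Nat.squarefree_mul hab]
  split_ifs <;> simp_all

theorem sum_fibreCount_prime_pow {p : ℕ} (hp : p.Prime) (n : ℕ) :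
    ∑ i ∈ Finset.range (n + 2), fibreCount (p ^ i) (p ^ (n + 1 - i)) = p ^ (n + 1) + p ^ n := by
  have hp1 := hp.one_lt
  have hmid : ∀ i ∈ Finset.range n,
      fibreCount (p ^ (i + 1)) (p ^ (n + 1 - (i + 1))) = (p - 1) * p ^ (n - 1 - i) := by
    intro i hi
    rw [Finset.mem_range] at hi
    obtain ⟨j, rfl⟩ : ∃ j, n = i + 1 + j := ⟨n - 1 - i, by omega⟩
    rw [show i + 1 + j + 1 - (i + 1) = j + 1 by omega, show i + 1 + j - 1 - i = j by omega]
    unfold fibreCount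
    rcases le_total i j with hij | hij
    · obtain ⟨t, rfl⟩ := Nat.exists_eq_add_of_le hij
      rw [Nat.gcd_eq_left (pow_dvd_pow p (by omega)), Nat.totient_prime_pow_succ hp,
        Nat.pow_div (by omega) hp.pos, show i + t + 1 - (i + 1) = t by omega, pow_add]
      ring
    · rw [Nat.gcd_eq_right (pow_dvd_pow p (by omega)), Nat.totient_prime_pow_succ hp,
        Nat.div_self (pow_pos hp.pos _)]
      ring
  rw [Finset.sum_range_succ', Finset.sum_range_succ, Finset.sum_congr rfl hmid,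
    ← Finset.mul_sum, Finset.sum_range_reflect (fun i ↦ p ^ i) n]
  have hgeom : (p - 1) * ∑ i ∈ Finset.range n, p ^ i + 1 = p ^ n := by
    clear hmid
    induction n with
    | zero => simp
    | succ k ih =>
      rw [Finset.sum_range_succ, mul_add, add_right_comm, ih, pow_succ]
      obtain ⟨q, rfl⟩ := Nat.exists_eq_add_of_le hp.one_le
      simp
      ring
  simp only [Nat.sub_self, pow_zero, Nat.sub_zero, fibreCount, Nat.gcd_one_right,
    Nat.gcd_one_left, Nat.totient_one, Nat.div_one]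
  omega

theorem sum_psiTerm_prime_pow {p : ℕ} (hp : p.Prime) (n : ℕ) :
    ∑ i ∈ Finset.range (n + 2), psiTerm (p ^ i) (p ^ (n + 1 - i)) = p ^ (n + 1) + p ^ n := by
  rw [Finset.sum_range_succ', Finset.sum_range_succ']
  have : ∀ i ∈ Finset.range n, psiTerm (p ^ (i + 1 + 1)) (p ^ (n + 1 - (i + 1 + 1))) = 0 := by
    intro i _
    rw [psiTerm, if_neg]
    rw [Nat.squarefree_pow_iff hp.ne_one (by omega)]
    omega
  rw [Finset.sum_eq_zero this]
  simp [psiTerm, hp.squarefree, add_comm]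

theorem sum_fibreCount_eq_dedekindPsi (N : ℕ) :
    ∑ g ∈ N.divisors, fibreCount g (N / g) = ModularCurve.dedekindPsi N := by
  have hψ : ∀ M : ℕ, ModularCurve.dedekindPsi M = ∑ d ∈ M.divisors, psiTerm d (M / d) := fun M ↦ by
    simp [ModularCurve.dedekindPsi, psiTerm, Finset.sum_filter]
  induction N using Nat.recOnPrimeCoprime with
  | zero => simp [hψ]
  | prime_pow p n hp =>
    rw [hψ, Nat.sum_divisors_prime_pow hp, Nat.sum_divisors_prime_pow hp]
    cases n with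
    | zero => simp [fibreCount, psiTerm]
    | succ n =>
      have h : ∀ F : ℕ → ℕ → ℕ, ∑ i ∈ Finset.range (n + 1 + 1), F (p ^ i) (p ^ (n + 1) / p ^ i) =
          ∑ i ∈ Finset.range (n + 2), F (p ^ i) (p ^ (n + 1 - i)) := fun F ↦
        Finset.sum_congr rfl fun i hi ↦ by
          rw [Finset.mem_range] at hi
          rw [Nat.pow_div (by omega) hp.pos]
      rw [h fibreCount, h psiTerm, sum_fibreCount_prime_pow hp, sum_psiTerm_prime_pow hp]
  | coprime a b _ _ hab iha ihb =>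
    rw [sum_divisors_coprime_mul fibreCount fibreCount_mul hab, hψ,
      sum_divisors_coprime_mul psiTerm psiTerm_mul hab, iha, ihb, hψ, hψ]

theorem index_gamma0 (N : ℕ) [NeZero N] :
    (CongruenceSubgroup.Gamma0 N).index = ModularCurve.dedekindPsi N := by
  rw [Subgroup.index_eq_card, ← Nat.card_congr (ptsEquiv N)]
  have : ∀ g : {g // g ∈ N.divisors}, NeZero (N / g.1) := fun g ↦
    ⟨(Nat.div_pos (Nat.divisor_le g.2) (Nat.pos_of_mem_divisors g.2)).ne'⟩
  rw [Nat.card_sigma, ← sum_fibreCount_eq_dedekindPsi, ← Finset.sum_coe_sort N.divisors]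
  refine Finset.sum_congr rfl fun g _ ↦ ?_
  exact card_isUnit_fibre (gcd_dvd_div N g.1)

/-- The class of a normal form modulo translations. -/
abbrev CuspPts (N : ℕ) : Type := Σ g : {g // g ∈ N.divisors}, (ZMod (Nat.gcd g.1 (N / g.1)))ˣ

/-- The cusp of a normal form. -/
noncomputable def cuspOf {N : ℕ} (p : Pts N) : CuspPts N := ⟨p.1, p.2.2.unit⟩

theorem cuspOf_eq_iff {N : ℕ} (p q : Pts N) :
    cuspOf p = cuspOf q ↔ p.1 = q.1 ∧
      ((rep p 0 0 : ℤ) : ZMod (Nat.gcd p.1.1 (N / p.1.1))) = (rep q 0 0 : ℤ) := by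
  have hp := congrArg (redHom N p.1.1) (rep_00 p)
  have hq := congrArg (redHom N q.1.1) (rep_00 q)
  rw [redHom_intCast] at hp hq
  obtain ⟨g, x⟩ := p
  obtain ⟨g', y⟩ := q
  constructor
  · intro h
    obtain rfl : g = g' := congrArg Sigma.fst h
    have : x.2.unit = y.2.unit := eq_of_heq (Sigma.mk.inj h).2
    refine ⟨rfl, ?_⟩
    rw [hp, hq]
    exact congrArg Units.val this
  · rintro ⟨h1, h2⟩
    obtain rfl : g = g' := h1
    rw [hp, hq] at h2
    exact congrArg (Sigma.mk g) (Units.ext h2)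

theorem orbit_iff_cusp {N : ℕ} [NeZero N] (p q : Pts N) :
    (∃ n : ℤ, T ^ n • (rep p : Cosets0 N) = rep q) ↔ cuspOf p = cuspOf q := by
  rw [cuspOf_eq_iff]
  have eg : ((p.1.1 : ℤ) : ZMod (Nat.gcd p.1.1 (N / p.1.1))) = 0 := by
    rw [ZMod.intCast_zmod_eq_zero_iff_dvd, Int.natCast_dvd_natCast]
    exact Nat.gcd_dvd_left _ _
  constructor
  · rintro ⟨n, h⟩
    obtain ⟨h1, h2⟩ := (rep_zpow_eq_iff n p q).mp h
    have := congrArg (redHom N p.1.1) h2
    rw [redHom_intCast, redHom_intCast] at this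
    rw [Int.cast_add, Int.cast_mul, eg, mul_zero, add_zero] at this
    exact ⟨h1, this⟩
  · rintro ⟨h1, h2⟩
    rw [eq_comm, ← sub_eq_zero, ← Int.cast_sub, ZMod.intCast_zmod_eq_zero_iff_dvd] at h2
    obtain ⟨j, hj⟩ := h2
    refine ⟨j * Nat.gcdA p.1.1 (N / p.1.1), (rep_zpow_eq_iff _ p q).mpr ⟨h1, ?_⟩⟩
    rw [eq_comm, ← sub_eq_zero, ← Int.cast_sub, ZMod.intCast_zmod_eq_zero_iff_dvd]
    refine ⟨j * Nat.gcdB p.1.1 (N / p.1.1), ?_⟩
    linear_combination hj + j * Nat.gcd_eq_gcd_ab p.1.1 (N / p.1.1)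

theorem cuspOf_surjective {N : ℕ} : Function.Surjective (cuspOf (N := N)) := by
  rintro ⟨g, u⟩
  obtain ⟨x, hx⟩ := ZMod.castHom_surjective (gcd_dvd_div N g.1) (u : ZMod _)
  have hx' : redHom N g.1 x = u := hx
  refine ⟨⟨g, x, hx' ▸ u.isUnit⟩, ?_⟩
  exact congrArg (Sigma.mk g) (Units.ext hx')

theorem card_T_orbits (N : ℕ) [NeZero N] :
    Nat.card (MulAction.orbitRel.Quotient (Subgroup.zpowers T) (Cosets0 N)) =
      ModularCurve.cuspCount N := by
  classical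
  have key : ∀ a b : Cosets0 N, MulAction.orbitRel (Subgroup.zpowers T) (Cosets0 N) a b →
      cuspOf ((ptsEquiv N).symm a) = cuspOf ((ptsEquiv N).symm b) := by
    intro a b hab
    rw [MulAction.orbitRel_apply, MulAction.mem_orbit_iff] at hab
    obtain ⟨⟨t, n, rfl⟩, h⟩ := hab
    refine ((orbit_iff_cusp _ _).mp ⟨n, ?_⟩).symm
    change T ^ n • ptsEquiv N ((ptsEquiv N).symm b) = ptsEquiv N ((ptsEquiv N).symm a)
    simp only [Equiv.apply_symm_apply]
    exact h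
  let f : MulAction.orbitRel.Quotient (Subgroup.zpowers T) (Cosets0 N) → CuspPts N :=
    Quotient.lift (fun a ↦ cuspOf ((ptsEquiv N).symm a)) key
  have hf : Function.Bijective f := by
    refine ⟨?_, fun c ↦ ?_⟩
    · rintro ⟨a⟩ ⟨b⟩ h
      obtain ⟨n, hn⟩ := (orbit_iff_cusp _ _).mpr (h : cuspOf _ = cuspOf _).symm
      change T ^ n • ptsEquiv N ((ptsEquiv N).symm b) = ptsEquiv N ((ptsEquiv N).symm a) at hn
      simp only [Equiv.apply_symm_apply] at hn
      exact Quotient.sound (⟨⟨T ^ n, n, rfl⟩, hn⟩)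
    · obtain ⟨p, rfl⟩ := cuspOf_surjective c
      exact ⟨Quotient.mk'' (ptsEquiv N p), congrArg cuspOf (Equiv.symm_apply_apply _ _)⟩
  rw [Nat.card_congr (Equiv.ofBijective f hf)]
  have : ∀ g : {g // g ∈ N.divisors}, NeZero (Nat.gcd g.1 (N / g.1)) := fun g ↦
    ⟨(Nat.gcd_pos_of_pos_left _ (Nat.pos_of_mem_divisors g.2)).ne'⟩
  rw [Nat.card_sigma, ModularCurve.cuspCount, ← Finset.sum_coe_sort N.divisors]
  refine Finset.sum_congr rfl fun g _ ↦ ?_
  rw [Nat.card_eq_fintype_card, ZMod.card_units_eq_totient]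

end FLTAgent.Dim
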