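import Mathlib.NumberTheory.ModularForms.LevelOne.GradedRing
import Mathlib.NumberTheory.ModularForms.LevelOne.DimensionFormula
import Mathlib.NumberTheory.ModularForms.CongruenceSubgroups
import Mathlib.NumberTheory.ModularForms.NormTrace

/-!
Modular forms as functions on the upper half plane: the predicate `IsMF Γ k f`.
-/

set_option autoImplicit false

open UpperHalfPlane hiding I
open Filter Complex ModularGroup
open scoped ModularForm MatrixGroups Topology Manifold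

namespace FLTAgent.Dim

/-- `f` is a modular form of weight `k` for the subgroup `Γ` of `SL(2, ℤ)`. -/
structure IsMF (Γ : Subgroup SL(2, ℤ)) (k : ℤ) (f : ℍ → ℂ) : Prop where
  holo : MDiff f
  inv : ∀ g ∈ Γ, f ∣[k] g = f
  bdd : ∀ g : SL(2, ℤ), IsBoundedAtImInfty (f ∣[k] g)

namespace IsMF

variable {Γ : Subgroup SL(2, ℤ)} {k l : ℤ} {f g : ℍ → ℂ}

theorem zero : IsMF Γ k (0 : ℍ → ℂ) :=
  ⟨mdifferentiable_const, fun _ _ ↦ SlashAction.zero_slash _ _,
    fun _ ↦ by rw [SlashAction.zero_slash]; exact zero_form_isBoundedAtImInfty⟩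

theorem add (hf : IsMF Γ k f) (hg : IsMF Γ k g) : IsMF Γ k (f + g) :=
  ⟨hf.holo.add hg.holo, fun A hA ↦ by rw [SlashAction.add_slash, hf.inv A hA, hg.inv A hA],
    fun A ↦ by rw [SlashAction.add_slash]; exact (hf.bdd A).add (hg.bdd A)⟩

theorem smul (c : ℂ) (hf : IsMF Γ k f) : IsMF Γ k (c • f) :=
  ⟨hf.holo.const_smul c, fun A hA ↦ by rw [ModularForm.SL_smul_slash, hf.inv A hA],
    fun A ↦ by rw [ModularForm.SL_smul_slash]; exact (hf.bdd A).smul c⟩

theorem sub (hf : IsMF Γ k f) (hg : IsMF Γ k g) : IsMF Γ k (f - g) := by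
  have h : f - g = f + (-1 : ℂ) • g := by rw [neg_one_smul, sub_eq_add_neg]
  exact h ▸ hf.add (hg.smul (-1))

theorem sum {ι : Type*} {s : Finset ι} {F : ι → ℍ → ℂ} (h : ∀ i ∈ s, IsMF Γ k (F i)) :
    IsMF Γ k (∑ i ∈ s, F i) :=
  Finset.sum_induction _ (IsMF Γ k) (fun _ _ ↦ add) zero h

theorem mul (hf : IsMF Γ k f) (hg : IsMF Γ l g) : IsMF Γ (k + l) (f * g) :=
  ⟨hf.holo.mul hg.holo, fun A hA ↦ by rw [ModularForm.mul_slash_SL2, hf.inv A hA, hg.inv A hA],
    fun A ↦ by rw [ModularForm.mul_slash_SL2]; exact (hf.bdd A).mul (hg.bdd A)⟩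

theorem one : IsMF Γ 0 (1 : ℍ → ℂ) :=
  ⟨mdifferentiable_const, fun A _ ↦ ModularForm.is_invariant_one A,
    fun A ↦ by rw [ModularForm.is_invariant_one A]; exact const_boundedAtFilter _ _⟩

theorem pow (hf : IsMF Γ k f) (n : ℕ) : IsMF Γ (n * k) (f ^ n) := by
  induction n with
  | zero => simpa using (one (Γ := Γ))
  | succ n ih =>
    rw [pow_succ, show ((n + 1 : ℕ) : ℤ) * k = n * k + k by push_cast; ring]
    exact ih.mul hf

theorem cast (hf : IsMF Γ k f) (h : k = l) : IsMF Γ l f := h ▸ hf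

theorem mono {Γ' : Subgroup SL(2, ℤ)} (hf : IsMF Γ k f) (h : Γ' ≤ Γ) : IsMF Γ' k f :=
  ⟨hf.holo, fun A hA ↦ hf.inv A (h hA), hf.bdd⟩

theorem of_top (hf : IsMF ⊤ k f) : IsMF Γ k f := hf.mono le_top

/-- The bundled modular form. -/
noncomputable def toMF [Γ.FiniteIndex] (hf : IsMF Γ k f) :
    ModularForm (Γ : Subgroup (GL (Fin 2) ℝ)) k where
  toFun := f
  slash_action_eq' A hA := by
    obtain ⟨g, hg, rfl⟩ := hA
    exact hf.inv g hg
  holo' := hf.holo
  bdd_at_cusps' {c} hc := by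
    rw [Subgroup.IsArithmetic.isCusp_iff_isCusp_SL2Z] at hc
    exact (OnePoint.isBoundedAt_iff_forall_SL2Z hc).mpr fun g _ ↦ hf.bdd g

/-- The bundled level one modular form. -/
noncomputable def toMF1 (hf : IsMF ⊤ k f) : ModularForm 𝒮ℒ k where
  toFun := f
  slash_action_eq' A hA := by
    obtain ⟨g, rfl⟩ := hA
    exact hf.inv g trivial
  holo' := hf.holo
  bdd_at_cusps' {c} hc := by
    rw [Subgroup.IsArithmetic.isCusp_iff_isCusp_SL2Z] at hc
    exact (OnePoint.isBoundedAt_iff_forall_SL2Z hc).mpr fun g _ ↦ hf.bdd g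

@[simp] theorem coe_toMF1 (hf : IsMF ⊤ k f) : ⇑hf.toMF1 = f := rfl

theorem eq_zero_of_neg [Γ.FiniteIndex] (hf : IsMF Γ k f) (hk : k < 0) : f = 0 :=
  congrArg DFunLike.coe (ModularForm.isZero_of_neg_weight hk hf.toMF)

theorem eq_const_of_zero [Γ.FiniteIndex] (hf : IsMF Γ 0 f) : ∃ c, f = Function.const ℍ c :=
  ModularForm.eq_const_of_weight_zero hf.toMF

theorem eq_zero_of_neg_one_mem (hf : IsMF Γ k f) (h : (-1 : SL(2, ℤ)) ∈ Γ) (hk : Odd k) :
    f = 0 := by
  funext z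
  have h1 := congrFun (hf.inv _ h) z
  rw [ModularForm.SL_slash_apply, ModularGroup.SL_neg_smul, one_smul] at h1
  have hd : denom ((-1 : SL(2, ℤ)) : GL (Fin 2) ℝ) z = -1 := by simp [denom]
  rw [hd, Odd.neg_one_zpow hk.neg, mul_neg_one] at h1
  exact self_eq_neg.mp h1.symm

theorem periodic (hf : IsMF ⊤ k f) : Function.Periodic (f ∘ ofComplex) 1 := by
  simpa using SlashInvariantFormClass.periodic_comp_ofComplex hf.toMF1
    (h := 1) one_mem_strictPeriods_SL

theorem bdd' (hf : IsMF Γ k f) : IsBoundedAtImInfty f := by simpa using hf.bdd 1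

/-- Limit at infinity of a form of level one. -/
theorem tendsto_cuspFunction (hf : IsMF ⊤ k f) :
    Tendsto f atImInfty (𝓝 (cuspFunction 1 f 0)) := by
  have ha := analyticAt_cuspFunction_zero one_pos (by simpa using hf.periodic) hf.holo hf.bdd'
  refine ((ha.continuousAt.tendsto.comp (qParam_tendsto_atImInfty one_pos))).congr fun z ↦ ?_
  exact eq_cuspFunction z one_ne_zero (by simpa using hf.periodic)

end IsMF

/-- A modular form of level one satisfies the predicate. -/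
theorem isMF_of_modularForm_one {k : ℤ} (f : ModularForm 𝒮ℒ k) : IsMF ⊤ k f :=
  ⟨f.holo', fun g _ ↦ f.slash_action_eq' _ ⟨g, rfl⟩, fun g ↦ ModularFormClass.bdd_at_infty_slash f g⟩

/-- A modular form of level `Γ` satisfies the predicate. -/
theorem isMF_of_modularForm {Γ : Subgroup SL(2, ℤ)} [Γ.FiniteIndex] {k : ℤ}
    (f : ModularForm (Γ : Subgroup (GL (Fin 2) ℝ)) k) : IsMF Γ k f :=
  ⟨f.holo', fun g hg ↦ f.slash_action_eq' _ ⟨g, hg, rfl⟩,
    fun g ↦ ModularFormClass.bdd_at_infty_slash f g⟩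

theorem isMF_discriminant : IsMF ⊤ 12 ModularForm.discriminant :=
  isMF_of_modularForm_one (CuspForm.discriminant : ModularForm 𝒮ℒ 12)

theorem isMF_E4 : IsMF ⊤ 4 ModularForm.E₄ := isMF_of_modularForm_one _

theorem isMF_E6 : IsMF ⊤ 6 ModularForm.E₆ := isMF_of_modularForm_one _

end FLTAgent.Dim
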