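import Mathlib.NumberTheory.ModularForms.Derivative
import Mathlib.Analysis.Complex.Polynomial.Basic
import Fermat.Agent.Dim.Forms

/-!
Level one facts: the nowhere vanishing Wronskian of `E₄`, `E₆` (hence simple zeros),
and transfer of vanishing between points with the same `j`.
-/

set_option autoImplicit false

open UpperHalfPlane hiding I
open Filter Complex ModularGroup
open scoped ModularForm MatrixGroups Topology Manifold Real Derivative

namespace FLTAgent.Dim

/-- `E₄` as a function. -/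
noncomputable def e4 : ℍ → ℂ := ModularForm.E₄

/-- `E₆` as a function. -/
noncomputable def e6 : ℍ → ℂ := ModularForm.E₆

local notation "Δ" => ModularForm.discriminant

theorem isMF_e4 : IsMF ⊤ 4 e4 := isMF_E4

theorem isMF_e6 : IsMF ⊤ 6 e6 := isMF_E6

theorem disc_eq (z : ℍ) : Δ z = (e4 z ^ 3 - e6 z ^ 2) / 1728 :=
  ModularForm.discriminant_eq_E₄_cube_sub_E₆_sq z

theorem e4_ne_zero_of_e6 {z : ℍ} (h : e6 z = 0) : e4 z ≠ 0 := fun h4 ↦
  ModularForm.discriminant_ne_zero z (by rw [disc_eq, h, h4]; simp)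

theorem e6_ne_zero_of_e4 {z : ℍ} (h : e4 z = 0) : e6 z ≠ 0 := fun h6 ↦ e4_ne_zero_of_e6 h6 h

theorem cuspFunction_e4 : cuspFunction 1 e4 0 = 1 := by
  have := EisensteinSeries.E_qExpansion_coeff_zero (k := 4) (by norm_num) ⟨2, rfl⟩
  simpa [qExpansion_coeff] using! this

theorem cuspFunction_e6 : cuspFunction 1 e6 0 = 1 := by
  have := EisensteinSeries.E_qExpansion_coeff_zero (k := 6) (by norm_num) ⟨3, rfl⟩
  simpa [qExpansion_coeff] using! this

theorem deriv_cuspFunction_e4 : deriv (cuspFunction 1 e4) 0 = 240 := by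
  have := ModularForm.E₄_qExpansion_coeff_one
  simpa [qExpansion_coeff, iteratedDeriv_one] using! this

theorem deriv_cuspFunction_e6 : deriv (cuspFunction 1 e6) 0 = -504 := by
  have := ModularForm.E₆_qExpansion_coeff_one
  simpa [qExpansion_coeff, iteratedDeriv_one] using! this

/-- The normalised derivative in terms of the cusp function. -/
theorem normalizedDeriv_eq {k : ℤ} {f : ℍ → ℂ} (hf : IsMF ⊤ k f) (z : ℍ) :
    D f z = Function.Periodic.qParam 1 z *
      deriv (cuspFunction 1 f) (Function.Periodic.qParam 1 z) := by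
  have hper : Function.Periodic (f ∘ ofComplex) (1 : ℝ) := by simpa using hf.periodic
  have hC := (differentiableAt_cuspFunction one_pos hper hf.holo hf.bdd'
    (Function.Periodic.norm_qParam_lt_one one_pos z.im_pos)).hasDerivAt
  have hq : HasDerivAt (fun w : ℂ ↦ Function.Periodic.qParam 1 w)
      (Function.Periodic.qParam 1 z * (2 * π * I)) (z : ℂ) := by
    unfold Function.Periodic.qParam
    have := (((hasDerivAt_id (z : ℂ)).const_mul (2 * π * I)).div_const ((1 : ℝ) : ℂ)).cexp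
    simpa using this
  have heq : f ∘ ofComplex =ᶠ[𝓝 (z : ℂ)]
      (cuspFunction 1 f) ∘ fun w : ℂ ↦ Function.Periodic.qParam 1 w := by
    filter_upwards [isOpen_upperHalfPlaneSet.mem_nhds z.im_pos] with w hw
    simp only [Function.comp_apply, ofComplex_apply_of_im_pos hw]
    exact (eq_cuspFunction ⟨w, hw⟩ one_ne_zero hper).symm
  rw [Derivative.normalizedDerivOfComplex, heq.deriv_eq, (hC.comp (z : ℂ) hq).deriv]
  field_simp

/-- `4 E₄ D E₆ - 6 E₆ D E₄`. -/
noncomputable def wronskian46 : ℍ → ℂ := (4 : ℂ) • (e4 * D e6) - (6 : ℂ) • (e6 * D e4)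

theorem wronskian46_slash (γ : SL(2, ℤ)) :
    wronskian46 ∣[(12 : ℤ)] γ = wronskian46 := by
  set c : ℍ → ℂ := fun z ↦ (2 * π * I : ℂ)⁻¹ * (γ 1 0 / denom γ z) with hc
  have h4 := Derivative.normalizedDerivOfComplex_SL_slash (k := 4) isMF_e4.holo (γ := γ)
  have h6 := Derivative.normalizedDerivOfComplex_SL_slash (k := 6) isMF_e6.holo (γ := γ)
  rw [isMF_e4.inv γ trivial] at h4
  rw [isMF_e6.inv γ trivial] at h6
  have d4 : (D e4 ∣[(6 : ℤ)] γ) = D e4 + (4 : ℂ) • (c * e4) := by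
    funext z
    have := congrFun h4 z
    simp only [Pi.sub_apply] at this
    simp only [hc, Pi.add_apply, Pi.smul_apply, Pi.mul_apply, smul_eq_mul]
    push_cast at this ⊢
    linear_combination -this
  have d6 : (D e6 ∣[(8 : ℤ)] γ) = D e6 + (6 : ℂ) • (c * e6) := by
    funext z
    have := congrFun h6 z
    simp only [Pi.sub_apply] at this
    simp only [hc, Pi.add_apply, Pi.smul_apply, Pi.mul_apply, smul_eq_mul]
    push_cast at this ⊢
    linear_combination -this
  have m1 : (e4 * D e6) ∣[(12 : ℤ)] γ = e4 * (D e6 + (6 : ℂ) • (c * e6)) := by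
    rw [show (12 : ℤ) = 4 + 8 by norm_num, ModularForm.mul_slash_SL2, isMF_e4.inv γ trivial, d6]
  have m2 : (e6 * D e4) ∣[(12 : ℤ)] γ = e6 * (D e4 + (4 : ℂ) • (c * e4)) := by
    rw [show (12 : ℤ) = 6 + 6 by norm_num, ModularForm.mul_slash_SL2, isMF_e6.inv γ trivial, d4]
  rw [wronskian46, sub_eq_add_neg, SlashAction.add_slash, SlashAction.neg_slash,
    ModularForm.SL_smul_slash, ModularForm.SL_smul_slash, m1, m2]
  funext z
  simp only [Pi.add_apply, Pi.neg_apply, Pi.smul_apply, Pi.mul_apply, smul_eq_mul]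
  ring

/-- The regular part of the Wronskian at infinity. -/
noncomputable def wronskianCusp (q : ℂ) : ℂ :=
  4 * cuspFunction 1 e4 q * deriv (cuspFunction 1 e6) q -
    6 * cuspFunction 1 e6 q * deriv (cuspFunction 1 e4) q

theorem wronskian46_eq (z : ℍ) :
    wronskian46 z = Function.Periodic.qParam 1 z * wronskianCusp (Function.Periodic.qParam 1 z) := by
  have p4 : Function.Periodic (e4 ∘ ofComplex) (1 : ℝ) := by simpa using isMF_e4.periodic
  have p6 : Function.Periodic (e6 ∘ ofComplex) (1 : ℝ) := by simpa using isMF_e6.periodic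
  simp only [wronskian46, wronskianCusp, Pi.sub_apply, Pi.smul_apply, Pi.mul_apply, smul_eq_mul,
    normalizedDeriv_eq isMF_e4, normalizedDeriv_eq isMF_e6,
    eq_cuspFunction z one_ne_zero p4, eq_cuspFunction z one_ne_zero p6]
  ring

theorem tendsto_wronskianCusp :
    Tendsto (fun z : ℍ ↦ wronskianCusp (Function.Periodic.qParam 1 z)) atImInfty (𝓝 (-3456)) := by
  have a4 := analyticAt_cuspFunction_zero one_pos (by simpa using isMF_e4.periodic)
    isMF_e4.holo isMF_e4.bdd'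
  have a6 := analyticAt_cuspFunction_zero one_pos (by simpa using isMF_e6.periodic)
    isMF_e6.holo isMF_e6.bdd'
  have hw : ContinuousAt wronskianCusp 0 :=
    ((continuousAt_const.mul a4.continuousAt).mul a6.deriv.continuousAt).sub
      ((continuousAt_const.mul a6.continuousAt).mul a4.deriv.continuousAt)
  have h0 : wronskianCusp 0 = -3456 := by
    simp only [wronskianCusp, cuspFunction_e4, cuspFunction_e6, deriv_cuspFunction_e4,
      deriv_cuspFunction_e6]
    norm_num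
  exact h0 ▸ hw.tendsto.comp (qParam_tendsto_atImInfty one_pos)

theorem wronskian46_eq_const_mul_disc : wronskian46 = (-3456 : ℂ) • Δ := by
  have hholo : MDiff wronskian46 :=
    ((isMF_e4.holo.mul (Derivative.normalizedDerivOfComplex_mdifferentiable isMF_e6.holo)).const_smul
      (4 : ℂ)).sub
    ((isMF_e6.holo.mul (Derivative.normalizedDerivOfComplex_mdifferentiable isMF_e4.holo)).const_smul
      (6 : ℂ))
  have hzero : IsZeroAtImInfty wronskian46 := by
    have := (qParam_tendsto_atImInfty one_pos).mul tendsto_wronskianCusp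
    rw [zero_mul] at this
    exact this.congr fun z ↦ (wronskian46_eq z).symm
  let W : CuspForm 𝒮ℒ 12 :=
    { toFun := wronskian46
      slash_action_eq' := fun A hA ↦ by
        obtain ⟨g, rfl⟩ := hA
        exact wronskian46_slash g
      holo' := hholo
      zero_at_cusps' := fun {c} hc ↦ by
        rw [OnePoint.isZeroAt_iff_forall_SL2Z hc]
        intro g _
        rw [wronskian46_slash]
        exact hzero }
  obtain ⟨c, hc⟩ := CuspForm.exists_smul_discriminant_of_weight_eq_twelve W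
  have hcW : wronskian46 = c • Δ := (congrArg DFunLike.coe hc).symm
  have hlim : Tendsto (fun z : ℍ ↦ c * ∏' n, (1 - ModularForm.eta_q n z) ^ 24) atImInfty (𝓝 c) := by
    simpa using (ModularForm.tendsto_atImInfty_tprod_one_sub_eta_q_pow.const_mul c)
  have hfun : (fun z : ℍ ↦ c * ∏' n, (1 - ModularForm.eta_q n z) ^ 24) =
      fun z : ℍ ↦ wronskianCusp (Function.Periodic.qParam 1 z) := by
    funext z
    have h := wronskian46_eq z
    rw [hcW, Pi.smul_apply, smul_eq_mul, ModularForm.discriminant_eq_q_prod] at h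
    refine mul_left_cancel₀ (Function.Periodic.qParam_ne_zero (h := 1) (z := (z : ℂ))) ?_
    linear_combination h
  rw [hfun] at hlim
  rw [hcW, tendsto_nhds_unique hlim tendsto_wronskianCusp]

theorem wronskian46_ne_zero (z : ℍ) : wronskian46 z ≠ 0 := by
  rw [wronskian46_eq_const_mul_disc]
  simp [ModularForm.discriminant_ne_zero]

/-- `z` and `z₀` have the same `j`-invariant. -/
def SameJ (z z₀ : ℍ) : Prop := e4 z ^ 3 * e6 z₀ ^ 2 = e4 z₀ ^ 3 * e6 z ^ 2

theorem exists_scale {z z₀ : ℍ} (h : SameJ z z₀) :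
    ∃ μ : ℂ, μ ≠ 0 ∧ e4 z = μ ^ 2 * e4 z₀ ∧ e6 z = μ ^ 3 * e6 z₀ := by
  by_cases ha : e4 z₀ = 0
  · have hb : e6 z₀ ≠ 0 := e6_ne_zero_of_e4 ha
    have ha' : e4 z = 0 := by
      simpa [SameJ, ha, hb] using h
    have hb' : e6 z ≠ 0 := e6_ne_zero_of_e4 ha'
    obtain ⟨μ, hμ⟩ := IsAlgClosed.exists_pow_nat_eq (e6 z / e6 z₀) (by norm_num : 0 < 3)
    refine ⟨μ, ?_, by simp [ha, ha'], by rw [hμ, div_mul_cancel₀ _ hb]⟩
    rintro rfl
    exact div_ne_zero hb' hb (by simpa using hμ.symm)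
  by_cases hb : e6 z₀ = 0
  · have hb' : e6 z = 0 := by
      simpa [SameJ, ha, hb] using h.symm
    have ha' : e4 z ≠ 0 := e4_ne_zero_of_e6 hb'
    obtain ⟨μ, hμ⟩ := IsAlgClosed.exists_pow_nat_eq (e4 z / e4 z₀) (by norm_num : 0 < 2)
    refine ⟨μ, ?_, by rw [hμ, div_mul_cancel₀ _ ha], by simp [hb, hb']⟩
    rintro rfl
    exact div_ne_zero ha' ha (by simpa using hμ.symm)
  have ha' : e4 z ≠ 0 := fun h4 ↦ by
    simp [SameJ, h4, ha, e6_ne_zero_of_e4 h4] at h
  have hb' : e6 z ≠ 0 := fun h6 ↦ by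
    simp [SameJ, h6, hb, ha'] at h
  unfold SameJ at h
  refine ⟨e6 z * e4 z₀ / (e6 z₀ * e4 z), by simp [ha, hb, ha', hb'], ?_, ?_⟩
  · field_simp
    linear_combination h
  · field_simp
    linear_combination h

theorem exists_monomial {m : ℕ} (hm : 2 ≤ m) : ∃ a b : ℕ, 2 * a + 3 * b = m := by
  rcases Nat.even_or_odd m with ⟨t, rfl⟩ | ⟨t, rfl⟩
  · exact ⟨t, 0, by ring⟩
  · exact ⟨t - 1, 1, by omega⟩

theorem isMF_monomial (a b : ℕ) :
    IsMF ⊤ (2 * ((2 * a + 3 * b : ℕ) : ℤ)) (e4 ^ a * e6 ^ b) :=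
  ((isMF_e4.pow a).mul (isMF_e6.pow b)).cast (by push_cast; ring)

theorem eq_zero_of_weight_two {f : ℍ → ℂ} (hf : IsMF ⊤ 2 f) : f = 0 :=
  congrArg DFunLike.coe
    (rank_zero_iff_forall_zero.mp ModularForm.levelOne_weight_two_rank_zero hf.toMF1)

/-- Level one forms transform homogeneously between points with the same `j`. -/
theorem eval_of_scale {z z₀ : ℍ} {μ : ℂ} (h4 : e4 z = μ ^ 2 * e4 z₀)
    (h6 : e6 z = μ ^ 3 * e6 z₀) {m : ℕ} {f : ℍ → ℂ} (hf : IsMF ⊤ (2 * (m : ℤ)) f) :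
    f z = μ ^ m * f z₀ := by
  induction m using Nat.strong_induction_on generalizing f with | _ m ih => ?_
  rcases (by omega : m = 0 ∨ m = 1 ∨ 2 ≤ m) with rfl | rfl | hm
  · obtain ⟨c, hc⟩ := (hf.cast (by norm_num : 2 * ((0 : ℕ) : ℤ) = 0)).eq_const_of_zero
    simp [hc]
  · simp [eq_zero_of_weight_two (hf.cast (by norm_num : 2 * ((1 : ℕ) : ℤ) = 2))]
  · obtain ⟨a, b, hab⟩ := exists_monomial hm
    subst hab
    set c := cuspFunction 1 f 0
    have hg : IsMF ⊤ (2 * ((2 * a + 3 * b : ℕ) : ℤ)) (f - c • (e4 ^ a * e6 ^ b)) :=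
      hf.sub ((isMF_monomial a b).smul c)
    have hz : IsZeroAtImInfty (f - c • (e4 ^ a * e6 ^ b)) := by
      have := hf.tendsto_cuspFunction.sub (((isMF_e4.tendsto_cuspFunction.pow a).mul
        (isMF_e6.tendsto_cuspFunction.pow b)).const_mul c)
      simpa [cuspFunction_e4, cuspFunction_e6, IsZeroAtImInfty, ZeroAtFilter, c] using! this
    let G : CuspForm 𝒮ℒ (2 * ((2 * a + 3 * b : ℕ) : ℤ)) :=
      { hg.toMF1 with
        zero_at_cusps' := fun {d} hd ↦ by
          rw [OnePoint.isZeroAt_iff_forall_SL2Z hd]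
          intro g _
          change IsZeroAtImInfty ((f - c • (e4 ^ a * e6 ^ b)) ∣[_] g)
          rw [hg.inv g trivial]
          exact hz }
    have hq := isMF_of_modularForm_one (CuspForm.discriminantEquiv G)
    have hfw : ∀ w, f w = c * (e4 w ^ a * e6 w ^ b) + Δ w * CuspForm.discriminantEquiv G w := by
      intro w
      rw [ModularForm.discriminant_mul_discriminantEquiv_apply]
      change f w = _ + (f - c • (e4 ^ a * e6 ^ b)) w
      simp only [Pi.sub_apply, Pi.smul_apply, Pi.mul_apply, Pi.pow_apply, smul_eq_mul]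
      ring
    have hΔ : Δ z = μ ^ 6 * Δ z₀ := by rw [disc_eq, disc_eq, h4, h6]; ring
    have hmon : e4 z ^ a * e6 z ^ b = μ ^ (2 * a + 3 * b) * (e4 z₀ ^ a * e6 z₀ ^ b) := by
      rw [h4, h6]; ring
    rcases le_or_gt 6 (2 * a + 3 * b) with h6m | h6m
    · obtain ⟨r, hr⟩ := Nat.exists_eq_add_of_le h6m
      have := ih r (by omega) (hq.cast (by rw [hr]; push_cast; ring))
      have hp : μ ^ (2 * a + 3 * b) = μ ^ 6 * μ ^ r := by rw [hr, pow_add]
      rw [hfw z, hfw z₀, hmon, hΔ, this, hp]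
      ring
    · have h0 := hq.eq_zero_of_neg (by omega)
      rw [hfw z, hfw z₀, h0, hmon]
      simp only [Pi.zero_apply]
      ring

theorem eq_zero_iff_of_sameJ {z z₀ : ℍ} (h : SameJ z z₀) {m : ℕ} {f : ℍ → ℂ}
    (hf : IsMF ⊤ (2 * (m : ℤ)) f) : f z = 0 ↔ f z₀ = 0 := by
  obtain ⟨μ, hμ, h4, h6⟩ := exists_scale h
  simp [eval_of_scale h4 h6 hf, hμ]

/-- For each point there is a level one form with simple zeros, vanishing exactly on the points
of the same `j`, and with nonzero limit at infinity. -/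
theorem exists_separating (z₀ : ℍ) : ∃ (w : ℕ) (h : ℍ → ℂ) (l : ℂ),
    IsMF ⊤ w h ∧ ((e4 z₀ = 0 ∧ w = 4) ∨ (e6 z₀ = 0 ∧ w = 6) ∨ (e4 z₀ ≠ 0 ∧ e6 z₀ ≠ 0 ∧ w = 12)) ∧
      (∀ z, h z = 0 ↔ SameJ z z₀) ∧ (∀ z, h z = 0 → D h z ≠ 0) ∧
      l ≠ 0 ∧ Tendsto h atImInfty (𝓝 l) := by
  have hW := wronskian46_ne_zero
  simp only [wronskian46, Pi.sub_apply, Pi.smul_apply, Pi.mul_apply, smul_eq_mul] at hW
  by_cases ha : e4 z₀ = 0
  · refine ⟨4, e4, 1, isMF_e4, Or.inl ⟨ha, rfl⟩, fun z ↦ ?_, fun z hz hd ↦ hW z ?_, one_ne_zero,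
      cuspFunction_e4 ▸ isMF_e4.tendsto_cuspFunction⟩
    · simp [SameJ, ha, e6_ne_zero_of_e4 ha]
    · rw [hz, hd]; ring
  by_cases hb : e6 z₀ = 0
  · refine ⟨6, e6, 1, isMF_e6, Or.inr (Or.inl ⟨hb, rfl⟩), fun z ↦ ?_, fun z hz hd ↦ hW z ?_,
      one_ne_zero, cuspFunction_e6 ▸ isMF_e6.tendsto_cuspFunction⟩
    · simp [SameJ, hb, ha]
    · rw [hz, hd]; ring
  set A := e6 z₀ ^ 2 with hA
  set B := e4 z₀ ^ 3 with hB
  have hA0 : A ≠ 0 := pow_ne_zero _ hb
  have hB0 : B ≠ 0 := pow_ne_zero _ ha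
  refine ⟨12, A • e4 ^ 3 - B • e6 ^ 2, A - B, ?_, Or.inr (Or.inr ⟨ha, hb, rfl⟩), fun z ↦ ?_,
    fun z hz hd ↦ ?_, ?_, ?_⟩
  · exact (((isMF_e4.pow 3).cast (by norm_num)).smul A).sub
      (((isMF_e6.pow 2).cast (by norm_num)).smul B)
  · simp only [Pi.sub_apply, Pi.smul_apply, Pi.pow_apply, smul_eq_mul, sub_eq_zero, SameJ]
    rw [mul_comm A]
  · simp only [Pi.sub_apply, Pi.smul_apply, Pi.pow_apply, smul_eq_mul, sub_eq_zero] at hz
    have h4 : e4 z ≠ 0 := fun h ↦ by simp [h, hB0, e6_ne_zero_of_e4 h] at hz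
    have h6 : e6 z ≠ 0 := fun h ↦ by simp [h, hA0, h4] at hz
    have e43 : MDiff (e4 ^ 3) := (isMF_e4.pow 3).holo
    have e62 : MDiff (e6 ^ 2) := (isMF_e6.pow 2).holo
    rw [Derivative.normalizedDerivOfComplex_sub _ _ (e43.const_smul A) (e62.const_smul B),
      Derivative.normalizedDerivOfComplex_smul _ _ e43,
      Derivative.normalizedDerivOfComplex_smul _ _ e62,
      Derivative.normalizedDerivOfComplex_pow _ _ isMF_e4.holo,
      Derivative.normalizedDerivOfComplex_pow _ _ isMF_e6.holo] at hd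
    simp at hd
    refine hW z (mul_left_cancel₀ (mul_ne_zero hB0 h6) ?_)
    linear_combination -2 * e4 z * hd + 6 * D e4 z * hz
  · rw [sub_ne_zero]
    intro hAB
    refine ModularForm.discriminant_ne_zero z₀ ?_
    rw [disc_eq, ← hA, ← hB, hAB]; simp
  · have := ((isMF_e4.tendsto_cuspFunction.pow 3).const_mul A).sub
      ((isMF_e6.tendsto_cuspFunction.pow 2).const_mul B)
    simpa [cuspFunction_e4, cuspFunction_e6] using! this

end FLTAgent.Dim
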