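import Mathlib.Analysis.Complex.RemovableSingularity
import Mathlib.Analysis.Calculus.DSlope
import Fermat.Agent.Dim.LevelOneForms

/-!
Division of modular forms: by a level one form with simple zeros, and by `Δ`.
-/

set_option autoImplicit false

open UpperHalfPlane hiding I
open Filter Complex ModularGroup
open scoped ModularForm MatrixGroups Topology Manifold Real Derivative

namespace FLTAgent.Dim

variable {Γ : Subgroup SL(2, ℤ)} {k : ℤ}

theorem isMF_of_mul_eq {w : ℤ} {g h r : ℍ → ℂ} (hg : IsMF Γ k g) (hh : IsMF ⊤ w h) (hne : h ≠ 0)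
    (hr : MDiff r) (heq : r * h = g)
    (hbdd : ∀ A : SL(2, ℤ), IsBoundedAtImInfty (r ∣[k - w] A)) : IsMF Γ (k - w) r := by
  refine ⟨hr, fun A hA ↦ ?_, hbdd⟩
  have hmul : (r * h) ∣[k - w + w] A = (r ∣[k - w] A) * h := by
    rw [ModularForm.mul_slash_SL2, hh.inv A trivial]
  rw [sub_add_cancel, heq, hg.inv A hA] at hmul
  have hrA : MDiff (r ∣[k - w] A) := hr.slash _ _
  have h0 : ((r ∣[k - w] A) - r) * h = 0 := by rw [sub_mul, ← hmul, heq, sub_self]
  rcases (mul_eq_zero_iff (hrA.sub hr) hh.holo).mp h0 with h1 | h1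
  · exact sub_eq_zero.mp h1
  · exact absurd h1 hne

/-- Division by a level one form with simple zeros and nonzero limit at infinity. -/
theorem exists_quotient {w : ℤ} {g h : ℍ → ℂ} {l : ℂ} (hg : IsMF Γ k g) (hh : IsMF ⊤ w h)
    (hsimple : ∀ z, h z = 0 → D h z ≠ 0) (hl : l ≠ 0) (hlim : Tendsto h atImInfty (𝓝 l))
    (hvan : ∀ z, h z = 0 → g z = 0) : ∃ r, IsMF Γ (k - w) r ∧ r * h = g := by
  set g' := g ∘ ofComplex with hg'def
  set h' := h ∘ ofComplex with hh'def
  have hgd : DifferentiableOn ℂ g' upperHalfPlaneSet := UpperHalfPlane.mdifferentiable_iff.mp hg.holo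
  have hhd : DifferentiableOn ℂ h' upperHalfPlaneSet := UpperHalfPlane.mdifferentiable_iff.mp hh.holo
  have hsimple' : ∀ z : ℍ, h z = 0 → deriv h' (z : ℂ) ≠ 0 := fun z hz hd ↦ hsimple z hz (by
    rw [Derivative.normalizedDerivOfComplex, ← hh'def, hd, mul_zero])
  let r' : ℂ → ℂ := fun x ↦ if h' x = 0 then deriv g' x / deriv h' x else g' x / h' x
  have hcomp : ∀ (f : ℍ → ℂ) (z : ℍ), (f ∘ ofComplex) (z : ℂ) = f z := fun f z ↦ by
    simp [Function.comp_apply, ofComplex_apply]
  have hr' : DifferentiableOn ℂ r' upperHalfPlaneSet := by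
    intro x hx
    refine DifferentiableAt.differentiableWithinAt ?_
    have hnhds := isOpen_upperHalfPlaneSet.mem_nhds hx
    by_cases hx0 : h' x = 0
    · have hz0 : h ⟨x, hx⟩ = 0 := by rw [← hcomp h ⟨x, hx⟩]; exact hx0
      have hgx : g' x = 0 := by
        rw [show x = ((⟨x, hx⟩ : ℍ) : ℂ) from rfl, hg'def, hcomp, hvan _ hz0]
      have hdx : deriv h' x ≠ 0 := hsimple' ⟨x, hx⟩ hz0
      have hG := ((Complex.differentiableOn_dslope hnhds).mpr hgd).differentiableAt hnhds
      have hH := ((Complex.differentiableOn_dslope hnhds).mpr hhd).differentiableAt hnhds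
      have hHne : dslope h' x x ≠ 0 := by rwa [dslope_same]
      refine (hG.div hH hHne).congr_of_eventuallyEq ?_
      filter_upwards [hH.continuousAt.eventually_ne hHne] with y hy
      rcases eq_or_ne y x with rfl | hyx
      · simp [r', hx0, dslope_same]
      · have eg : g' y = (y - x) * dslope g' x y := by
          have := sub_smul_dslope g' x y
          rw [hgx, sub_zero, smul_eq_mul] at this
          exact this.symm
        have eh : h' y = (y - x) * dslope h' x y := by
          have := sub_smul_dslope h' x y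
          rw [hx0, sub_zero, smul_eq_mul] at this
          exact this.symm
        have hne : h' y ≠ 0 := by
          rw [eh]; exact mul_ne_zero (sub_ne_zero.mpr hyx) hy
        simp only [r', if_neg hne]
        rw [eg, eh, mul_div_mul_left _ _ (sub_ne_zero.mpr hyx)]
        rfl
    · have hh' := hhd.differentiableAt hnhds
      refine ((hgd.differentiableAt hnhds).div hh' hx0).congr_of_eventuallyEq ?_
      filter_upwards [hh'.continuousAt.eventually_ne hx0] with y hy
      simp [r', hy]
  set r : ℍ → ℂ := fun z ↦ r' z with hr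
  have hrd : MDiff r := by
    rw [UpperHalfPlane.mdifferentiable_iff]
    refine hr'.congr fun x hx ↦ ?_
    simp [hr, ofComplex_apply_of_im_pos hx]
  have heq : r * h = g := by
    funext z
    simp only [Pi.mul_apply, hr, r', hg'def, hh'def, hcomp]
    by_cases hz : h z = 0
    · simp [hz, hvan z hz]
    · rw [if_neg hz, div_mul_cancel₀ _ hz]
  have hne : h ≠ 0 := by
    rintro rfl
    exact hl (tendsto_nhds_unique hlim tendsto_const_nhds)
  refine ⟨r, isMF_of_mul_eq hg hh hne hrd heq fun A ↦ ?_, heq⟩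
  have hmul : (r ∣[k - w] A) * h = g ∣[k] A := by
    conv_rhs => rw [← heq, ← sub_add_cancel k w]
    rw [ModularForm.mul_slash_SL2, hh.inv A trivial]
  have hinv : IsBoundedAtImInfty (fun z ↦ (h z)⁻¹) := (hlim.inv₀ hl).isBigO_one ℝ
  refine Asymptotics.IsBigO.congr' ((hg.bdd A).mul hinv) ?_ EventuallyEq.rfl
  filter_upwards [hlim.eventually_ne hl] with z hz
  simp only [Pi.mul_apply]
  rw [← congrFun hmul z, Pi.mul_apply, mul_inv_cancel_right₀ hz]

/-- Division by `Δ`. -/
theorem exists_quotient_disc {g : ℍ → ℂ} (hg : IsMF Γ k g)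
    (hO : ∀ A : SL(2, ℤ), (g ∣[k] A) =O[atImInfty] ModularForm.discriminant) :
    ∃ r, IsMF Γ (k - 12) r ∧ r * ModularForm.discriminant = g := by
  set r : ℍ → ℂ := g / ModularForm.discriminant with hr
  have hΔ := ModularForm.discriminant_ne_zero
  have heq : r * ModularForm.discriminant = g := by
    funext z
    simp [hr, hΔ z]
  refine ⟨r, isMF_of_mul_eq hg isMF_discriminant (fun h ↦ hΔ UpperHalfPlane.I (congrFun h _))
    (hg.holo.div isMF_discriminant.holo hΔ) heq fun A ↦ ?_, heq⟩
  rw [hr, ModularForm.div_slash_SL2, isMF_discriminant.inv A trivial]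
  exact (Asymptotics.div_isBoundedUnder_of_isBigO (hO A)).isBigO_one ℝ

end FLTAgent.Dim
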