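import Mathlib.LinearAlgebra.Matrix.ToLinearEquiv
import Mathlib.LinearAlgebra.Matrix.Adjugate
import Mathlib.LinearAlgebra.Vandermonde
import Fermat.Agent.Dim.Forms

/-!
Conjugates of modular forms and minimal frames.
-/

set_option autoImplicit false

open UpperHalfPlane hiding I
open Filter Complex ModularGroup
open scoped ModularForm MatrixGroups Topology Manifold

namespace FLTAgent.Dim

variable {Γ : Subgroup SL(2, ℤ)}

/-- The coset space. -/
abbrev Cos (Γ : Subgroup SL(2, ℤ)) : Type := SL(2, ℤ) ⧸ Γ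

/-- The conjugate of `f` indexed by a coset. -/
noncomputable def conj (k : ℤ) (f : ℍ → ℂ) (q : Cos Γ) : ℍ → ℂ := f ∣[k] q.out⁻¹

section conj

variable {k l : ℤ} {f g : ℍ → ℂ}

theorem conj_mk (hf : IsMF Γ k f) (A : SL(2, ℤ)) : conj k f (A : Cos Γ) = f ∣[k] A⁻¹ := by
  obtain ⟨δ, hδ⟩ := QuotientGroup.mk_out_eq_mul Γ A
  rw [conj, hδ, mul_inv_rev, SlashAction.slash_mul, hf.inv _ (inv_mem δ.2)]

theorem conj_slash (hf : IsMF Γ k f) (q : Cos Γ) (A : SL(2, ℤ)) :
    conj k f q ∣[k] A = conj k f (A⁻¹ • q) := by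
  induction q using QuotientGroup.induction_on with | H B => ?_
  rw [MulAction.Quotient.smul_coe, conj_mk hf, conj_mk hf, ← SlashAction.slash_mul, smul_eq_mul,
    mul_inv_rev, inv_inv]

theorem conj_one (hf : IsMF Γ k f) : conj k f ((1 : SL(2, ℤ)) : Cos Γ) = f := by
  rw [conj_mk hf, inv_one, SlashAction.slash_one]

theorem conj_bdd (hf : IsMF Γ k f) (q : Cos Γ) : IsBoundedAtImInfty (conj k f q) := hf.bdd _

theorem conj_mdiff (hf : IsMF Γ k f) (q : Cos Γ) : MDiff (conj k f q) := hf.holo.slash _ _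

theorem conj_add (q : Cos Γ) : conj k (f + g) q = conj k f q + conj k g q :=
  SlashAction.add_slash _ _ _ _

theorem conj_smul (c : ℂ) (q : Cos Γ) : conj k (c • f) q = c • conj k f q :=
  ModularForm.SL_smul_slash _ _ _ _

theorem conj_mul (q : Cos Γ) : conj (k + l) (f * g) q = conj k f q * conj l g q :=
  ModularForm.mul_slash_SL2 _ _ _ _ _

theorem conj_level_one (hf : IsMF ⊤ k f) (q : Cos Γ) : conj k f q = f := hf.inv _ trivial

theorem conj_sum {ι : Type*} (s : Finset ι) (F : ι → ℍ → ℂ) (q : Cos Γ) :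
    conj k (∑ i ∈ s, F i) q = ∑ i ∈ s, conj k (F i) q :=
  SlashAction.sum_slash _ _

theorem conj_pow (n : ℕ) (q : Cos Γ) : conj (n * k) (f ^ n) q = conj k f q ^ n := by
  induction n with
  | zero => simpa [conj] using ModularForm.is_invariant_one _
  | succ n ih =>
    rw [pow_succ, pow_succ, show ((n + 1 : ℕ) : ℤ) * k = n * k + k by push_cast; ring, conj_mul, ih]

theorem conj_slash_apply (hf : IsMF Γ k f) (q : Cos Γ) (A : SL(2, ℤ)) (z : ℍ) :
    conj k f (A⁻¹ • q) z = conj k f q (A • z) * denom A z ^ (-k) := by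
  rw [← conj_slash hf, ModularForm.SL_slash_apply]

end conj

variable [Fintype (Cos Γ)] [DecidableEq (Cos Γ)]

/-- Matrix of conjugates of a family of forms. -/
noncomputable def frameMat (m : Cos Γ → ℕ) (f : Cos Γ → ℍ → ℂ) (z : ℍ) :
    Matrix (Cos Γ) (Cos Γ) ℂ :=
  Matrix.of fun i q ↦ conj (2 * (m i : ℤ)) (f i) q z

omit [Fintype (Cos Γ)] [DecidableEq (Cos Γ)] in
theorem frameMat_apply (m : Cos Γ → ℕ) (f : Cos Γ → ℍ → ℂ) (z : ℍ) (i q : Cos Γ) :
    frameMat m f z i q = conj (2 * (m i : ℤ)) (f i) q z := rfl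

/-- A family of forms whose conjugates are generically independent. -/
structure IsFrame (m : Cos Γ → ℕ) (f : Cos Γ → ℍ → ℂ) : Prop where
  mf : ∀ i, IsMF Γ (2 * (m i : ℤ)) (f i)
  det_ne : (fun z ↦ (frameMat m f z).det) ≠ 0

/-- A frame of least total weight. -/
structure IsMinFrame (m : Cos Γ → ℕ) (f : Cos Γ → ℍ → ℂ) : Prop extends IsFrame m f where
  min : ∀ m' f', IsFrame (Γ := Γ) m' f' → ∑ i, m i ≤ ∑ i, m' i

theorem mdiff_det {M : ℍ → Matrix (Cos Γ) (Cos Γ) ℂ} (h : ∀ i j, MDiff fun z ↦ M z i j) :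
    MDiff fun z ↦ (M z).det := by
  simp only [Matrix.det_apply', UpperHalfPlane.mdifferentiable_iff] at *
  intro x hx
  refine DifferentiableWithinAt.fun_sum fun σ _ ↦ DifferentiableWithinAt.const_mul ?_ _
  exact DifferentiableWithinAt.fun_finsetProd fun i _ ↦ h (σ i) i x hx

theorem IsFrame.mdiff {m : Cos Γ → ℕ} {f : Cos Γ → ℍ → ℂ} (hF : IsFrame m f) :
    MDiff fun z ↦ (frameMat m f z).det :=
  mdiff_det fun i q ↦ conj_mdiff (hF.mf i) q

theorem exists_minFrame (h : ∃ (m : Cos Γ → ℕ) (f : Cos Γ → ℍ → ℂ), IsFrame m f) :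
    ∃ (m : Cos Γ → ℕ) (f : Cos Γ → ℍ → ℂ), IsMinFrame m f := by
  classical
  have h' : ∃ s, ∃ (m : Cos Γ → ℕ) (f : Cos Γ → ℍ → ℂ), IsFrame m f ∧ ∑ i, m i = s := by
    obtain ⟨m, f, hf⟩ := h
    exact ⟨_, m, f, hf, rfl⟩
  obtain ⟨m, f, hf, hs⟩ := Nat.find_spec h'
  exact ⟨m, f, hf, fun m' f' hF' ↦ hs ▸ Nat.find_le ⟨m', f', hF', rfl⟩⟩

theorem isFrame_of_injective {t : ℕ} {g : ℍ → ℂ} (hg : IsMF Γ (2 * (t : ℤ)) g)
    (hinj : Function.Injective (conj (Γ := Γ) (2 * (t : ℤ)) g)) :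
    ∃ (m : Cos Γ → ℕ) (f : Cos Γ → ℍ → ℂ), IsFrame m f := by
  let e := Fintype.equivFin (Cos Γ)
  set n := Fintype.card (Cos Γ)
  have hw : ∀ i, ((e i : ℕ) : ℤ) * (2 * (t : ℤ)) = 2 * (((e i : ℕ) * t : ℕ) : ℤ) := fun i ↦ by
    push_cast; ring
  refine ⟨fun i ↦ (e i : ℕ) * t, fun i ↦ g ^ (e i : ℕ), fun i ↦ (hg.pow _).cast (hw i), ?_⟩
  classical
  have hprod : (∏ p ∈ Finset.univ.filter (fun p : Cos Γ × Cos Γ ↦ p.1 ≠ p.2),
      (conj (2 * (t : ℤ)) g p.1 - conj (2 * (t : ℤ)) g p.2)) ≠ (0 : ℍ → ℂ) := by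
    rw [Ne, prod_eq_zero_iff fun p _ ↦ (conj_mdiff hg p.1).sub (conj_mdiff hg p.2)]
    rintro ⟨p, hp, hp0⟩
    exact (Finset.mem_filter.mp hp).2 (hinj (sub_eq_zero.mp hp0))
  obtain ⟨z, hz⟩ := Function.ne_iff.mp hprod
  rw [Finset.prod_apply, Pi.zero_apply, Finset.prod_ne_zero_iff] at hz
  intro h0
  have hV : (frameMat (fun i ↦ (e i : ℕ) * t) (fun i ↦ g ^ (e i : ℕ)) z) =
      ((Matrix.vandermonde fun j : Fin n ↦ conj (2 * (t : ℤ)) g (e.symm j) z).transpose.submatrix
        e e) := by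
    ext i q
    simp only [frameMat_apply, ← hw i, conj_pow]
    simp [Matrix.vandermonde]
  have := congrFun h0 z
  simp only [hV, Matrix.det_submatrix_equiv_self, Matrix.det_transpose, Pi.zero_apply] at this
  rw [← not_ne_iff, Matrix.det_vandermonde_ne_zero_iff] at this
  refine this fun a b hab ↦ e.symm.injective (by_contra fun hne ↦ ?_)
  exact hz (e.symm a, e.symm b) (by simp [hne]) (by simp [hab])

/-- If a multiple of a form is a combination of the frame, the frame can be replaced; hence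
no weight occurring in the combination exceeds the weight of that form. -/
theorem IsMinFrame.le_of_relation {m : Cos Γ → ℕ} {f : Cos Γ → ℍ → ℂ} (hF : IsMinFrame m f)
    [Γ.FiniteIndex] {M : ℤ} {r h : ℍ → ℂ} (hr : IsMF Γ (2 * M) r)
    (a : Cos Γ → ℍ → ℂ) (j : Cos Γ) (ha : MDiff (a j)) (haj : a j ≠ 0)
    (hrel : ∀ q z, h z * conj (2 * M) r q z = ∑ i, a i z * frameMat m f z i q) :
    (m j : ℤ) ≤ M := by
  have key : ∀ z, h z * ((frameMat m f z).updateRow j fun q ↦ conj (2 * M) r q z).det =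
      a j z * (frameMat m f z).det := by
    intro z
    have hs := Matrix.det_updateRow_smul (frameMat m f z) j (h z) (fun q ↦ conj (2 * M) r q z)
    rw [← hs, ← smul_eq_mul (a j z),
      ← Matrix.det_updateRow_sum (frameMat m f z) j fun i ↦ a i z]
    congr 2
    ext q
    simp [hrel, Finset.sum_apply]
  have hdet' : (fun z ↦ ((frameMat m f z).updateRow j fun q ↦ conj (2 * M) r q z).det) ≠ 0 := by
    intro h0
    have : a j * (fun z ↦ (frameMat m f z).det) = 0 := by
      funext z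
      simp only [Pi.mul_apply, Pi.zero_apply, ← key z]
      rw [show ((frameMat m f z).updateRow j fun q ↦ conj (2 * M) r q z).det = 0 from congrFun h0 z,
        mul_zero]
    rcases (mul_eq_zero_iff ha hF.mdiff).mp this with h1 | h1
    · exact haj h1
    · exact hF.det_ne h1
  rcases lt_or_ge M 0 with hM | hM
  · exfalso
    refine hdet' (funext fun z ↦ ?_)
    refine Matrix.det_eq_zero_of_row_eq_zero j fun q ↦ ?_
    rw [hr.eq_zero_of_neg (by omega)]
    simp [conj]
  · obtain ⟨M, rfl⟩ := Int.eq_ofNat_of_zero_le hM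
    have hfr : IsFrame (Function.update m j M) (Function.update f j r) := by
      refine ⟨fun i ↦ ?_, fun h0 ↦ hdet' (funext fun z ↦ ?_)⟩
      · rcases eq_or_ne i j with rfl | hij
        · simpa using hr
        · simpa [hij] using hF.mf i
      · refine Eq.trans ?_ (congrFun h0 z)
        congr 1
        ext i q
        rcases eq_or_ne i j with rfl | hij <;> simp_all [frameMat_apply]
    have := hF.min _ _ hfr
    rw [Finset.sum_update_of_mem (Finset.mem_univ j),
      ← Finset.add_sum_erase _ m (Finset.mem_univ j), Finset.sdiff_singleton_eq_erase] at this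
    exact_mod_cast Nat.le_of_add_le_add_right this

end FLTAgent.Dim
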