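import Mathlib.Algebra.Polynomial.Roots
import Fermat.Agent.Dim.Division
import Fermat.Agent.Dim.Frame

/-!
The determinant of a minimal frame has no zero on the upper half plane.
-/

set_option autoImplicit false

open UpperHalfPlane hiding I
open Filter Complex ModularGroup
open scoped ModularForm MatrixGroups Topology Manifold Real Matrix Derivative

namespace FLTAgent.Dim

variable {Γ : Subgroup SL(2, ℤ)} [Fintype (Cos Γ)] [DecidableEq (Cos Γ)]

/-- The determinant as a function. -/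
noncomputable def frameDet (m : Cos Γ → ℕ) (f : Cos Γ → ℍ → ℂ) : ℍ → ℂ :=
  fun z ↦ (frameMat m f z).det

variable {m : Cos Γ → ℕ} {f : Cos Γ → ℍ → ℂ}

omit [Fintype (Cos Γ)] [DecidableEq (Cos Γ)] in
theorem frameMat_smul (hf : ∀ i, IsMF Γ (2 * (m i : ℤ)) (f i)) (A : SL(2, ℤ)) (z : ℍ)
    (i q : Cos Γ) :
    frameMat m f z i (A⁻¹ • q) = denom A z ^ (-(2 * (m i : ℤ))) * frameMat m f (A • z) i q := by
  rw [frameMat_apply, frameMat_apply, conj_slash_apply (hf i), mul_comm]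

theorem frameDet_slash (hf : ∀ i, IsMF Γ (2 * (m i : ℤ)) (f i)) (A : SL(2, ℤ)) :
    ∃ ε : ℂ, ε ^ 2 = 1 ∧
      frameDet m f ∣[2 * ((∑ i, m i : ℕ) : ℤ)] A = ε • frameDet m f := by
  refine ⟨((Equiv.Perm.sign (MulAction.toPerm A⁻¹ : Equiv.Perm (Cos Γ)) : ℤ) : ℂ), ?_, ?_⟩
  · rw [← Int.cast_pow]
    rcases Int.units_eq_one_or (Equiv.Perm.sign (MulAction.toPerm A⁻¹ : Equiv.Perm (Cos Γ))) with
      h | h <;> simp [h]
  funext z
  have hprod : ∀ d : ℂ, d ≠ 0 →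
      ∏ i, d ^ (-(2 * (m i : ℤ))) = d ^ (-(2 * ((∑ i, m i : ℕ) : ℤ))) := fun d hd ↦ by
    have hn : ∀ n : ℕ, d ^ (-(2 * (n : ℤ))) = ((d ^ 2)⁻¹) ^ n := fun n ↦ by
      rw [zpow_neg, show (2 * (n : ℤ)) = ((2 * n : ℕ) : ℤ) by push_cast; rfl, zpow_natCast, pow_mul,
        inv_pow]
    simp only [hn, Finset.prod_pow_eq_pow_sum]
  have h := Matrix.det_mul_column (fun i ↦ denom A z ^ (-(2 * (m i : ℤ))))
    (frameMat m f (A • z))
  have h2 : (Matrix.of fun i q ↦ denom A z ^ (-(2 * (m i : ℤ))) * frameMat m f (A • z) i q) =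
      (frameMat m f z).submatrix id (MulAction.toPerm A⁻¹ : Equiv.Perm (Cos Γ)) := by
    ext i q
    simp [frameMat_smul hf]
  rw [h2, Matrix.det_permute', hprod _ (denom_ne_zero _ _)] at h
  rw [ModularForm.SL_slash_apply, Pi.smul_apply, smul_eq_mul, frameDet, mul_comm]
  exact h.symm

theorem frameDet_bdd (hf : ∀ i, IsMF Γ (2 * (m i : ℤ)) (f i)) :
    IsBoundedAtImInfty (frameDet m f) := by
  have : frameDet m f ∈ boundedAtImInftySubalgebra ℂ := by
    have e : frameDet m f = ∑ σ : Equiv.Perm (Cos Γ), ((Equiv.Perm.sign σ : ℤ) : ℂ) •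
        ∏ i, conj (2 * (m (σ i) : ℤ)) (f (σ i)) i := by
      funext z
      simp [frameDet, Matrix.det_apply', frameMat_apply]
    rw [e]
    exact Subalgebra.sum_mem _ fun σ _ ↦ Subalgebra.smul_mem _
      (Subalgebra.prod_mem _ fun i _ ↦ conj_bdd (hf (σ i)) i) _
  exact this

theorem IsFrame.isMF_detSq (hF : IsFrame m f) :
    IsMF ⊤ (2 * ((2 * ∑ i, m i : ℕ) : ℤ)) (frameDet m f * frameDet m f) := by
  have key : ∀ A : SL(2, ℤ), (frameDet m f * frameDet m f) ∣[2 * ((2 * ∑ i, m i : ℕ) : ℤ)] A =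
      frameDet m f * frameDet m f := by
    intro A
    obtain ⟨ε, hε, h⟩ := frameDet_slash hF.mf A
    rw [show (2 * ((2 * ∑ i, m i : ℕ) : ℤ)) =
      2 * ((∑ i, m i : ℕ) : ℤ) + 2 * ((∑ i, m i : ℕ) : ℤ) by push_cast; ring,
      ModularForm.mul_slash_SL2, h, smul_mul_smul_comm, ← sq, hε, one_smul]
  refine ⟨hF.mdiff.mul hF.mdiff, fun A _ ↦ key A, fun A ↦ ?_⟩
  rw [key A]
  exact (frameDet_bdd hF.mf).mul (frameDet_bdd hF.mf)

theorem frameDet_eq_zero_iff_of_sameJ (hF : IsFrame m f) {z z₀ : ℍ} (h : SameJ z z₀) :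
    frameDet m f z = 0 ↔ frameDet m f z₀ = 0 := by
  simpa using eq_zero_iff_of_sameJ h hF.isMF_detSq

omit [DecidableEq (Cos Γ)] in
/-- Vanishing of all conjugates is transferred between points with the same `j`. -/
theorem conj_vanish_transfer {K : ℕ} {g : ℍ → ℂ} (hg : IsMF Γ (2 * (K : ℤ)) g) {z z₀ : ℍ}
    (hz : SameJ z z₀) (h0 : ∀ q : Cos Γ, conj (2 * (K : ℤ)) g q z₀ = 0) (q : Cos Γ) :
    conj (2 * (K : ℤ)) g q z = 0 := by
  classical
  set G : Cos Γ → ℂ := fun q ↦ conj (2 * (K : ℤ)) g q z with hG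
  have hpow : ∀ r : ℕ, ∑ q, G q ^ (r + 1) = 0 := by
    intro r
    set P : ℍ → ℂ := ∑ q : Cos Γ, conj (Γ := Γ) (2 * (K : ℤ)) g q ^ (r + 1)
    have hgr := (hg.pow (r + 1)).cast
      (show ((r + 1 : ℕ) : ℤ) * (2 * (K : ℤ)) = 2 * (((r + 1) * K : ℕ) : ℤ) by push_cast; ring)
    have hP : P = ∑ q : Cos Γ, conj (Γ := Γ) (2 * (((r + 1) * K : ℕ) : ℤ)) (g ^ (r + 1)) q := by
      refine Finset.sum_congr rfl fun q _ ↦ ?_
      rw [← conj_pow]
      congr 1
      push_cast; ring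
    have hPmf : IsMF ⊤ (2 * (((r + 1) * K : ℕ) : ℤ)) P := by
      rw [hP]
      have key : ∀ A : SL(2, ℤ),
          (∑ q : Cos Γ, conj (Γ := Γ) (2 * (((r + 1) * K : ℕ) : ℤ)) (g ^ (r + 1)) q)
            ∣[2 * (((r + 1) * K : ℕ) : ℤ)] A =
          ∑ q : Cos Γ, conj (Γ := Γ) (2 * (((r + 1) * K : ℕ) : ℤ)) (g ^ (r + 1)) q := fun A ↦ by
        rw [SlashAction.sum_slash, Finset.sum_congr rfl fun q _ ↦ conj_slash hgr q A]
        exact Equiv.sum_comp (MulAction.toPerm A⁻¹ : Equiv.Perm (Cos Γ))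
          (conj (2 * (((r + 1) * K : ℕ) : ℤ)) (g ^ (r + 1)))
      refine ⟨MDifferentiable.sum fun q _ ↦ conj_mdiff hgr q, fun A _ ↦ key A, fun A ↦ ?_⟩
      rw [key A]
      exact Subalgebra.sum_mem (boundedAtImInftySubalgebra ℂ) fun q _ ↦ conj_bdd hgr q
    have hP0 : P z₀ = 0 := by simp [P, Finset.sum_apply, h0]
    simpa [P, hG, Finset.sum_apply] using (eq_zero_iff_of_sameJ hz hPmf).mpr hP0
  by_contra hne
  set v := G q with hv
  set p : Polynomial ℂ :=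
    Polynomial.X * ∏ w ∈ (Finset.univ.image G).erase v, (Polynomial.X - Polynomial.C w)
  have hsum : ∑ q, p.eval (G q) = 0 := by
    simp only [Polynomial.eval_eq_sum_range]
    rw [Finset.sum_comm]
    refine Finset.sum_eq_zero fun r _ ↦ ?_
    rw [← Finset.mul_sum]
    cases r with
    | zero => simp [p]
    | succ r => rw [hpow r, mul_zero]
  have hoff : ∀ q', G q' ≠ v → p.eval (G q') = 0 := by
    intro q' hq'
    simp only [p, Polynomial.eval_mul, Polynomial.eval_prod]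
    refine mul_eq_zero_of_right _ (Finset.prod_eq_zero (i := G q') ?_ (by simp))
    simp [hq']
  rw [← Finset.sum_filter_of_ne (p := fun q' ↦ G q' = v) fun q' _ h ↦ by_contra fun h' ↦ h (hoff q' h'),
    Finset.sum_congr rfl fun q' hq' ↦ congrArg p.eval (Finset.mem_filter.mp hq').2,
    Finset.sum_const, nsmul_eq_mul, mul_eq_zero] at hsum
  rcases hsum with h | h
  · rw [Nat.cast_eq_zero, Finset.card_eq_zero, Finset.filter_eq_empty_iff] at h
    exact h (Finset.mem_univ q) rfl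
  · simp only [p, Polynomial.eval_mul, Polynomial.eval_X, Polynomial.eval_prod, mul_eq_zero,
      Finset.prod_eq_zero_iff] at h
    rcases h with h | ⟨w, hw, hw0⟩
    · exact hne h
    · simp only [Finset.mem_erase, Polynomial.eval_sub, Polynomial.eval_X, Polynomial.eval_C,
        sub_eq_zero] at hw hw0
      exact hw.1 hw0.symm

/-- The main minimality argument. -/
theorem no_kernel [Γ.FiniteIndex] (hF : IsMinFrame m f) (z₀ : ℍ) {c : Cos Γ → ℂ} {j : Cos Γ}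
    (hc : ∀ q, ∑ i, c i * frameMat m f z₀ i q = 0) (hj : c j ≠ 0) (K : ℕ)
    (P : Cos Γ → ℍ → ℂ)
    (hP : ∀ i, c i ≠ 0 → IsMF ⊤ (2 * ((K : ℤ) - m i)) (P i) ∧ P i z₀ ≠ 0)
    {w : ℕ} {h : ℍ → ℂ} {l : ℂ} (hh : IsMF ⊤ w h) (hzero : ∀ z, h z = 0 ↔ SameJ z z₀)
    (hsimple : ∀ z, h z = 0 → D h z ≠ 0) (hl : l ≠ 0) (hlim : Tendsto h atImInfty (𝓝 l))
    {M : ℤ} (hM : 2 * (K : ℤ) - w = 2 * M) (hMj : M < m j) : False := by
  classical
  set a : Cos Γ → ℍ → ℂ := fun i ↦ if c i = 0 then 0 else (c i / P i z₀) • P i with ha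
  have haz : ∀ i, a i z₀ = c i := by
    intro i
    by_cases hi : c i = 0
    · simp [ha, hi]
    · simp [ha, hi, div_mul_cancel₀ _ (hP i hi).2]
  have hamf : ∀ i, IsMF ⊤ (2 * ((K : ℤ) - m i)) (a i) := by
    intro i
    by_cases hi : c i = 0
    · simpa [ha, hi] using IsMF.zero
    · simpa [ha, hi] using (hP i hi).1.smul _
  set g : ℍ → ℂ := ∑ i, a i * f i with hg
  have hgmf : IsMF Γ (2 * (K : ℤ)) g :=
    IsMF.sum fun i _ ↦ ((hamf i).of_top.mul (hF.mf i)).cast (by ring)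
  have hconj : ∀ q z, conj (2 * (K : ℤ)) g q z = ∑ i, a i z * frameMat m f z i q := by
    intro q z
    rw [hg, conj_sum, Finset.sum_apply]
    refine Finset.sum_congr rfl fun i _ ↦ ?_
    rw [show (2 * (K : ℤ)) = 2 * ((K : ℤ) - m i) + 2 * (m i : ℤ) by ring, conj_mul,
      conj_level_one (hamf i)]
    rfl
  have hvan : ∀ z, h z = 0 → g z = 0 := by
    intro z hz
    have := conj_vanish_transfer hgmf ((hzero z).mp hz)
      (fun q ↦ by rw [hconj]; simpa [haz] using hc q) ((1 : SL(2, ℤ)) : Cos Γ)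
    rwa [conj_one hgmf] at this
  obtain ⟨r, hr, hrg⟩ := exists_quotient hgmf hh hsimple hl hlim hvan
  refine not_le_of_gt hMj (hF.le_of_relation (h := h) (hr.cast hM) a j (hamf j).holo ?_ ?_)
  · intro h0
    exact hj (by rw [← haz j, h0]; rfl)
  · intro q z
    rw [← hconj, ← hrg, show (2 * (K : ℤ)) = 2 * M + (w : ℤ) by omega, conj_mul,
      conj_level_one hh, Pi.mul_apply, mul_comm]

/-- The elliptic point of order three. -/
noncomputable def rhoPt : ℍ := ⟨⟨-1 / 2, Real.sqrt 3 / 2⟩, by simp⟩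

theorem rhoPt_quad : (rhoPt : ℂ) ^ 2 + rhoPt + 1 = 0 := by
  apply Complex.ext <;> simp [rhoPt, sq, Complex.mul_re, Complex.mul_im] <;> ring_nf
  norm_num

theorem S_smul_I : S • UpperHalfPlane.I = UpperHalfPlane.I := by
  rw [modular_S_smul]; ext1; simp [UpperHalfPlane.I]

theorem denom_S_I : denom S UpperHalfPlane.I = Complex.I := by
  rw [ModularGroup.denom_S]; rfl

theorem denom_ST_rho : denom ((S * T : SL(2, ℤ)) : GL (Fin 2) ℝ) rhoPt = (rhoPt : ℂ) + 1 := by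
  simp [denom, coe_S, coe_T, Matrix.mul_apply, Fin.sum_univ_two]

theorem ST_smul_rho : (S * T) • rhoPt = rhoPt := by
  rw [mul_smul, modular_T_smul, modular_S_smul]
  ext1
  have h := rhoPt_quad
  have h1 : (rhoPt : ℂ) + 1 ≠ 0 := fun h0 ↦ by
    rw [eq_neg_of_add_eq_zero_left h0] at h; norm_num at h
  simp only [UpperHalfPlane.coe_vadd, Complex.ofReal_one]
  refine inv_eq_of_mul_eq_one_right ?_
  linear_combination -h

theorem e6_I : e6 UpperHalfPlane.I = 0 := by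
  have h := congrFun (isMF_e6.inv S trivial) UpperHalfPlane.I
  rw [ModularForm.SL_slash_apply, S_smul_I, denom_S_I] at h
  have h1 : (Complex.I : ℂ) ^ (-6 : ℤ) = -1 := by
    rw [zpow_neg, show (6 : ℤ) = ((6 : ℕ) : ℤ) from rfl, zpow_natCast,
      show (6 : ℕ) = 2 * 3 from rfl, pow_mul, Complex.I_sq]
    norm_num
  rw [h1, mul_neg_one] at h
  exact self_eq_neg.mp h.symm

theorem rho_cube : (rhoPt : ℂ) ^ 3 = 1 := by
  linear_combination ((rhoPt : ℂ) - 1) * rhoPt_quad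

theorem e4_rho : e4 rhoPt = 0 := by
  have h := congrFun (isMF_e4.inv (S * T) trivial) rhoPt
  rw [ModularForm.SL_slash_apply, ST_smul_rho, denom_ST_rho] at h
  set r := (rhoPt : ℂ) with hr
  have hsq : (r + 1) ^ 2 = r := by linear_combination rhoPt_quad
  have hr3 := rho_cube
  have hne : r + 1 ≠ 0 := fun h0 ↦ by rw [h0] at hsq; rw [← hr, ← hsq] at hr3; norm_num at hr3
  have h4 : (r + 1) ^ (-4 : ℤ) = r := by
    rw [zpow_neg, show (4 : ℤ) = ((4 : ℕ) : ℤ) from rfl, zpow_natCast]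
    refine inv_eq_of_mul_eq_one_left ?_
    linear_combination r * ((r + 1) ^ 2 + r) * hsq + hr3
  rw [h4] at h
  have hr1 : r - 1 ≠ 0 := fun h0 ↦ by
    have h2 := rhoPt_quad
    rw [← hr, sub_eq_zero.mp h0] at h2
    norm_num at h2
  exact (mul_eq_zero.mp (show (r - 1) * e4 rhoPt = 0 by linear_combination h)).resolve_left hr1

omit [DecidableEq (Cos Γ)] in
/-- Kernel vectors at a fixed point are stable under the weights. -/
theorem kernel_twist (hf : ∀ i, IsMF Γ (2 * (m i : ℤ)) (f i)) {A : SL(2, ℤ)} {z₀ : ℍ}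
    (hA : A • z₀ = z₀) {c : Cos Γ → ℂ} (hc : ∀ q, ∑ i, c i * frameMat m f z₀ i q = 0)
    (q : Cos Γ) :
    ∑ i, c i * (denom A z₀ ^ (-2 : ℤ)) ^ m i * frameMat m f z₀ i q = 0 := by
  rw [← hc (A⁻¹ • q)]
  refine Finset.sum_congr rfl fun i _ ↦ ?_
  rw [frameMat_smul hf, hA, ← zpow_natCast, ← zpow_mul, neg_mul, mul_assoc]

omit [DecidableEq (Cos Γ)] in
theorem exists_max_weight {c : Cos Γ → ℂ} (hc : ∃ i, c i ≠ 0) :
    ∃ j, c j ≠ 0 ∧ ∀ i, c i ≠ 0 → m i ≤ m j := by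
  classical
  obtain ⟨j, hj, hmax⟩ := (Finset.univ.filter fun i ↦ c i ≠ 0).exists_max_image m
    (by obtain ⟨i, hi⟩ := hc; exact ⟨i, by simp [hi]⟩)
  exact ⟨j, (Finset.mem_filter.mp hj).2, fun i hi ↦ hmax i (by simp [hi])⟩

theorem frameDet_ne_zero_I [Γ.FiniteIndex] (hF : IsMinFrame m f) :
    frameDet m f UpperHalfPlane.I ≠ 0 := by
  classical
  intro h0
  obtain ⟨c, hc0, hc⟩ := Matrix.exists_vecMul_eq_zero_iff.mpr h0
  obtain ⟨i₀, hi₀⟩ := Function.ne_iff.mp hc0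
  have hker : ∀ q, ∑ i, c i * frameMat m f UpperHalfPlane.I i q = 0 := fun q ↦ congrFun hc q
  have htw := kernel_twist hF.mf S_smul_I hker
  rw [denom_S_I, show Complex.I ^ (-2 : ℤ) = -1 by
    rw [zpow_neg, show (2 : ℤ) = ((2 : ℕ) : ℤ) from rfl, zpow_natCast, Complex.I_sq]; norm_num] at htw
  set c' : Cos Γ → ℂ := fun i ↦ c i + (-1 : ℂ) ^ (m i₀) * (c i * (-1) ^ (m i)) with hc'
  have hker' : ∀ q, ∑ i, c' i * frameMat m f UpperHalfPlane.I i q = 0 := fun q ↦ by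
    simp [hc', add_mul, Finset.sum_add_distrib, mul_assoc, ← Finset.mul_sum, hker q,
      show ∑ i, c i * ((-1 : ℂ) ^ m i * frameMat m f UpperHalfPlane.I i q) = 0 by
        simpa [mul_assoc] using htw q]
  have hclass : ∀ i, c' i ≠ 0 → Even (m i₀ + m i) := fun i hi ↦ by
    by_contra hodd
    refine hi ?_
    have : (-1 : ℂ) ^ (m i₀ + m i) = -1 := (Nat.not_even_iff_odd.mp hodd).neg_one_pow
    rw [pow_add] at this
    simp only [hc']
    linear_combination (c i) * this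
  obtain ⟨j, hj, hmax⟩ := exists_max_weight (m := m) (c := c') ⟨i₀, by
    simp only [hc']
    rw [mul_left_comm, ← pow_add, Even.neg_one_pow ⟨_, rfl⟩, mul_one, ← two_mul]
    simpa using hi₀⟩
  have hsep := exists_separating UpperHalfPlane.I
  obtain ⟨w, h, l, hh, hcase, hzero, hsimple, hl, hlim⟩ := hsep
  have hw : w = 6 := by
    have h4 := e4_ne_zero_of_e6 e6_I
    rcases hcase with ⟨h, -⟩ | ⟨-, h⟩ | ⟨-, h, -⟩
    · exact absurd h h4
    · exact h
    · exact absurd e6_I h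
  refine no_kernel hF UpperHalfPlane.I hker' hj (m j) (fun i ↦ e4 ^ ((m j - m i) / 2))
    (fun i hi ↦ ⟨(isMF_e4.pow _).cast ?_, pow_ne_zero _ (e4_ne_zero_of_e6 e6_I)⟩)
    hh hzero hsimple hl hlim (M := (m j : ℤ) - 3) (by rw [hw]; push_cast; ring) (by omega)
  obtain ⟨t, ht⟩ := hclass i hi
  obtain ⟨u, hu⟩ := hclass j hj
  have hle := hmax i hi
  omega

theorem frameDet_ne_zero_rho [Γ.FiniteIndex] (hF : IsMinFrame m f) :
    frameDet m f rhoPt ≠ 0 := by
  classical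
  intro h0
  obtain ⟨c, hc0, hc⟩ := Matrix.exists_vecMul_eq_zero_iff.mpr h0
  obtain ⟨i₀, hi₀⟩ := Function.ne_iff.mp hc0
  have hker : ∀ q, ∑ i, c i * frameMat m f rhoPt i q = 0 := fun q ↦ congrFun hc q
  set r : ℂ := (rhoPt : ℂ) ^ 2 with hr
  have hr3 : r ^ 3 = 1 := by linear_combination ((rhoPt : ℂ) ^ 3 + 1) * rho_cube
  have hquad : r ^ 2 + r + 1 = 0 := by
    linear_combination rhoPt_quad + (rhoPt : ℂ) * rho_cube
  have hr1 : r ≠ 1 := fun h ↦ by rw [h] at hquad; norm_num at hquad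
  have hden : denom ((S * T : SL(2, ℤ)) : GL (Fin 2) ℝ) rhoPt ^ (-2 : ℤ) = r := by
    rw [denom_ST_rho, zpow_neg, show (2 : ℤ) = ((2 : ℕ) : ℤ) from rfl, zpow_natCast]
    refine inv_eq_of_mul_eq_one_left ?_
    linear_combination (rhoPt : ℂ) ^ 2 * rhoPt_quad + rho_cube
  have h1 : ∀ q, ∑ i, c i * r ^ m i * frameMat m f rhoPt i q = 0 := fun q ↦ by
    have := kernel_twist hF.mf ST_smul_rho hker q
    rwa [hden] at this
  have h2 : ∀ q, ∑ i, c i * r ^ m i * r ^ m i * frameMat m f rhoPt i q = 0 := fun q ↦ by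
    have := kernel_twist hF.mf ST_smul_rho (c := fun i ↦ c i * r ^ m i) h1 q
    rwa [hden] at this
  set c' : Cos Γ → ℂ := fun i ↦
    c i + r ^ (2 * m i₀) * (c i * r ^ m i) + r ^ (m i₀) * (c i * r ^ m i * r ^ m i) with hc'
  have hker' : ∀ q, ∑ i, c' i * frameMat m f rhoPt i q = 0 := fun q ↦ by
    simp only [hc', add_mul, Finset.sum_add_distrib, mul_assoc (r ^ (2 * m i₀)),
      mul_assoc (r ^ (m i₀)), ← Finset.mul_sum]
    rw [hker q, h1 q, h2 q]
    ring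
  have hc'eq : ∀ i, c' i =
      c i * (1 + r ^ ((2 * m i₀ + m i) % 3) + (r ^ ((2 * m i₀ + m i) % 3)) ^ 2) := by
    intro i
    rw [← pow_eq_pow_mod _ hr3]
    simp only [hc', pow_add, mul_pow]
    rw [show r ^ (m i₀) = (r ^ (2 * m i₀)) ^ 2 by
      rw [← pow_mul r (2 * m i₀) 2, show 2 * m i₀ * 2 = m i₀ + 3 * m i₀ by ring, pow_add, pow_mul r 3, hr3,
        one_pow, mul_one]]
    ring
  have hclass : ∀ i, c' i ≠ 0 → (2 * m i₀ + m i) % 3 = 0 := fun i hi ↦ by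
    by_contra hne
    refine hi ?_
    rw [hc'eq]
    rcases (by omega : (2 * m i₀ + m i) % 3 = 1 ∨ (2 * m i₀ + m i) % 3 = 2) with h | h <;>
      rw [h]
    · linear_combination c i * hquad
    · linear_combination c i * (r ^ 2 - r + 1) * hquad
  obtain ⟨j, hj, hmax⟩ := exists_max_weight (m := m) (c := c') ⟨i₀, by
    rw [hc'eq, show (2 * m i₀ + m i₀) % 3 = 0 by omega]
    simpa [show (1 : ℂ) + 1 + 1 = 3 by norm_num] using hi₀⟩
  obtain ⟨w, h, l, hh, hcase, hzero, hsimple, hl, hlim⟩ := exists_separating rhoPt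
  have hw : w = 4 := by
    rcases hcase with ⟨-, h⟩ | ⟨h, -⟩ | ⟨h, -, -⟩
    · exact h
    · exact absurd h (e6_ne_zero_of_e4 e4_rho)
    · exact absurd e4_rho h
  refine no_kernel hF rhoPt hker' hj (m j) (fun i ↦ e6 ^ ((m j - m i) / 3))
    (fun i hi ↦ ⟨(isMF_e6.pow _).cast ?_, pow_ne_zero _ (e6_ne_zero_of_e4 e4_rho)⟩)
    hh hzero hsimple hl hlim (M := (m j : ℤ) - 2) (by rw [hw]; push_cast; ring) (by omega)
  have hi' := hclass i hi
  have hj' := hclass j hj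
  have hle := hmax i hi
  omega

theorem IsMinFrame.frameDet_ne_zero [Γ.FiniteIndex] (hF : IsMinFrame m f) (z₀ : ℍ) :
    frameDet m f z₀ ≠ 0 := by
  classical
  intro h0
  by_cases ha : e4 z₀ = 0
  · exact frameDet_ne_zero_rho hF
      ((frameDet_eq_zero_iff_of_sameJ hF.toIsFrame (by simp [SameJ, ha, e4_rho])).mpr h0)
  by_cases hb : e6 z₀ = 0
  · exact frameDet_ne_zero_I hF
      ((frameDet_eq_zero_iff_of_sameJ hF.toIsFrame (by simp [SameJ, hb, e6_I])).mpr h0)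
  obtain ⟨c, hc0, hc⟩ := Matrix.exists_vecMul_eq_zero_iff.mpr h0
  obtain ⟨j, hj, hmax⟩ := exists_max_weight (m := m) (Function.ne_iff.mp hc0)
  obtain ⟨w, h, l, hh, hcase, hzero, hsimple, hl, hlim⟩ := exists_separating z₀
  have hw : w = 12 := by
    rcases hcase with ⟨h, -⟩ | ⟨h, -⟩ | ⟨-, -, h⟩
    · exact absurd h ha
    · exact absurd h hb
    · exact h
  have hex : ∀ i, c i ≠ 0 → ∃ p : ℕ × ℕ, 2 * p.1 + 3 * p.2 = m j + 2 - m i := fun i hi ↦ by
    obtain ⟨a, b, hab⟩ := exists_monomial (m := m j + 2 - m i) (by have := hmax i hi; omega)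
    exact ⟨(a, b), hab⟩
  choose p hp using hex
  refine no_kernel hF z₀ (fun q ↦ congrFun hc q) hj (m j + 2)
    (fun i ↦ if hi : c i = 0 then 0 else e4 ^ (p i hi).1 * e6 ^ (p i hi).2) (fun i hi ↦ ?_)
    hh hzero hsimple hl hlim (M := (m j : ℤ) - 4) (by rw [hw]; push_cast; ring) (by omega)
  simp only [dif_neg hi]
  refine ⟨(isMF_monomial _ _).cast ?_, mul_ne_zero (pow_ne_zero _ ha) (pow_ne_zero _ hb)⟩
  rw [hp i hi]
  have := hmax i hi
  omega

end FLTAgent.Dim
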