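import Mathlib.GroupTheory.GroupAction.Quotient
import Mathlib.RingTheory.RootsOfUnity.Complex
import Mathlib.NumberTheory.Modular
import Mathlib.Data.Complex.BigOperators
import Fermat.Agent.Dim.Frame

/-!
The orbits of `T` on the cosets, and the discrete Fourier transform along them.
-/

set_option autoImplicit false

open ModularGroup
open scoped MatrixGroups Real

namespace FLTAgent.Dim

variable {Γ : Subgroup SL(2, ℤ)}

/-- The orbits of `T`. -/
abbrev TOrb (Γ : Subgroup SL(2, ℤ)) : Type :=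
  MulAction.orbitRel.Quotient (Subgroup.zpowers T) (Cos Γ)

/-- Width of an orbit. -/
noncomputable def owidth (O : TOrb Γ) : ℕ :=
  Function.minimalPeriod ((T⁻¹ : SL(2, ℤ)) • ·) (Quotient.out O : Cos Γ)

theorem owidth_pos [Finite (Cos Γ)] (O : TOrb Γ) : 0 < owidth O := by
  have hinj : Function.Injective ((T⁻¹ : SL(2, ℤ)) • · : Cos Γ → Cos Γ) := MulAction.injective _
  obtain ⟨a, b, hab, h⟩ := Finite.exists_ne_map_eq_of_infinite
    (fun n : ℕ ↦ (T⁻¹ : SL(2, ℤ)) ^ n • (Quotient.out O : Cos Γ))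
  wlog hlt : a < b generalizing a b
  · exact this b a hab.symm h.symm (by omega)
  obtain ⟨d, rfl⟩ := Nat.exists_eq_add_of_le hlt.le
  rw [pow_add, mul_smul, smul_left_cancel_iff] at h
  exact Function.IsPeriodicPt.minimalPeriod_pos (n := d) (by omega)
    (MulAction.isPeriodicPt_smul_iff.mpr h.symm)

/-- Index set: an orbit and a residue modulo its width. -/
abbrev CuspIdx (Γ : Subgroup SL(2, ℤ)) : Type := Σ O : TOrb Γ, Fin (owidth O)

/-- The `n`-th translate of the representative of an orbit. -/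
noncomputable def oelem (O : TOrb Γ) (n : ℕ) : Cos Γ :=
  (T⁻¹ : SL(2, ℤ)) ^ n • (Quotient.out O : Cos Γ)

theorem oelem_succ (O : TOrb Γ) (n : ℕ) : oelem O (n + 1) = (T⁻¹ : SL(2, ℤ)) • oelem O n := by
  rw [oelem, oelem, pow_succ', mul_smul]

theorem oelem_width (O : TOrb Γ) : oelem O (owidth O) = oelem O 0 := by
  rw [oelem, oelem, pow_zero, one_smul]
  exact MulAction.pow_smul_eq_iff_minimalPeriod_dvd.mpr dvd_rfl

/-- Index of a coset. -/
noncomputable def cuspElem (y : CuspIdx Γ) : Cos Γ := oelem y.1 y.2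

theorem mk_oelem (O : TOrb Γ) (n : ℕ) : (Quotient.mk'' (oelem O n) : TOrb Γ) = O := by
  refine Eq.trans (Quotient.sound ?_) (Quotient.out_eq O)
  exact ⟨⟨(T⁻¹ : SL(2, ℤ)) ^ n,
    pow_mem (inv_mem (Subgroup.mem_zpowers T)) n⟩, rfl⟩

theorem cuspElem_bijective [Finite (Cos Γ)] : Function.Bijective (cuspElem (Γ := Γ)) := by
  constructor
  · rintro ⟨O, s⟩ ⟨O', s'⟩ h
    obtain rfl : O = O' :=
      (mk_oelem O s).symm.trans ((congrArg _ (h : oelem O s = oelem O' s')).trans (mk_oelem O' s'))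
    refine congrArg (Sigma.mk O) (Fin.ext ?_)
    exact (Function.iterate_eq_iterate_iff_of_lt_minimalPeriod s.2 s'.2).mp
      (by simpa [smul_iterate, cuspElem, oelem] using h)
  · intro x
    set O : TOrb Γ := Quotient.mk'' x
    have hx : MulAction.orbitRel (Subgroup.zpowers T) (Cos Γ) x (Quotient.out O) :=
      Setoid.symm' _ (Quotient.mk_out (s := MulAction.orbitRel (Subgroup.zpowers T) (Cos Γ)) x)
    obtain ⟨⟨t, n, rfl⟩, hn⟩ := MulAction.orbitRel_apply.mp hx
    have hw : (0 : ℤ) < owidth O := Int.natCast_pos.mpr (owidth_pos O)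
    refine ⟨⟨O, ⟨((-n) % owidth O).toNat, by
      have := Int.emod_lt_of_pos (-n) hw
      omega⟩⟩, ?_⟩
    show (T⁻¹ : SL(2, ℤ)) ^ ((-n) % owidth O).toNat • _ = x
    rw [← zpow_natCast, Int.toNat_of_nonneg (Int.emod_nonneg _ hw.ne')]
    refine Eq.trans (MulAction.zpow_smul_mod_minimalPeriod _ _ _) ?_
    rw [inv_zpow, zpow_neg, inv_inv]
    exact hn

/-- Cosets as pairs (orbit, residue). -/
noncomputable def cuspEquiv (Γ : Subgroup SL(2, ℤ)) [Finite (Cos Γ)] : CuspIdx Γ ≃ Cos Γ :=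
  Equiv.ofBijective _ cuspElem_bijective

/-- Basic root of unity of an orbit. -/
noncomputable def oroot (O : TOrb Γ) : ℂ := Complex.exp (2 * π * Complex.I / owidth O)

theorem oroot_prim [Finite (Cos Γ)] (O : TOrb Γ) : IsPrimitiveRoot (oroot O) (owidth O) :=
  Complex.isPrimitiveRoot_exp _ (owidth_pos O).ne'

open scoped Classical in
/-- Block Fourier matrix. -/
noncomputable def dft (Γ : Subgroup SL(2, ℤ)) : Matrix (CuspIdx Γ) (CuspIdx Γ) ℂ :=
  Matrix.of fun y y' ↦ if y.1 = y'.1 then oroot y.1 ^ ((y.2 : ℕ) * (y'.2 : ℕ)) else 0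

open scoped Classical in
/-- Inverse of the block Fourier matrix. -/
noncomputable def idft (Γ : Subgroup SL(2, ℤ)) : Matrix (CuspIdx Γ) (CuspIdx Γ) ℂ :=
  Matrix.of fun y y' ↦
    if y.1 = y'.1 then (oroot y.1 ^ ((y.2 : ℕ) * (y'.2 : ℕ)))⁻¹ / owidth y.1 else 0

open scoped Classical in
theorem idft_mul_dft [Fintype (Cos Γ)] [Fintype (TOrb Γ)] : idft Γ * dft Γ = 1 := by
  ext ⟨O, s⟩ ⟨O', s'⟩
  rw [Matrix.mul_apply, Fintype.sum_sigma, Finset.sum_eq_single O (fun b _ hb ↦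
    Finset.sum_eq_zero fun t _ ↦ by simp [idft, Ne.symm hb]) (by simp)]
  by_cases hO : O = O'
  · subst hO
    have hp := oroot_prim O
    have hpos := owidth_pos O
    have h0 : oroot O ≠ 0 := Complex.exp_ne_zero _
    set ρ : ℂ := oroot O ^ (s' : ℕ) / oroot O ^ (s : ℕ) with hρ
    have hterm : ∀ t : Fin (owidth O),
        idft Γ ⟨O, s⟩ ⟨O, t⟩ * dft Γ ⟨O, t⟩ ⟨O, s'⟩ = ρ ^ (t : ℕ) / owidth O := by
      intro t
      have e1 : oroot O ^ ((t : ℕ) * (s' : ℕ)) = (oroot O ^ (s' : ℕ)) ^ (t : ℕ) := by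
        rw [← pow_mul, mul_comm]
      simp only [idft, dft, Matrix.of_apply, if_true]
      rw [e1, pow_mul, hρ, div_pow]
      ring
    rw [Finset.sum_congr rfl fun t _ ↦ hterm t, ← Finset.sum_div]
    by_cases hs : s = s'
    · subst hs
      have : ρ = 1 := div_self (pow_ne_zero _ h0)
      rw [this, Matrix.one_apply_eq]
      simp [Nat.cast_ne_zero.mpr hpos.ne']
    · rw [Matrix.one_apply_ne (show (⟨O, s⟩ : CuspIdx Γ) ≠ ⟨O, s'⟩ from
        fun h ↦ hs (eq_of_heq (Sigma.mk.inj h).2))]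
      have hρ1 : ρ ≠ 1 := fun h ↦ hs (Fin.ext (hp.pow_inj s.2 s'.2
        ((div_eq_one_iff_eq (pow_ne_zero _ h0)).mp h).symm))
      have hρh : ρ ^ owidth O = 1 := by
        rw [hρ, div_pow, ← pow_mul, ← pow_mul, mul_comm (s' : ℕ), mul_comm (s : ℕ), pow_mul,
          pow_mul, hp.pow_eq_one, one_pow, one_pow, div_one]
      rw [Fin.sum_univ_eq_sum_range (fun t ↦ ρ ^ t), geom_sum_eq hρ1, hρh, sub_self, zero_div,
        zero_div]
  · rw [Matrix.one_apply_ne fun h ↦ hO (congrArg Sigma.fst h)]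
    exact Finset.sum_eq_zero fun t _ ↦ by simp [dft, hO]

open scoped Classical in
theorem dft_mul_idft [Fintype (Cos Γ)] [Fintype (TOrb Γ)] : dft Γ * idft Γ = 1 :=
  mul_eq_one_comm.mp idft_mul_dft

end FLTAgent.Dim
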