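import Mathlib.Topology.Instances.Matrix
import Fermat.Agent.Dim.Interior
import Fermat.Agent.Dim.Orbits

/-!
Behaviour of a minimal frame at the cusps: the sum of its weights and the dual frame.
-/

set_option autoImplicit false

open UpperHalfPlane hiding I
open Filter Complex ModularGroup
open scoped ModularForm MatrixGroups Topology Manifold Real Matrix

namespace FLTAgent.Dim

local notation "Δ" => ModularForm.discriminant
local notation "𝕢" => Function.Periodic.qParam

theorem periodic_of_T {φ : ℍ → ℂ} (h : ∀ z, φ (T • z) = φ z) :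
    Function.Periodic (φ ∘ ofComplex) ((1 : ℝ) : ℂ) := by
  intro w
  by_cases hw : 0 < w.im
  · have hw' : 0 < (w + 1).im := by simpa using hw
    simp only [Function.comp_apply, Complex.ofReal_one, ofComplex_apply_of_im_pos hw',
      ofComplex_apply_of_im_pos hw]
    rw [← h ⟨w, hw⟩]
    congr 1
    rw [modular_T_smul]
    ext1
    simp [add_comm]
  · have hw' : (w + 1).im ≤ 0 := by simpa using not_lt.mp hw
    simp [ofComplex_apply_of_im_nonpos hw', ofComplex_apply_of_im_nonpos (not_lt.mp hw)]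

theorem norm_qParam_one (z : ℍ) : ‖𝕢 1 (z : ℂ)‖ = Real.exp (-2 * π * z.im) := by
  simp [Function.Periodic.norm_qParam]

theorem qParam_width_pow {h : ℕ} (hh : 0 < h) (z : ℂ) : 𝕢 (h : ℝ) z ^ h = 𝕢 1 z := by
  unfold Function.Periodic.qParam
  rw [← Complex.exp_nat_mul]
  congr 1
  push_cast
  have : (h : ℂ) ≠ 0 := Nat.cast_ne_zero.mpr hh.ne'
  field_simp

theorem qParam_bdd {h : ℝ} (hh : 0 < h) :
    IsBoundedAtImInfty fun z : ℍ ↦ 𝕢 h (z : ℂ) :=
  (qParam_tendsto_atImInfty hh).isBigO_one ℝ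

variable {Γ : Subgroup SL(2, ℤ)} [Fintype (Cos Γ)] [DecidableEq (Cos Γ)]
variable {m : Cos Γ → ℕ} {f : Cos Γ → ℍ → ℂ}

/-- The frame matrix with indices reordered along the orbits. -/
noncomputable def fmatY (m : Cos Γ → ℕ) (f : Cos Γ → ℍ → ℂ) (z : ℍ) :
    Matrix (CuspIdx Γ) (CuspIdx Γ) ℂ :=
  (frameMat m f z).submatrix (cuspEquiv Γ) (cuspEquiv Γ)

/-- The oscillating factor. -/
noncomputable def qfac (y : CuspIdx Γ) (z : ℍ) : ℂ := 𝕢 (owidth y.1 : ℝ) z ^ (y.2 : ℕ)

omit [Fintype (Cos Γ)] [DecidableEq (Cos Γ)] in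
theorem qfac_ne_zero (y : CuspIdx Γ) (z : ℍ) : qfac y z ≠ 0 :=
  pow_ne_zero _ (Function.Periodic.qParam_ne_zero _)

variable [Fintype (TOrb Γ)]

/-- The periodic part of the frame matrix. -/
noncomputable def amat (m : Cos Γ → ℕ) (f : Cos Γ → ℍ → ℂ) (z : ℍ) :
    Matrix (CuspIdx Γ) (CuspIdx Γ) ℂ :=
  Matrix.of fun i y ↦ (fmatY m f z * idft Γ) i y / qfac y z

omit [DecidableEq (Cos Γ)] in
open scoped Classical in
theorem fmatY_eq (z : ℍ) :
    fmatY m f z = amat m f z * Matrix.diagonal (fun y ↦ qfac y z) * dft Γ := by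
  have : amat m f z * Matrix.diagonal (fun y ↦ qfac y z) = fmatY m f z * idft Γ := by
    ext i y
    rw [Matrix.mul_diagonal]
    simp [amat, div_mul_cancel₀ _ (qfac_ne_zero y z)]
  rw [this, Matrix.mul_assoc, idft_mul_dft, Matrix.mul_one]

omit [DecidableEq (Cos Γ)] in
theorem amat_periodic (hf : ∀ i, IsMF Γ (2 * (m i : ℤ)) (f i)) (i y : CuspIdx Γ) (z : ℍ) :
    amat m f (T • z) i y = amat m f z i y := by
  classical
  obtain ⟨O, r⟩ := y
  set ζ := oroot O with hζdef
  have hζ : ζ ≠ 0 := Complex.exp_ne_zero _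
  have hG : ∀ x, frameMat m f (T • z) (cuspEquiv Γ i) x =
      frameMat m f z (cuspEquiv Γ i) (T⁻¹ • x) := fun x ↦ by
    rw [frameMat_apply, frameMat_apply, conj_slash_apply (hf _)]
    simp [denom, coe_T]
  have key : ∀ w : ℍ, (fmatY m f w * idft Γ) i ⟨O, r⟩ =
      ∑ t ∈ Finset.range (owidth O),
        frameMat m f w (cuspEquiv Γ i) (oelem O t) * ((ζ ^ (t * r))⁻¹ / owidth O) := by
    intro w
    rw [Matrix.mul_apply, Fintype.sum_sigma, Finset.sum_eq_single O (fun b _ hb ↦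
      Finset.sum_eq_zero fun t _ ↦ by simp [idft, hb]) (by simp),
      ← Fin.sum_univ_eq_sum_range (fun t ↦
        frameMat m f w (cuspEquiv Γ i) (oelem O t) * ((ζ ^ (t * r))⁻¹ / owidth O))]
    refine Finset.sum_congr rfl fun t _ ↦ ?_
    simp [idft, fmatY, cuspEquiv, cuspElem, hζdef]
  have hq : qfac ⟨O, r⟩ (T • z) = ζ ^ (r : ℕ) * qfac ⟨O, r⟩ z := by
    rw [qfac, qfac, ← mul_pow, hζdef, oroot, Function.Periodic.qParam, Function.Periodic.qParam,
      ← Complex.exp_add, modular_T_smul]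
    congr 2
    push_cast [UpperHalfPlane.coe_vadd]
    ring
  set φ : ℕ → ℂ := fun t ↦
    frameMat m f z (cuspEquiv Γ i) (oelem O t) * ((ζ ^ (t * r))⁻¹ / owidth O)
  have hφ : φ (owidth O) = φ 0 := by
    simp only [φ, oelem_width, zero_mul, pow_zero]
    rw [pow_mul, (oroot_prim O).pow_eq_one, one_pow]
  have hshift : ∑ t ∈ Finset.range (owidth O), φ (t + 1) =
      ∑ t ∈ Finset.range (owidth O), φ t := by
    have h1 := Finset.sum_range_succ' φ (owidth O)
    rw [Finset.sum_range_succ, hφ] at h1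
    exact (add_right_cancel h1).symm
  simp only [amat, Matrix.of_apply]
  rw [key, key, hq]
  rw [← hshift, div_eq_div_iff (mul_ne_zero (pow_ne_zero _ hζ) (qfac_ne_zero _ _))
    (qfac_ne_zero _ _), Finset.sum_mul, Finset.sum_mul]
  refine Finset.sum_congr rfl fun t _ ↦ ?_
  simp only [φ, hG, ← oelem_succ]
  rw [add_mul, one_mul, pow_add]
  field_simp

omit [DecidableEq (Cos Γ)] in
theorem amat_mdiff (hf : ∀ i, IsMF Γ (2 * (m i : ℤ)) (f i)) (i y : CuspIdx Γ) :
    MDiff fun z ↦ amat m f z i y := by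
  classical
  have h1 : MDiff fun z ↦ (fmatY m f z * idft Γ) i y := by
    simp only [Matrix.mul_apply, fmatY, Matrix.submatrix_apply, frameMat_apply]
    rw [← Finset.sum_fn]
    exact MDifferentiable.sum fun x _ ↦
      (conj_mdiff (hf _) _).mul mdifferentiable_const
  refine h1.div ?_ fun z ↦ qfac_ne_zero y z
  rw [UpperHalfPlane.mdifferentiable_iff]
  refine DifferentiableOn.congr (f := fun w ↦ 𝕢 (owidth y.1 : ℝ) w ^ (y.2 : ℕ)) ?_ fun w hw ↦ ?_
  · exact ((Function.Periodic.differentiable_qParam).pow _).differentiableOn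
  · simp [qfac, ofComplex_apply_of_im_pos hw]

omit [DecidableEq (Cos Γ)] in
/-- The periodic parts are bounded at infinity. -/
theorem amat_bdd (hf : ∀ i, IsMF Γ (2 * (m i : ℤ)) (f i)) (i y : CuspIdx Γ) :
    IsBoundedAtImInfty fun z ↦ amat m f z i y := by
  classical
  set h := owidth y.1
  have hh : 0 < h := owidth_pos y.1
  have hr : (y.2 : ℕ) < h := y.2.2
  set B : ℍ → ℂ := fun z ↦ 𝕢 1 (z : ℂ) * amat m f z i y
  have hBper : ∀ z, B (T • z) = B z := by
    intro z
    simp only [B, amat_periodic hf]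
    congr 1
    rw [modular_T_smul]
    simp [Function.Periodic.qParam, UpperHalfPlane.coe_vadd, mul_add, Complex.exp_add]
  have hBhol : MDiff B := by
    refine MDifferentiable.mul ?_ (amat_mdiff hf i y)
    rw [UpperHalfPlane.mdifferentiable_iff]
    refine DifferentiableOn.congr (f := fun w ↦ 𝕢 1 w)
      (Function.Periodic.differentiable_qParam).differentiableOn fun w hw ↦ ?_
    simp [ofComplex_apply_of_im_pos hw]
  have hu : IsBoundedAtImInfty fun z ↦ (fmatY m f z * idft Γ) i y := by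
    simp only [Matrix.mul_apply, fmatY, Matrix.submatrix_apply, frameMat_apply]
    rw [← Finset.sum_fn]
    exact Subalgebra.sum_mem (boundedAtImInftySubalgebra ℂ) fun x _ ↦
      (conj_bdd (hf _) _).mul (const_boundedAtFilter _ _)
  have hB0 : IsZeroAtImInfty B := by
    have hq : IsZeroAtImInfty fun z : ℍ ↦ 𝕢 (h : ℝ) (z : ℂ) ^ (h - y.2) := by
      have := (qParam_tendsto_atImInfty (h := (h : ℝ)) (Nat.cast_pos.mpr hh)).pow (h - y.2)
      rwa [zero_pow (by omega)] at this
    refine (Filter.ZeroAtFilter.mul_boundedAtFilter hq hu).congr fun z ↦ ?_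
    simp only [B, amat, Matrix.of_apply, Pi.mul_apply, qfac]
    change _ = _ * (_ / 𝕢 (h : ℝ) (z : ℂ) ^ (y.2 : ℕ))
    rw [← qParam_width_pow hh, ← pow_mul_pow_sub (𝕢 (h : ℝ) (z : ℂ)) hr.le]
    field_simp
    exact (mul_div_cancel_right₀ _ (pow_ne_zero _ (Function.Periodic.qParam_ne_zero _))).symm
  have hdec := hB0.exp_decay_atImInfty one_pos (periodic_of_T hBper) hBhol
    hB0.isBoundedAtImInfty
  obtain ⟨C, hC⟩ := hdec.bound
  refine Asymptotics.IsBigO.of_bound C ?_
  filter_upwards [hC] with z hz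
  simp only [B, norm_mul, norm_qParam_one, div_one, Real.norm_of_nonneg (Real.exp_pos _).le] at hz
  rw [Pi.one_apply, norm_one, mul_one]
  exact le_of_mul_le_mul_left (by linarith) (Real.exp_pos (-2 * π * z.im))

/-- The limit of the periodic part. -/
noncomputable def amatLim (m : Cos Γ → ℕ) (f : Cos Γ → ℍ → ℂ) :
    Matrix (CuspIdx Γ) (CuspIdx Γ) ℂ :=
  Matrix.of fun i y ↦ cuspFunction 1 (fun z ↦ amat m f z i y) 0

omit [DecidableEq (Cos Γ)] in
theorem amat_tendsto (hf : ∀ i, IsMF Γ (2 * (m i : ℤ)) (f i)) :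
    Tendsto (fun z ↦ amat m f z) atImInfty (𝓝 (amatLim m f)) := by
  refine tendsto_pi_nhds.mpr fun i ↦ tendsto_pi_nhds.mpr fun y ↦ ?_
  have hper := periodic_of_T (φ := fun z ↦ amat m f z i y) (amat_periodic hf i y)
  have ha := analyticAt_cuspFunction_zero one_pos hper (amat_mdiff hf i y) (amat_bdd hf i y)
  refine (ha.continuousAt.tendsto.comp (qParam_tendsto_atImInfty one_pos)).congr fun z ↦ ?_
  exact eq_cuspFunction z one_ne_zero hper

/-- Periodic functions vanishing at infinity are dominated by `Δ`. -/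
theorem isBigO_disc_of_periodic {B : ℍ → ℂ} (hper : ∀ z, B (T • z) = B z) (hB : MDiff B)
    (h0 : IsZeroAtImInfty B) : B =O[atImInfty] Δ :=
  (h0.exp_decay_atImInfty one_pos (periodic_of_T hper) hB h0.isBoundedAtImInfty).trans
    (by simpa using ModularForm.exp_isBigO_discriminant)

open scoped Classical in
theorem det_amatLim_ne_zero [Γ.FiniteIndex] (hF : IsMinFrame m f) :
    (amatLim m f).det ≠ 0 := by
  intro h0
  obtain ⟨cY, hc0, hc⟩ := Matrix.exists_vecMul_eq_zero_iff.mpr h0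
  obtain ⟨i₀, hi₀⟩ := Function.ne_iff.mp hc0
  set c : Cos Γ → ℂ := fun x ↦ cY ((cuspEquiv Γ).symm x) with hcdef
  obtain ⟨j, hj, hmax⟩ := exists_max_weight (m := m) (c := c) ⟨cuspEquiv Γ i₀, by simpa [hcdef] using hi₀⟩
  have hex : ∀ i, c i ≠ 0 → ∃ p : ℕ × ℕ, 2 * p.1 + 3 * p.2 = m j + 2 - m i := fun i hi ↦ by
    obtain ⟨a, b, hab⟩ := exists_monomial (m := m j + 2 - m i) (by have := hmax i hi; omega)
    exact ⟨(a, b), hab⟩
  choose p hp using hex
  set a : Cos Γ → ℍ → ℂ := fun i ↦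
    if hi : c i = 0 then 0 else c i • (e4 ^ (p i hi).1 * e6 ^ (p i hi).2) with hadef
  have hamf : ∀ i, IsMF ⊤ (2 * (((m j + 2 : ℕ) : ℤ) - m i)) (a i) := by
    intro i
    by_cases hi : c i = 0
    · simpa [hadef, hi] using IsMF.zero
    · simp only [hadef, dif_neg hi]
      refine ((isMF_monomial _ _).cast ?_).smul _
      rw [hp i hi]
      have := hmax i hi
      omega
  have halim : ∀ i, Tendsto (a i) atImInfty (𝓝 (c i)) := by
    intro i
    by_cases hi : c i = 0
    · simp only [hadef, dif_pos hi]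
      rw [hi]
      exact tendsto_const_nhds
    · simp only [hadef, dif_neg hi]
      have := ((isMF_e4.tendsto_cuspFunction.pow (p i hi).1).mul
        (isMF_e6.tendsto_cuspFunction.pow (p i hi).2)).const_mul (c i)
      simpa [cuspFunction_e4, cuspFunction_e6] using! this
  set K : ℕ := m j + 2
  set g : ℍ → ℂ := ∑ i, a i * f i with hg
  have hgmf : IsMF Γ (2 * (K : ℤ)) g :=
    IsMF.sum fun i _ ↦ ((hamf i).of_top.mul (hF.mf i)).cast (by ring)
  have hconj : ∀ q z, conj (2 * (K : ℤ)) g q z = ∑ i, a i z * frameMat m f z i q := by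
    intro q z
    rw [hg, conj_sum, Finset.sum_apply]
    refine Finset.sum_congr rfl fun i _ ↦ ?_
    rw [show (2 * (K : ℤ)) = 2 * ((K : ℤ) - m i) + 2 * (m i : ℤ) by ring, conj_mul,
      conj_level_one (hamf i)]
    rfl
  set B : CuspIdx Γ → ℍ → ℂ := fun y z ↦ ∑ i, a (cuspEquiv Γ i) z * amat m f z i y with hB
  have hBO : ∀ y, B y =O[atImInfty] Δ := by
    intro y
    refine isBigO_disc_of_periodic (fun z ↦ ?_) ?_ ?_
    · simp only [hB, amat_periodic hF.mf]
      refine Finset.sum_congr rfl fun i _ ↦ ?_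
      congr 1
      have := congrFun ((hamf (cuspEquiv Γ i)).inv T trivial) z
      rw [ModularForm.SL_slash_apply] at this
      simpa [denom, coe_T] using this
    · simp only [hB]
      rw [← Finset.sum_fn]
      exact MDifferentiable.sum fun i _ ↦ (hamf _).holo.mul (amat_mdiff hF.mf i y)
    · have := tendsto_finsetSum (Finset.univ : Finset (CuspIdx Γ)) fun i _ ↦
        (halim (cuspEquiv Γ i)).mul
          (((tendsto_pi_nhds.mp ((tendsto_pi_nhds.mp (amat_tendsto hF.mf)) i)) y))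
      have h0 : ∑ i, c (cuspEquiv Γ i) * amatLim m f i y = 0 := by
        simpa [hcdef, Matrix.vecMul, dotProduct] using congrFun hc y
      rw [h0] at this
      exact this
  have hO : ∀ A : SL(2, ℤ), (g ∣[2 * (K : ℤ)] A) =O[atImInfty] Δ := by
    intro A
    obtain ⟨y', hy'⟩ := (cuspEquiv Γ).surjective ((A⁻¹ : SL(2, ℤ)) : Cos Γ)
    have hgA : g ∣[2 * (K : ℤ)] A = fun z ↦ ∑ y, B y z * (qfac y z * dft Γ y y') := by
      rw [show g ∣[2 * (K : ℤ)] A = conj (2 * (K : ℤ)) g ((A⁻¹ : SL(2, ℤ)) : Cos Γ) by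
        rw [conj_mk hgmf, inv_inv], ← hy']
      funext z
      rw [hconj, ← Equiv.sum_comp (cuspEquiv Γ)]
      have hrow : ∀ i, frameMat m f z (cuspEquiv Γ i) (cuspEquiv Γ y') =
          ∑ y, amat m f z i y * (qfac y z * dft Γ y y') := by
        intro i
        rw [show frameMat m f z (cuspEquiv Γ i) (cuspEquiv Γ y') = fmatY m f z i y' from rfl,
          fmatY_eq, Matrix.mul_apply]
        simp [Matrix.mul_diagonal, mul_assoc]
      simp only [hrow, Finset.mul_sum, hB, Finset.sum_mul]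
      rw [Finset.sum_comm]
      simp [mul_assoc]
    rw [hgA]
    refine Asymptotics.IsBigO.fun_sum fun y _ ↦ ?_
    have hb : IsBoundedAtImInfty fun z ↦ qfac y z * dft Γ y y' :=
      ((((qParam_tendsto_atImInfty (h := (owidth y.1 : ℝ))
        (Nat.cast_pos.mpr (owidth_pos y.1))).pow (y.2 : ℕ)).mul_const (dft Γ y y')).isBigO_one ℝ)
    simpa using! (hBO y).norm_right.mul hb
  obtain ⟨r, hr, hrg⟩ := exists_quotient_disc hgmf hO
  have hle := hF.le_of_relation (M := (m j : ℤ) - 4) (h := Δ) (hr.cast (by simp only [K]; push_cast; ring))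
    a j (hamf j).holo ?_ ?_
  · omega
  · intro h0
    have := tendsto_nhds_unique (halim j) (by rw [h0]; exact tendsto_const_nhds)
    exact hj this
  · intro q z
    rw [← hconj, ← hrg, show (2 * (K : ℤ)) = 2 * ((m j : ℤ) - 4) + 12 by simp only [K]; push_cast; ring,
      conj_mul, conj_level_one isMF_discriminant, Pi.mul_apply, mul_comm]

omit [DecidableEq (Cos Γ)] in
theorem sum_owidth : ∑ O : TOrb Γ, owidth O = Fintype.card (Cos Γ) := by
  classical
  rw [← Fintype.card_congr (cuspEquiv Γ), Fintype.card_sigma]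
  simp

omit [DecidableEq (Cos Γ)] in
theorem prod_qfac_sq (z : ℍ) :
    (∏ y : CuspIdx Γ, qfac y z) ^ 2 =
      𝕢 1 (z : ℂ) ^ (Fintype.card (Cos Γ) - Fintype.card (TOrb Γ)) := by
  have hn : Fintype.card (Cos Γ) - Fintype.card (TOrb Γ) = ∑ O : TOrb Γ, (owidth O - 1) := by
    have h2 : ∑ O : TOrb Γ, (owidth O - 1) + Fintype.card (TOrb Γ) = Fintype.card (Cos Γ) := by
      rw [← sum_owidth, Fintype.card_eq_sum_ones, ← Finset.sum_add_distrib]
      exact Finset.sum_congr rfl fun O _ ↦ Nat.sub_add_cancel (owidth_pos O)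
    omega
  rw [hn, ← Finset.prod_pow_eq_pow_sum, ← Finset.prod_pow, Fintype.prod_sigma]
  refine Finset.prod_congr rfl fun O _ ↦ ?_
  rw [Finset.prod_pow, ← qParam_width_pow (owidth_pos O), ← pow_mul, ← Finset.sum_range_id_mul_two,
    pow_mul]
  simp only [qfac]
  rw [Finset.prod_pow_eq_pow_sum, Fin.sum_univ_eq_sum_range (fun t ↦ t)]

/-- The weights of a minimal frame add up to `3 (ψ - c)`. -/
theorem IsMinFrame.sum_weights [Γ.FiniteIndex] (hF : IsMinFrame m f) :
    ∑ i, m i = 3 * (Fintype.card (Cos Γ) - Fintype.card (TOrb Γ)) := by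
  classical
  set n := Fintype.card (Cos Γ) - Fintype.card (TOrb Γ) with hn
  set R : ℍ → ℂ := (frameDet m f * frameDet m f) / (Δ ^ n) with hR
  have hΔ : ∀ z, (Δ ^ n : ℍ → ℂ) z ≠ 0 := fun z ↦
    pow_ne_zero _ (ModularForm.discriminant_ne_zero z)
  have hR0 : ∀ z, R z ≠ 0 := fun z ↦
    div_ne_zero (mul_ne_zero (hF.frameDet_ne_zero z) (hF.frameDet_ne_zero z)) (hΔ z)
  set w : ℤ := 2 * ((2 * ∑ i, m i : ℕ) : ℤ) - (n : ℤ) * 12 with hw
  have hinv : ∀ A : SL(2, ℤ), R ∣[w] A = R := fun A ↦ by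
    rw [hR, hw, ModularForm.div_slash_SL2, hF.isMF_detSq.inv A trivial,
      (isMF_discriminant.pow n).inv A trivial]
  set L : ℂ := ((amatLim m f).det * (dft Γ).det) ^ 2 with hL
  have hL0 : L ≠ 0 := pow_ne_zero _ (mul_ne_zero (det_amatLim_ne_zero hF) fun h ↦ by
    have := congrArg Matrix.det (idft_mul_dft (Γ := Γ))
    rw [Matrix.det_mul, h, mul_zero, Matrix.det_one] at this
    exact zero_ne_one this)
  have hlim : Tendsto R atImInfty (𝓝 L) := by
    have h1 : Tendsto (fun z ↦ (amat m f z).det) atImInfty (𝓝 (amatLim m f).det) :=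
      (continuous_id.matrix_det.tendsto _).comp (amat_tendsto hF.mf)
    have h2 := (((h1.mul_const (dft Γ).det).pow 2).div
      (ModularForm.tendsto_atImInfty_tprod_one_sub_eta_q_pow.pow n) (by simp))
    simp only [one_pow, div_one] at h2
    refine h2.congr fun z ↦ ?_
    have hd : frameDet m f z =
        (amat m f z).det * (∏ y : CuspIdx Γ, qfac y z) * (dft Γ).det := by
      have := congrArg Matrix.det (fmatY_eq (m := m) (f := f) z)
      rw [fmatY, Matrix.det_submatrix_equiv_self, Matrix.det_mul, Matrix.det_mul,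
        Matrix.det_diagonal] at this
      exact this
    have hq := prod_qfac_sq (Γ := Γ) z
    rw [← hn] at hq
    simp only [hR, Pi.div_apply, Pi.mul_apply, Pi.pow_apply]
    rw [hd, ModularForm.discriminant_eq_q_prod z, mul_pow (𝕢 1 (z : ℂ))]
    rw [show (amat m f z).det * (∏ y, qfac y z) * (dft Γ).det *
        ((amat m f z).det * (∏ y, qfac y z) * (dft Γ).det) =
        ((amat m f z).det * (dft Γ).det) ^ 2 * (∏ y, qfac y z) ^ 2 by ring, hq,
      mul_comm _ (𝕢 1 (z : ℂ) ^ n),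
      mul_div_mul_left _ _ (pow_ne_zero _ (Function.Periodic.qParam_ne_zero _))]
  have hRmdiff : MDiff R :=
    (hF.mdiff.mul hF.mdiff).div (isMF_discriminant.pow n).holo hΔ
  have hRmf : IsMF ⊤ w R :=
    ⟨hRmdiff, fun A _ ↦ hinv A, fun A ↦ by rw [hinv]; exact hlim.isBigO_one ℝ⟩
  have hinv' : ∀ A : SL(2, ℤ), R⁻¹ ∣[-w] A = R⁻¹ := fun A ↦ by
    rw [← one_div, show -w = 0 - w by ring, ModularForm.div_slash_SL2,
      ModularForm.is_invariant_one, hinv]
  have hRinv : IsMF ⊤ (-w) R⁻¹ := by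
    refine ⟨?_, fun A _ ↦ hinv' A, fun A ↦ ?_⟩
    · rw [← one_div]
      exact mdifferentiable_const.div hRmdiff hR0
    · rw [hinv']
      exact (hlim.inv₀ hL0).isBigO_one ℝ
  rcases lt_trichotomy w 0 with h | h | h
  · exact absurd (congrFun (hRmf.eq_zero_of_neg h) UpperHalfPlane.I) (hR0 _)
  · omega
  · exact absurd (inv_eq_zero.mp (congrFun (hRinv.eq_zero_of_neg (by omega)) UpperHalfPlane.I))
      (hR0 _)

/-- The dual frame: `Δ` times the columns of the inverse matrix. -/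
noncomputable def dualFun (m : Cos Γ → ℕ) (f : Cos Γ → ℍ → ℂ) (i q : Cos Γ) : ℍ → ℂ :=
  fun z ↦ Δ z * (frameMat m f z)⁻¹ q i

theorem dualFun_zero [Γ.FiniteIndex] (hF : IsMinFrame m f) (i q : Cos Γ) :
    IsZeroAtImInfty (dualFun m f i q) := by
  classical
  obtain ⟨q', rfl⟩ := (cuspEquiv Γ).surjective q
  obtain ⟨i', rfl⟩ := (cuspEquiv Γ).surjective i
  have hA0 := det_amatLim_ne_zero hF
  have h1 : Tendsto (fun z ↦ (amat m f z)⁻¹) atImInfty (𝓝 (amatLim m f)⁻¹) := by
    refine (continuousAt_matrix_inv _ ?_).tendsto.comp (amat_tendsto hF.mf)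
    rw [Ring.inverse_eq_inv']
    exact continuousAt_inv₀ hA0
  have hrep : ∀ᶠ z in atImInfty, dualFun m f (cuspEquiv Γ i') (cuspEquiv Γ q') z =
      ∑ y, idft Γ q' y * (Δ z * (qfac y z)⁻¹) * (amat m f z)⁻¹ y i' := by
    refine Filter.Eventually.of_forall fun z ↦ ?_
    have hfd : (fmatY m f z)⁻¹ = (frameMat m f z)⁻¹.submatrix (cuspEquiv Γ) (cuspEquiv Γ) :=
      Matrix.inv_submatrix_equiv _ _ _
    have hinv : (fmatY m f z)⁻¹ =
        idft Γ * Matrix.diagonal (fun y ↦ (qfac y z)⁻¹) * (amat m f z)⁻¹ := by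
      rw [fmatY_eq, Matrix.mul_inv_rev, Matrix.mul_inv_rev,
        Matrix.inv_eq_left_inv (idft_mul_dft (Γ := Γ)), ← Matrix.mul_assoc]
      congr 2
      refine Matrix.inv_eq_left_inv ?_
      rw [Matrix.diagonal_mul_diagonal]
      simp [qfac_ne_zero]
    have : (frameMat m f z)⁻¹ (cuspEquiv Γ q') (cuspEquiv Γ i') = (fmatY m f z)⁻¹ q' i' := by
      rw [hfd]; rfl
    simp only [dualFun, this, hinv]
    rw [Matrix.mul_apply, Finset.mul_sum]
    refine Finset.sum_congr rfl fun y _ ↦ ?_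
    rw [Matrix.mul_diagonal]
    ring
  refine (tendsto_congr' hrep).mpr ?_
  rw [← Finset.sum_const_zero (s := (Finset.univ : Finset (CuspIdx Γ)))]
  refine tendsto_finsetSum _ fun y _ ↦ ?_
  have hΔq : Tendsto (fun z : ℍ ↦ Δ z * (qfac y z)⁻¹) atImInfty (𝓝 0) := by
    have hh := owidth_pos y.1
    have hr : (y.2 : ℕ) < owidth y.1 := y.2.2
    have := (((qParam_tendsto_atImInfty (h := (owidth y.1 : ℝ)) (Nat.cast_pos.mpr hh)).pow
      (owidth y.1 - y.2))).mul ModularForm.tendsto_atImInfty_tprod_one_sub_eta_q_pow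
    rw [zero_pow (by omega), zero_mul] at this
    refine this.congr fun z ↦ ?_
    rw [ModularForm.discriminant_eq_q_prod, ← qParam_width_pow hh,
      ← pow_mul_pow_sub (𝕢 (owidth y.1 : ℝ) (z : ℂ)) hr.le, qfac]
    field_simp [pow_ne_zero _ (Function.Periodic.qParam_ne_zero (h := (owidth y.1 : ℝ)) (z : ℂ))]
  have := (hΔq.const_mul (idft Γ q' y)).mul
    ((tendsto_pi_nhds.mp ((tendsto_pi_nhds.mp h1) y)) i')
  simpa using this

end FLTAgent.Dim
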