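import Mathlib.LinearAlgebra.Dimension.StrongRankCondition
import Fermat.Agent.Dim.Cusp

/-!
The dual frame and the space of weight two cusp forms.
-/

set_option autoImplicit false

open UpperHalfPlane hiding I
open Filter Complex ModularGroup
open scoped ModularForm MatrixGroups Topology Manifold Real Matrix

namespace FLTAgent.Dim

local notation "Δ" => ModularForm.discriminant

variable {Γ : Subgroup SL(2, ℤ)} [Fintype (Cos Γ)] [DecidableEq (Cos Γ)] [Fintype (TOrb Γ)]
  [Γ.FiniteIndex]
variable {m : Cos Γ → ℕ} {f : Cos Γ → ℍ → ℂ}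

omit [Fintype (TOrb Γ)] in
theorem IsMinFrame.isUnit_det (hF : IsMinFrame m f) (z : ℍ) : IsUnit (frameMat m f z).det :=
  isUnit_iff_ne_zero.mpr (hF.frameDet_ne_zero z)

omit [Fintype (TOrb Γ)] in
theorem IsMinFrame.mdiff_inv (hF : IsMinFrame m f) (q i : Cos Γ) :
    MDiff fun z ↦ (frameMat m f z)⁻¹ q i := by
  simp only [Matrix.inv_def, Matrix.smul_apply, smul_eq_mul, Ring.inverse_eq_inv',
    Matrix.adjugate_apply, inv_mul_eq_div]
  refine (mdiff_det fun a b ↦ ?_).div hF.mdiff fun z ↦ hF.frameDet_ne_zero z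
  simp only [Matrix.updateRow_apply]
  split_ifs
  · exact mdifferentiable_const
  · exact conj_mdiff (hF.mf a) b

omit [Fintype (TOrb Γ)] in
theorem dualFun_mdiff (hF : IsMinFrame m f) (i q : Cos Γ) : MDiff (dualFun m f i q) :=
  isMF_discriminant.holo.mul (hF.mdiff_inv q i)

omit [Fintype (TOrb Γ)] in
theorem dualFun_slash (hF : IsMinFrame m f) (i q : Cos Γ) (A : SL(2, ℤ)) :
    dualFun m f i q ∣[12 - 2 * (m i : ℤ)] A = dualFun m f i (A⁻¹ • q) := by
  funext z
  set d := denom A z with hd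
  have hd0 : d ≠ 0 := denom_ne_zero A z
  set N : Matrix (Cos Γ) (Cos Γ) ℂ := Matrix.of fun x j ↦
    (frameMat m f z)⁻¹ (A⁻¹ • x) j * d ^ (-(2 * (m j : ℤ))) with hN
  have hmul : frameMat m f (A • z) * N = 1 := by
    ext j k
    have h1 : (frameMat m f z * (frameMat m f z)⁻¹) j k = (1 : Matrix (Cos Γ) (Cos Γ) ℂ) j k := by
      rw [Matrix.mul_nonsing_inv _ (hF.isUnit_det z)]
    rw [Matrix.mul_apply] at h1 ⊢
    rw [← Equiv.sum_comp (MulAction.toPerm A⁻¹ : Equiv.Perm (Cos Γ))] at h1
    simp only [MulAction.toPerm_apply, frameMat_smul hF.mf, ← hd] at h1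
    calc ∑ x, frameMat m f (A • z) j x * N x k
        = d ^ (2 * (m j : ℤ)) * d ^ (-(2 * (m k : ℤ))) *
            ∑ x, d ^ (-(2 * (m j : ℤ))) * frameMat m f (A • z) j x *
              (frameMat m f z)⁻¹ (A⁻¹ • x) k := by
          rw [Finset.mul_sum]
          refine Finset.sum_congr rfl fun x _ ↦ ?_
          simp only [hN, Matrix.of_apply, zpow_neg]
          field_simp
      _ = (1 : Matrix (Cos Γ) (Cos Γ) ℂ) j k := by
          rw [h1]
          rcases eq_or_ne j k with rfl | hjk
          · rw [zpow_neg, mul_inv_cancel₀ (zpow_ne_zero _ hd0), one_mul]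
          · simp [Matrix.one_apply_ne hjk]
  have hΔ : Δ (A • z) * d ^ (-12 : ℤ) = Δ z := by
    have := congrFun (isMF_discriminant.inv A trivial) z
    rwa [ModularForm.SL_slash_apply] at this
  rw [ModularForm.SL_slash_apply, ← hd]
  simp only [dualFun]
  rw [Matrix.inv_eq_right_inv hmul, ← hΔ]
  simp only [hN, Matrix.of_apply]
  have hdd : d ^ (-(2 * (m i : ℤ))) * d ^ (-(12 - 2 * (m i : ℤ))) = d ^ (-12 : ℤ) := by
    rw [← zpow_add₀ hd0]
    congr 1
    ring
  linear_combination (Δ (A • z) * (frameMat m f z)⁻¹ (A⁻¹ • q) i) * hdd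

/-- The base component of the dual frame. -/
noncomputable def dualForm (m : Cos Γ → ℕ) (f : Cos Γ → ℍ → ℂ) (i : Cos Γ) : ℍ → ℂ :=
  dualFun m f i ((1 : SL(2, ℤ)) : Cos Γ)

omit [Fintype (TOrb Γ)] in
theorem dualForm_slash (hF : IsMinFrame m f) (i : Cos Γ) (A : SL(2, ℤ)) :
    dualForm m f i ∣[12 - 2 * (m i : ℤ)] A = dualFun m f i ((A⁻¹ : SL(2, ℤ)) : Cos Γ) := by
  rw [dualForm, dualFun_slash hF, MulAction.Quotient.smul_coe, smul_eq_mul, mul_one]

theorem isMF_dualForm (hF : IsMinFrame m f) (i : Cos Γ) :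
    IsMF Γ (12 - 2 * (m i : ℤ)) (dualForm m f i) := by
  refine ⟨dualFun_mdiff hF i _, fun A hA ↦ ?_, fun A ↦ ?_⟩
  · rw [dualForm_slash hF]
    congr 1
    rw [QuotientGroup.eq]
    simpa using hA
  · rw [dualForm_slash hF]
    exact (dualFun_zero hF i _).isBoundedAtImInfty

omit [Fintype (TOrb Γ)] in
theorem conj_dualForm (hF : IsMinFrame m f) (i q : Cos Γ) :
    conj (12 - 2 * (m i : ℤ)) (dualForm m f i) q = dualFun m f i q := by
  rw [conj, dualForm_slash hF, inv_inv, QuotientGroup.out_eq']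

theorem IsMinFrame.weight_le (hF : IsMinFrame m f) (i : Cos Γ) : m i ≤ 5 := by
  by_contra hlt
  have h0 : dualForm m f i = 0 := by
    rcases (by omega : (12 - 2 * (m i : ℤ)) = 0 ∨ (12 - 2 * (m i : ℤ)) < 0) with h | h
    · obtain ⟨c, hc⟩ := ((isMF_dualForm hF i).cast h).eq_const_of_zero
      have h1 : Tendsto (dualForm m f i) atImInfty (𝓝 0) := dualFun_zero hF i _
      rw [hc] at h1 ⊢
      rw [tendsto_nhds_unique tendsto_const_nhds h1]
      rfl
    · exact (isMF_dualForm hF i).eq_zero_of_neg h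
  have hz := hF.isUnit_det UpperHalfPlane.I
  have h1 : (frameMat m f UpperHalfPlane.I * (frameMat m f UpperHalfPlane.I)⁻¹) i i = 1 := by
    rw [Matrix.mul_nonsing_inv _ hz, Matrix.one_apply_eq]
  rw [Matrix.mul_apply, Finset.sum_eq_zero fun q _ ↦ ?_] at h1
  · exact zero_ne_one h1
  · have := congrFun ((conj_dualForm hF i q).symm) UpperHalfPlane.I
    rw [h0, conj, SlashAction.zero_slash] at this
    simp only [dualFun, Pi.zero_apply, mul_eq_zero,
      ModularForm.discriminant_ne_zero, false_or] at this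
    rw [this, mul_zero]

/-- The pairing of a form of weight two with the frame. -/
noncomputable def pairing (m : Cos Γ → ℕ) (f : Cos Γ → ℍ → ℂ) (g : ℍ → ℂ) (i : Cos Γ) : ℍ → ℂ :=
  ∑ q : Cos Γ, conj (2 * (m i : ℤ)) (f i) q * conj 2 g q

omit [Fintype (TOrb Γ)] [DecidableEq (Cos Γ)] in
theorem pairing_levelOne (hf : ∀ i, IsMF Γ (2 * (m i : ℤ)) (f i))
    (g : CuspForm (Γ : Subgroup (GL (Fin 2) ℝ)) 2) (i : Cos Γ) :
    ∃ G : CuspForm 𝒮ℒ (2 * (m i : ℤ) + 2), ⇑G = pairing m f g i := by
  have hg : IsMF Γ 2 g := isMF_of_modularForm (g : ModularForm (Γ : Subgroup (GL (Fin 2) ℝ)) 2)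
  have hinv : ∀ A : SL(2, ℤ), pairing m f g i ∣[2 * (m i : ℤ) + 2] A = pairing m f g i := by
    intro A
    rw [pairing, SlashAction.sum_slash,
      Finset.sum_congr rfl fun q _ ↦ by rw [ModularForm.mul_slash_SL2, conj_slash (hf i), conj_slash hg]]
    exact Equiv.sum_comp (MulAction.toPerm A⁻¹ : Equiv.Perm (Cos Γ))
      (fun q ↦ conj (2 * (m i : ℤ)) (f i) q * conj 2 (g : ℍ → ℂ) q)
  have hzero : IsZeroAtImInfty (pairing m f g i) := by
    have : pairing m f g i = fun z ↦ ∑ q : Cos Γ, conj (2 * (m i : ℤ)) (f i) q z * conj 2 (g : ℍ → ℂ) q z := by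
      funext z; simp [pairing, Finset.sum_apply]
    rw [this, IsZeroAtImInfty, ZeroAtFilter,
      ← Finset.sum_const_zero (s := (Finset.univ : Finset (Cos Γ)))]
    exact tendsto_finsetSum _ fun q _ ↦
      (conj_bdd (hf i) q).mul_zeroAtFilter (CuspFormClass.zero_at_infty_slash g q.out⁻¹)
  refine ⟨{ toFun := pairing m f g i, slash_action_eq' := ?_, holo' := ?_, zero_at_cusps' := ?_ }, rfl⟩
  · rintro A ⟨A, rfl⟩
    exact hinv A
  · exact MDifferentiable.sum fun q _ ↦ (conj_mdiff (hf i) q).mul (conj_mdiff hg q)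
  · intro c hc
    rw [OnePoint.isZeroAt_iff_forall_SL2Z hc]
    intro A _
    rw [hinv A]
    exact hzero

/-- The weight two cusp forms have a basis indexed by the rows of weight `10`. -/
theorem finrank_cuspForm_two (hF : IsMinFrame m f) :
    Module.finrank ℂ (CuspForm (Γ : Subgroup (GL (Fin 2) ℝ)) 2) =
      (Finset.univ.filter fun i ↦ m i = 5).card := by
  classical
  let z₀ := UpperHalfPlane.I
  let Φ : CuspForm (Γ : Subgroup (GL (Fin 2) ℝ)) 2 →ₗ[ℂ] ({i // m i = 5} → ℂ) :=
    { toFun := fun g i ↦ pairing m f g i.1 z₀ / Δ z₀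
      map_add' := fun g g' ↦ by
        funext i
        simp [pairing, FunLike.coe_add, conj_add, mul_add, Finset.sum_add_distrib, add_div]
      map_smul' := fun c g ↦ by
        funext i
        simp only [pairing, FunLike.coe_smul, conj_smul, Finset.sum_apply, Pi.mul_apply,
          Pi.smul_apply, smul_eq_mul, RingHom.id_apply, mul_left_comm _ c, ← Finset.mul_sum,
          mul_div_assoc] }
  have hinj : Function.Injective Φ := by
    refine (injective_iff_map_eq_zero Φ).mpr fun g hg ↦ ?_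
    have hu : ∀ i, pairing m f g i = 0 := by
      intro i
      obtain ⟨G, hG⟩ := pairing_levelOne hF.mf g i
      have hle := hF.weight_le i
      rcases Nat.lt_or_eq_of_le hle with h5 | h5
      · rw [← hG, rank_zero_iff_forall_zero.mp
          (CuspForm.rank_eq_zero_of_weight_lt_twelve (by omega)) G]
        rfl
      · have e : 2 * (m i : ℤ) + 2 = 12 := by rw [h5]; rfl
        obtain ⟨c, hc⟩ := CuspForm.exists_smul_discriminant_of_weight_eq_twelve (CuspForm.mcast e G)
        have hc' : c • Δ = pairing m f g i := hG ▸ congrArg DFunLike.coe hc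
        have h0 := congrFun hg ⟨i, h5⟩
        simp only [Φ, LinearMap.coe_mk, AddHom.coe_mk, Pi.zero_apply, ← hc', Pi.smul_apply,
          smul_eq_mul, mul_div_assoc, div_self (ModularForm.discriminant_ne_zero z₀), mul_one] at h0
        simp [← hc', h0]
    ext z
    have hv : (frameMat m f z).mulVec (fun q ↦ conj 2 (g : ℍ → ℂ) q z) = 0 := by
      funext i
      have := congrFun (hu i) z
      simpa [pairing, Matrix.mulVec, dotProduct, Finset.sum_apply, frameMat_apply] using this
    have := congrFun (Matrix.eq_zero_of_mulVec_eq_zero (hF.frameDet_ne_zero z) hv)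
      ((1 : SL(2, ℤ)) : Cos Γ)
    exact (congrFun (conj_one
      (isMF_of_modularForm (g : ModularForm (Γ : Subgroup (GL (Fin 2) ℝ)) 2) : IsMF Γ 2 g)) z).symm.trans this
  have hsurj : Function.Surjective Φ := by
    intro v
    let W : {i // m i = 5} → CuspForm (Γ : Subgroup (GL (Fin 2) ℝ)) 2 := fun i ↦
      { toFun := dualForm m f i.1
        slash_action_eq' := fun A hA ↦ by
          obtain ⟨A, hA, rfl⟩ := hA
          exact ((isMF_dualForm hF i.1).cast (by rw [i.2]; rfl)).inv A hA
        holo' := (isMF_dualForm hF i.1).holo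
        zero_at_cusps' := fun {c} hc ↦ by
          rw [Subgroup.IsArithmetic.isCusp_iff_isCusp_SL2Z] at hc
          rw [OnePoint.isZeroAt_iff_forall_SL2Z hc]
          intro A _
          have h2 : (12 - 2 * (m i.1 : ℤ)) = 2 := by rw [i.2]; rfl
          have := dualForm_slash hF i.1 A
          rw [h2] at this
          rw [this]
          exact dualFun_zero hF i.1 _ }
    refine ⟨∑ i, v i • W i, ?_⟩
    rw [map_sum]
    funext j
    rw [Finset.sum_apply, Finset.sum_eq_single j]
    · simp only [map_smul, Pi.smul_apply, smul_eq_mul, Φ, LinearMap.coe_mk, AddHom.coe_mk]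
      have key : pairing m f (W j) j.1 z₀ = Δ z₀ := by
        have h1 : (frameMat m f z₀ * (frameMat m f z₀)⁻¹) j.1 j.1 = 1 := by
          rw [Matrix.mul_nonsing_inv _ (hF.isUnit_det z₀), Matrix.one_apply_eq]
        have h2 : (12 - 2 * (m j.1 : ℤ)) = 2 := by rw [j.2]; rfl
        have hc := fun q ↦ conj_dualForm hF j.1 q
        rw [h2] at hc
        simp only [pairing, Finset.sum_apply, Pi.mul_apply]
        rw [Finset.sum_congr rfl fun q _ ↦ by
          rw [show conj 2 (W j : ℍ → ℂ) q = dualFun m f j.1 q from hc q]]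
        simp only [dualFun, ← frameMat_apply, mul_left_comm _ (Δ z₀), ← Finset.mul_sum]
        rw [Matrix.mul_apply] at h1
        rw [h1, mul_one]
      rw [key, div_self (ModularForm.discriminant_ne_zero z₀), mul_one]
    · intro i _ hij
      simp only [map_smul, Pi.smul_apply, smul_eq_mul, Φ, LinearMap.coe_mk, AddHom.coe_mk]
      have key : pairing m f (W i) j.1 z₀ = 0 := by
        have h1 : (frameMat m f z₀ * (frameMat m f z₀)⁻¹) j.1 i.1 = 0 := by
          rw [Matrix.mul_nonsing_inv _ (hF.isUnit_det z₀),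
            Matrix.one_apply_ne (fun h ↦ hij (Subtype.ext h.symm))]
        have h2 : (12 - 2 * (m i.1 : ℤ)) = 2 := by rw [i.2]; rfl
        have hc := fun q ↦ conj_dualForm hF i.1 q
        rw [h2] at hc
        simp only [pairing, Finset.sum_apply, Pi.mul_apply]
        rw [Finset.sum_congr rfl fun q _ ↦ by
          rw [show conj 2 (W i : ℍ → ℂ) q = dualFun m f i.1 q from hc q]]
        simp only [dualFun, ← frameMat_apply, mul_left_comm _ (Δ z₀), ← Finset.mul_sum]
        rw [Matrix.mul_apply] at h1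
        rw [h1, mul_zero]
      rw [key, zero_div, mul_zero]
    · simp
  rw [(LinearEquiv.ofBijective Φ ⟨hinj, hsurj⟩).finrank_eq, Module.finrank_fintype_fun_eq_card,
    Fintype.card_subtype]

end FLTAgent.Dim
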