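import Mathlib.LinearAlgebra.Matrix.Trace
import Fermat.Agent.Dim.Dual

/-!
Counting the weights of a minimal frame: the dimension formula for a subgroup with a frame.
-/

set_option autoImplicit false

open UpperHalfPlane hiding I
open Filter Complex ModularGroup
open scoped ModularForm MatrixGroups Topology Manifold Real Matrix

namespace FLTAgent.Dim

variable {Γ : Subgroup SL(2, ℤ)} [Fintype (Cos Γ)] [DecidableEq (Cos Γ)] [Γ.FiniteIndex]
variable {m : Cos Γ → ℕ} {f : Cos Γ → ℍ → ℂ}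

/-- The fixed cosets of a stabiliser of a point, through the trace of the intertwiner. -/
theorem IsMinFrame.sum_fixed (hF : IsMinFrame m f) {A : SL(2, ℤ)} {z₀ : ℍ} (hA : A • z₀ = z₀) :
    ∑ i, (denom A z₀ ^ (-2 : ℤ)) ^ m i = Nat.card {q : Cos Γ // A • q = q} := by
  classical
  obtain ⟨F, hFdef⟩ : ∃ F, frameMat m f z₀ = F := ⟨_, rfl⟩
  have hdu : IsUnit F.det := hFdef ▸ hF.isUnit_det z₀
  set σ : Equiv.Perm (Cos Γ) := MulAction.toPerm A⁻¹
  have hFP : F * (1 : Matrix (Cos Γ) (Cos Γ) ℂ).submatrix id σ =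
      Matrix.diagonal (fun i ↦ (denom A z₀ ^ (-2 : ℤ)) ^ m i) * F := by
    rw [show F * (1 : Matrix (Cos Γ) (Cos Γ) ℂ).submatrix id σ = F.submatrix id σ by
      ext i q; simp [Matrix.mul_apply, Matrix.one_apply]]
    ext i q
    rw [Matrix.diagonal_mul, Matrix.submatrix_apply, id, MulAction.toPerm_apply, ← hFdef,
      frameMat_smul hF.mf, hA, ← zpow_natCast, ← zpow_mul, neg_mul]
  have htr := congrArg (fun M ↦ Matrix.trace (F⁻¹ * M)) hFP
  simp only [← Matrix.mul_assoc, Matrix.nonsing_inv_mul _ hdu, Matrix.one_mul] at htr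
  rw [Matrix.trace_mul_comm (F⁻¹ * _) F, ← Matrix.mul_assoc,
    Matrix.mul_nonsing_inv _ hdu, Matrix.one_mul, Matrix.trace_diagonal] at htr
  rw [← htr, Matrix.trace]
  simp only [Matrix.diag_apply, Matrix.submatrix_apply, id, Matrix.one_apply]
  rw [Finset.sum_boole, Nat.card_eq_fintype_card, Fintype.card_subtype]
  refine congrArg (fun s : Finset (Cos Γ) ↦ (s.card : ℂ)) (Finset.filter_congr fun q _ ↦ ?_)
  rw [MulAction.toPerm_apply, eq_inv_smul_iff]

/-- The constant function is a combination, so some weight vanishes. -/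
theorem IsMinFrame.exists_weight_zero (hF : IsMinFrame m f) : ∃ j, m j = 0 := by
  classical
  set a : Cos Γ → ℍ → ℂ := fun i z ↦ ∑ q, (frameMat m f z)⁻¹ q i
  have hrel : ∀ q z, (1 : ℍ → ℂ) z * conj (2 * (0 : ℤ)) (1 : ℍ → ℂ) q z =
      ∑ i, a i z * frameMat m f z i q := by
    intro q z
    rw [conj, mul_zero, ModularForm.is_invariant_one]
    simp only [Pi.one_apply, mul_one, a, Finset.sum_mul]
    rw [Finset.sum_comm]
    have : ∀ p, ∑ i, (frameMat m f z)⁻¹ p i * frameMat m f z i q =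
        (1 : Matrix (Cos Γ) (Cos Γ) ℂ) p q := fun p ↦ by
      rw [← Matrix.mul_apply, Matrix.nonsing_inv_mul _ (hF.isUnit_det z)]
    simp [this, Matrix.one_apply]
  obtain ⟨j, hj⟩ : ∃ j, a j ≠ 0 := by
    by_contra hne
    push Not at hne
    have := hrel ((1 : SL(2, ℤ)) : Cos Γ) UpperHalfPlane.I
    rw [conj, mul_zero, ModularForm.is_invariant_one] at this
    simp [hne] at this
  have ha : MDiff (a j) := by
    simp only [a]
    rw [← Finset.sum_fn]
    exact MDifferentiable.sum fun q _ ↦ hF.mdiff_inv q j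
  have := hF.le_of_relation (M := 0) (h := 1) (IsMF.one.cast (by ring)) a j ha hj hrel
  exact ⟨j, by omega⟩

theorem IsMinFrame.card_weight_zero (hF : IsMinFrame m f) :
    (Finset.univ.filter fun i ↦ m i = 0).card = 1 := by
  classical
  obtain ⟨j, hj⟩ := hF.exists_weight_zero
  rw [Finset.card_eq_one]
  refine ⟨j, Finset.eq_singleton_iff_unique_mem.mpr ⟨by simp [hj], fun i hi ↦ ?_⟩⟩
  rw [Finset.mem_filter] at hi
  by_contra hij
  have hconst : ∀ i, m i = 0 → ∃ c, ∀ q, frameMat m f UpperHalfPlane.I i q = c := by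
    intro i hi
    obtain ⟨c, hc⟩ := ((hF.mf i).cast (by rw [hi]; rfl : 2 * (m i : ℤ) = 0)).eq_const_of_zero
    refine ⟨c, fun q ↦ ?_⟩
    rw [frameMat_apply, hi, conj, hc]
    simp only [Nat.cast_zero, mul_zero]
    rw [ModularForm.is_invariant_const]
    rfl
  obtain ⟨c, hc⟩ := hconst j hj
  obtain ⟨c', hc'⟩ := hconst i hi.2
  refine hF.frameDet_ne_zero UpperHalfPlane.I ?_
  by_cases hc0 : c = 0
  · exact Matrix.det_eq_zero_of_row_eq_zero j fun q ↦ by rw [hc, hc0]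
  · refine Matrix.exists_vecMul_eq_zero_iff.mp ⟨Pi.single i c + Pi.single j (-c'), ?_, ?_⟩
    · intro h
      have := congrFun h i
      simp [hij, hc0] at this
    · funext q
      simp [Matrix.add_vecMul, hc, hc', mul_comm]

/-- The dimension formula, for a subgroup with a frame. -/
theorem finrank_cuspForm_two_of_frame [Fintype (TOrb Γ)]
    (h : ∃ (m : Cos Γ → ℕ) (f : Cos Γ → ℍ → ℂ), IsFrame m f) :
    (Module.finrank ℂ (CuspForm (Γ : Subgroup (GL (Fin 2) ℝ)) 2) : ℚ) =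
      1 + (Fintype.card (Cos Γ) : ℚ) / 12
        - (Nat.card {q : Cos Γ // S • q = q} : ℚ) / 4
        - (Nat.card {q : Cos Γ // (S * T) • q = q} : ℚ) / 3
        - (Fintype.card (TOrb Γ) : ℚ) / 2 := by
  classical
  obtain ⟨m, f, hF⟩ := exists_minFrame h
  rw [finrank_cuspForm_two hF]
  set n : ℕ → ℕ := fun k ↦ (Finset.univ.filter fun i ↦ m i = k).card with hn
  change (n 5 : ℚ) = _
  have hle := hF.weight_le
  have hsum : ∀ {R : Type} [CommRing R] (φ : ℕ → R), ∑ i, φ (m i) =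
      n 0 * φ 0 + n 1 * φ 1 + n 2 * φ 2 + n 3 * φ 3 + n 4 * φ 4 + n 5 * φ 5 := by
    intro R _ φ
    rw [← Finset.sum_fiberwise_of_maps_to (t := Finset.range 6) (g := m)
      (fun i _ ↦ Finset.mem_range.mpr (Nat.lt_succ_of_le (hle i))) (fun i ↦ φ (m i))]
    have : ∀ k, ∑ i ∈ Finset.univ.filter (fun i ↦ m i = k), φ (m i) = n k * φ k := fun k ↦ by
      rw [Finset.sum_congr rfl fun i hi ↦ congrArg φ (Finset.mem_filter.mp hi).2,
        Finset.sum_const, nsmul_eq_mul]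
    simp only [this, Finset.sum_range_succ, Finset.sum_range_zero, zero_add]
  have h0 : n 0 = 1 := hF.card_weight_zero
  have hψ : (Fintype.card (Cos Γ) : ℚ) = n 0 + n 1 + n 2 + n 3 + n 4 + n 5 := by
    simpa using hsum (R := ℚ) (fun _ ↦ 1)
  have hw : (n 1 : ℚ) + 2 * n 2 + 3 * n 3 + 4 * n 4 + 5 * n 5 =
      3 * ((Fintype.card (Cos Γ) : ℚ) - Fintype.card (TOrb Γ)) := by
    have hc : Fintype.card (TOrb Γ) ≤ Fintype.card (Cos Γ) :=
      Fintype.card_le_of_surjective _ Quotient.mk''_surjective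
    have h1 := hsum (R := ℚ) (fun k ↦ (k : ℚ))
    rw [← Nat.cast_sum, hF.sum_weights, Nat.cast_mul, Nat.cast_sub hc] at h1
    push_cast at h1
    linear_combination -h1
  have h2 : (Nat.card {q : Cos Γ // S • q = q} : ℚ) =
      n 0 - n 1 + n 2 - n 3 + n 4 - n 5 := by
    have h1 := hF.sum_fixed S_smul_I
    rw [denom_S_I, show Complex.I ^ (-2 : ℤ) = -1 by
      rw [zpow_neg, show (2 : ℤ) = ((2 : ℕ) : ℤ) from rfl, zpow_natCast, Complex.I_sq]; norm_num,
      hsum (fun k ↦ (-1 : ℂ) ^ k)] at h1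
    apply Rat.cast_injective (α := ℂ)
    push_cast
    linear_combination -h1
  have hr : denom ((S * T : SL(2, ℤ)) : GL (Fin 2) ℝ) rhoPt ^ (-2 : ℤ) = -1 - (rhoPt : ℂ) := by
    rw [denom_ST_rho, zpow_neg, show (2 : ℤ) = ((2 : ℕ) : ℤ) from rfl, zpow_natCast]
    refine inv_eq_of_mul_eq_one_right ?_
    linear_combination (-(rhoPt : ℂ) - 2) * rhoPt_quad
  have h3 := hF.sum_fixed ST_smul_rho
  rw [hr, hsum (fun k ↦ (-1 - (rhoPt : ℂ)) ^ k)] at h3
  have h3' : ((n 0 : ℂ) + n 3 - (n 1 + n 4)) + (rhoPt : ℂ) * ((n 2 : ℂ) + n 5 - (n 1 + n 4)) =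
      (Nat.card {q : Cos Γ // (S * T) • q = q} : ℂ) := by
    rw [← h3]
    linear_combination ((n 3 : ℂ) * ((rhoPt : ℂ) + 2) - (n 2 : ℂ)
      - (n 4 : ℂ) * ((rhoPt : ℂ) ^ 2 + 3 * rhoPt + 2)
      + (n 5 : ℂ) * ((rhoPt : ℂ) ^ 3 + 4 * (rhoPt : ℂ) ^ 2 + 5 * rhoPt + 1)) * rhoPt_quad
  have him := congrArg Complex.im h3'
  have hre := congrArg Complex.re h3'
  simp [rhoPt] at him hre
  have hbc : (n 2 : ℚ) + n 5 = n 1 + n 4 := by
    have : (n 2 : ℝ) + n 5 = n 1 + n 4 := by linarith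
    exact_mod_cast this
  have ha : (Nat.card {q : Cos Γ // (S * T) • q = q} : ℚ) = n 0 + n 3 - (n 1 + n 4) := by
    have e : (n 2 : ℝ) + n 5 = n 1 + n 4 := by linarith
    have : (Nat.card {q : Cos Γ // (S * T) • q = q} : ℝ) = n 0 + n 3 - (n 1 + n 4) := by
      rw [Nat.card_eq_fintype_card]
      linarith
    exact_mod_cast this
  have h0' : (n 0 : ℚ) = 1 := by rw [h0]; rfl
  linarith

end FLTAgent.Dim
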