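import Mathlib.NumberTheory.ModularForms.CongruenceSubgroups
import Fermat.Agent.Dim.Frame

/-!
`Δ(Nz)` separates the cosets of `Γ₀(N)`.
-/

set_option autoImplicit false

open UpperHalfPlane hiding I
open Filter Complex ModularGroup CongruenceSubgroup
open scoped ModularForm MatrixGroups Topology Manifold Real

namespace FLTAgent.Dim

local notation "Δ" => ModularForm.discriminant

variable (N : ℕ) [NeZero N]

/-- `diag(N, 1)`. -/
noncomputable def scaleMat : GL (Fin 2) ℝ :=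
  Matrix.GeneralLinearGroup.mkOfDetNeZero !![(N : ℝ), 0; 0, 1]
    (by simp [Matrix.det_fin_two_of, NeZero.ne N])

/-- `Δ(Nz)`, up to a constant. -/
noncomputable def discScaled : ℍ → ℂ := Δ ∣[(12 : ℤ)] scaleMat N

/-- Upper triangular factor of `diag(N, 1) γ`. -/
theorem exists_hnf (γ : SL(2, ℤ)) : ∃ (δ : SL(2, ℤ)) (U : GL (Fin 2) ℝ) (e : ℤ),
    scaleMat N * (γ : GL (Fin 2) ℝ) = (δ : GL (Fin 2) ℝ) * U ∧
      U 1 0 = 0 ∧ 0 < e ∧ e ∣ γ 1 0 ∧ U 0 0 = e ∧ U 1 1 = (N : ℝ) / e := by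
  set e : ℤ := ((Int.gcd ((N : ℤ) * γ 0 0) (γ 1 0) : ℕ) : ℤ) with he
  have hdet : γ 0 0 * γ 1 1 - γ 0 1 * γ 1 0 = 1 := by
    have := γ.det_coe
    rwa [Matrix.det_fin_two] at this
  have hepos : 0 < e := by
    rw [he, Int.natCast_pos, Int.gcd_pos_iff]
    by_contra h
    push Not at h
    rw [mul_eq_zero, or_iff_right (Int.natCast_ne_zero.mpr (NeZero.ne N))] at h
    rw [h.1, h.2] at hdet
    simp at hdet
  obtain ⟨p, hp⟩ : e ∣ (N : ℤ) * γ 0 0 := Int.gcd_dvd_left _ _
  obtain ⟨r, hr⟩ : e ∣ γ 1 0 := Int.gcd_dvd_right _ _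
  set s := Int.gcdA ((N : ℤ) * γ 0 0) (γ 1 0)
  set t := Int.gcdB ((N : ℤ) * γ 0 0) (γ 1 0)
  have hbz : p * s + r * t = 1 := by
    have h := Int.gcd_eq_gcd_ab ((N : ℤ) * γ 0 0) (γ 1 0)
    rw [← he] at h
    apply mul_left_cancel₀ hepos.ne'
    linear_combination -h - s * hp - t * hr
  let δ : SL(2, ℤ) := ⟨!![p, -t; r, s], by rw [Matrix.det_fin_two_of]; linear_combination hbz⟩
  set U : GL (Fin 2) ℝ := (δ : GL (Fin 2) ℝ)⁻¹ * (scaleMat N * (γ : GL (Fin 2) ℝ)) with hU
  have hUval : ∀ i j, U i j =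
      (!![(s : ℝ), t; -r, p] * (!![(N : ℝ), 0; 0, 1] *
        !![(γ 0 0 : ℝ), γ 0 1; γ 1 0, γ 1 1])) i j := by
    intro i j
    have e1 : ((δ⁻¹ : SL(2, ℤ)) : GL (Fin 2) ℝ).val = !![(s : ℝ), t; -r, p] := by
      have hδ : δ⁻¹ = ⟨!![s, t; -r, p],
          by rw [Matrix.det_fin_two_of]; linear_combination hbz⟩ :=
        Subtype.ext (by rw [Matrix.SpecialLinearGroup.coe_inv]; simp [δ, Matrix.adjugate_fin_two])
      rw [hδ]
      ext a b
      fin_cases a <;> fin_cases b <;> simp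
    have e2 : (γ : GL (Fin 2) ℝ).val = !![(γ 0 0 : ℝ), γ 0 1; γ 1 0, γ 1 1] := by
      ext a b
      fin_cases a <;> fin_cases b <;> simp
    rw [hU, ← map_inv, ← map_inv, Units.val_mul, Units.val_mul, e1, e2]
    rfl
  refine ⟨δ, U, e, by rw [hU, mul_inv_cancel_left], ?_, hepos, ⟨r, hr⟩, ?_, ?_⟩
  · rw [hUval]
    simp [Matrix.mul_apply, Fin.sum_univ_two]
    have := congrArg (fun x : ℤ ↦ (x : ℝ)) hp
    have h2 := congrArg (fun x : ℤ ↦ (x : ℝ)) hr
    push_cast at this h2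
    linear_combination (-(r : ℝ)) * this + (p : ℝ) * h2
  · rw [hUval]
    simp [Matrix.mul_apply, Fin.sum_univ_two]
    have := congrArg (fun x : ℤ ↦ (x : ℝ)) hp
    have h2 := congrArg (fun x : ℤ ↦ (x : ℝ)) hr
    have h3 := congrArg (fun x : ℤ ↦ (x : ℝ)) hbz
    push_cast at this h2 h3
    linear_combination (s : ℝ) * this + (t : ℝ) * h2 + (e : ℝ) * h3
  · rw [hUval, eq_div_iff (Int.cast_ne_zero.mpr hepos.ne')]
    simp [Matrix.mul_apply, Fin.sum_univ_two]
    have := congrArg (fun x : ℤ ↦ (x : ℝ)) hp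
    have h2 := congrArg (fun x : ℤ ↦ (x : ℝ)) hr
    have h3 := congrArg (fun x : ℤ ↦ (x : ℝ)) hdet
    push_cast at this h2 h3
    linear_combination ((N : ℝ) * γ 0 1) * h2 - (γ 1 1 : ℝ) * this + (N : ℝ) * h3

theorem discScaled_slash_eq {γ : SL(2, ℤ)} {δ : SL(2, ℤ)} {U : GL (Fin 2) ℝ}
    (h : scaleMat N * (γ : GL (Fin 2) ℝ) = (δ : GL (Fin 2) ℝ) * U) :
    discScaled N ∣[(12 : ℤ)] γ = Δ ∣[(12 : ℤ)] U := by
  rw [discScaled, ModularForm.SL_slash, ← SlashAction.slash_mul, h, SlashAction.slash_mul,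
    ← ModularForm.SL_slash, isMF_discriminant.inv δ trivial]

theorem discScaled_inv {γ : SL(2, ℤ)} (hγ : γ ∈ Gamma0 N) :
    discScaled N ∣[(12 : ℤ)] γ = discScaled N := by
  obtain ⟨c, hc⟩ := (ZMod.intCast_zmod_eq_zero_iff_dvd _ _).mp (Gamma0_mem.mp hγ)
  have hdet := γ.det_coe
  rw [Matrix.det_fin_two, hc] at hdet
  let δ : SL(2, ℤ) := ⟨!![γ 0 0, (N : ℤ) * γ 0 1; c, γ 1 1],
    by rw [Matrix.det_fin_two_of]; linear_combination hdet⟩
  refine discScaled_slash_eq N (δ := δ) (Matrix.GeneralLinearGroup.ext fun i j ↦ ?_)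
  have := congrArg (fun x : ℤ ↦ (x : ℝ)) hc
  push_cast at this
  fin_cases i <;> fin_cases j <;>
    simp [scaleMat, δ, Matrix.GeneralLinearGroup.mkOfDetNeZero, Matrix.mul_apply,
      Fin.sum_univ_two, this] <;> ring

theorem isMF_discScaled : IsMF (Gamma0 N) (2 * ((6 : ℕ) : ℤ)) (discScaled N) := by
  refine ⟨isMF_discriminant.holo.slash _ _, fun γ hγ ↦ discScaled_inv N hγ, fun γ ↦ ?_⟩
  obtain ⟨δ, U, e, h, hU, -⟩ := exists_hnf N γ
  change IsBoundedAtImInfty (discScaled N ∣[(12 : ℤ)] γ)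
  rw [discScaled_slash_eq N h]
  exact (ModularForm.discriminant_isZeroAtImInfty.slash (12 : ℤ) hU).isBoundedAtImInfty

/-- A triangular matrix fixing `Δ` is unimodular up to scale. -/
theorem diag_eq_of_slash_eq {V : GL (Fin 2) ℝ} (hV : V 1 0 = 0) (h00 : 0 < V 0 0) (h11 : 0 < V 1 1)
    (h : Δ ∣[(12 : ℤ)] V = Δ) : V 0 0 = V 1 1 := by
  set α := V 0 0 / V 1 1 with hα
  have him : ∀ z : ℍ, (V • z).im = α * z.im := fun z ↦ by
    have hdet : V.det.val = V 0 0 * V 1 1 := by
      simp [Matrix.det_fin_two, hV]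
    rw [UpperHalfPlane.im_smul_eq_div_normSq, hdet, abs_of_pos (mul_pos h00 h11)]
    simp [denom, hV, Complex.normSq_ofReal, hα]
    field_simp
  have hdetpos : 0 < V.det.val := by
    rw [Matrix.GeneralLinearGroup.val_det_apply, Matrix.det_fin_two, hV, mul_zero, sub_zero]
    exact mul_pos h00 h11
  set K : ℝ := V.det.val ^ (11 : ℤ) * (V 1 1) ^ (-12 : ℤ)
  have hK : 0 < K := mul_pos (zpow_pos hdetpos _) (zpow_pos h11 _)
  set P : ℍ → ℝ := fun z ↦ ‖∏' n, (1 - ModularForm.eta_q n z) ^ 24‖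
  have hnorm : ∀ z : ℍ, K * (Real.exp (-2 * π * (α * z.im)) * P (V • z)) =
      Real.exp (-2 * π * z.im) * P z := by
    intro z
    have := congrArg norm (congrFun h z)
    rw [ModularForm.slash_apply, ModularForm.discriminant_eq_q_prod,
      ModularForm.discriminant_eq_q_prod] at this
    simp only [UpperHalfPlane.σ, hdetpos, if_true, denom, hV, Complex.ofReal_zero, zero_mul,
      zero_add, norm_mul, norm_zpow, Complex.norm_real, Function.Periodic.norm_qParam, div_one,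
      Real.norm_eq_abs, abs_abs, ContinuousAlgEquiv.refl_apply] at this
    rw [abs_of_pos hdetpos, abs_of_pos h11] at this
    rw [← him]
    simp only [P, K, UpperHalfPlane.coe_im] at this ⊢
    rw [show (12 : ℤ) - 1 = 11 by norm_num] at this
    linear_combination this
  have hP : Tendsto P atImInfty (𝓝 1) := by
    simpa [P] using ModularForm.tendsto_atImInfty_tprod_one_sub_eta_q_pow.norm
  have hq : Tendsto (fun z ↦ Real.exp (2 * π * ((α - 1) * z.im)) / K) atImInfty (𝓝 1) := by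
    have h1 := (hP.comp (tendsto_smul_atImInfty hV)).div hP one_ne_zero
    rw [div_one] at h1
    refine h1.congr' ?_
    filter_upwards [hP.eventually_ne one_ne_zero] with z hz
    simp only [Function.comp_apply, Pi.div_apply]
    have hk := hnorm z
    rw [show 2 * π * ((α - 1) * z.im) = -2 * π * z.im - -2 * π * (α * z.im) by ring, Real.exp_sub,
      div_div, div_eq_div_iff hz (mul_ne_zero (Real.exp_ne_zero _) hK.ne')]
    linear_combination hk
  have hlog := ((Real.continuousAt_log (by norm_num)).tendsto.comp hq).add_const (Real.log K)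
  have hlin : Tendsto (fun z : ℍ ↦ 2 * π * (α - 1) * z.im) atImInfty
      (𝓝 (Real.log 1 + Real.log K)) := by
    refine hlog.congr fun z ↦ ?_
    simp only [Function.comp_apply]
    rw [Real.log_div (Real.exp_ne_zero _) hK.ne', Real.log_exp]
    ring
  have hα1 : α = 1 := by
    by_contra hne
    rcases lt_or_gt_of_ne hne with hlt | hgt
    · exact not_tendsto_atBot_of_tendsto_nhds hlin
        ((tendsto_comap (f := UpperHalfPlane.im)).const_mul_atTop_of_neg
          (mul_neg_of_pos_of_neg (by positivity) (by linarith)))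
    · exact not_tendsto_atTop_of_tendsto_nhds hlin
        ((tendsto_comap (f := UpperHalfPlane.im)).const_mul_atTop
          (mul_pos (by positivity) (by linarith)))
  exact div_eq_one_iff_eq h11.ne' |>.mp hα1

theorem mem_gamma0_of_slash_eq {γ : SL(2, ℤ)} (h : discScaled N ∣[(12 : ℤ)] γ = discScaled N) :
    γ ∈ Gamma0 N := by
  obtain ⟨δ, U, e, hU, h10, he, hdvd, h00, h11⟩ := exists_hnf N γ
  rw [discScaled_slash_eq N hU] at h
  have hV : Δ ∣[(12 : ℤ)] (U * (scaleMat N)⁻¹) = Δ := by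
    rw [SlashAction.slash_mul, h, discScaled, ← SlashAction.slash_mul, mul_inv_cancel,
      SlashAction.slash_one]
  have hN : (0 : ℝ) < N := Nat.cast_pos.mpr (Nat.pos_of_ne_zero (NeZero.ne N))
  have heR : (0 : ℝ) < e := Int.cast_pos.mpr he
  have hval : ∀ i j, (U * (scaleMat N)⁻¹) i j = U i j * (if j = 0 then (N : ℝ)⁻¹ else 1) := by
    intro i j
    rw [Units.val_mul, Matrix.coe_units_inv]
    simp only [scaleMat, Matrix.GeneralLinearGroup.mkOfDetNeZero]
    fin_cases j <;>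
      simp [Matrix.mul_apply, Fin.sum_univ_two, Matrix.inv_def, Matrix.adjugate_fin_two_of,
        Matrix.det_fin_two_of, hN.ne']
  have key := diag_eq_of_slash_eq (V := U * (scaleMat N)⁻¹) (by simp [hval, h10])
    (by rw [hval, h00]; simp; positivity) (by rw [hval, h11]; simp; positivity) hV
  rw [hval, hval, h00, h11] at key
  simp at key
  field_simp at key
  have heN : (e : ℝ) = N := by nlinarith
  have heN' : e = (N : ℤ) := by exact_mod_cast heN
  rw [Gamma0_mem, ZMod.intCast_zmod_eq_zero_iff_dvd, ← heN']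
  exact hdvd

theorem conj_discScaled_injective :
    Function.Injective (conj (Γ := Gamma0 N) (2 * ((6 : ℕ) : ℤ)) (discScaled N)) := by
  intro a b hab
  induction a using QuotientGroup.induction_on with | H A => ?_
  induction b using QuotientGroup.induction_on with | H B => ?_
  rw [conj_mk (isMF_discScaled N), conj_mk (isMF_discScaled N)] at hab
  rw [QuotientGroup.eq]
  apply mem_gamma0_of_slash_eq N
  change discScaled N ∣[2 * ((6 : ℕ) : ℤ)] (A⁻¹ * B) = discScaled N
  rw [SlashAction.slash_mul, hab, ← SlashAction.slash_mul, inv_mul_cancel, SlashAction.slash_one]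

end FLTAgent.Dim
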